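import Fermat.Agent.FourCubes.Grid

/-!
# The small arcs

On `q ≤ R`, `|β| ≤ K / P³` the product `F` is near `c Q² V (β)²`; off its arc each `V (β)²` is small
in mean square.
-/

set_option autoImplicit false

noncomputable section

namespace FA.FourCubes

open Finset FA.ThreePrimes FA.WaringAsymptotic FA.HuaCubes
open scoped Real

theorem rootFloor_cube {P : ℕ} (hP : 1 ≤ P) : rootFloor 3 (P ^ 3) = P := by
  obtain ⟨-, h1, h2⟩ := rootFloor_spec (k := 3) (by norm_num) (pow_pos hP 3 : 0 < P ^ 3)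
  have a1 := (Nat.pow_le_pow_iff_left three_ne_zero).1 h1
  have a2 := (Nat.pow_lt_pow_iff_left three_ne_zero).1 h2
  omega

theorem intTrig_add_intCast {ι : Type*} (A : Finset ι) (c : ι → ℂ) (φ : ι → ℤ) (t : ℝ) (k : ℤ) :
    intTrig A c φ (t + k) = intTrig A c φ t := by
  refine sum_congr rfl fun i _ => ?_
  rw [mul_add, ← Int.cast_mul, eAdd_add_intCast]

theorem fourTrig_add_intCast (P Q : ℕ) (t : ℝ) (k : ℤ) :
    fourTrig P Q (t + k) = fourTrig P Q t := by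
  rw [fourTrig_eq, fourTrig_eq, intTrig_add_intCast]

theorem weightWindow_add_intCast (P : ℕ) (t : ℝ) (k : ℤ) :
    weightWindow P (t + k) = weightWindow P t := by
  rw [weightWindow_eq, weightWindow_eq, intTrig_add_intCast]

theorem cube_rpow_third (x : ℕ) : (((x ^ 3 : ℕ)) : ℝ) ^ (1 / 3 : ℝ) = x := by
  rw [Nat.cast_pow, ← Real.rpow_natCast, ← Real.rpow_mul (Nat.cast_nonneg x)]
  norm_num

theorem norm_weightWindow_le (P : ℕ) (β : ℝ) : ‖weightWindow P β‖ ≤ 3 * P := by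
  refine (norm_sub_le _ _).trans ((add_le_add (norm_weightSum_le (by norm_num) (by norm_num) _ β)
    (norm_weightSum_le (by norm_num) (by norm_num) _ β)).trans ?_)
  rw [cube_rpow_third, cube_rpow_third]
  push_cast
  linarith

theorem norm_weightWindow_le_inv (P : ℕ) {β : ℝ} (hβ : 0 < nearDist β) :
    ‖weightWindow P β‖ ≤ 6 * nearDist β ^ (-(1 / 3) : ℝ) := by
  refine (norm_sub_le _ _).trans ((add_le_add (norm_weightSum_le_inv (by norm_num) (by norm_num) _ hβ)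
    (norm_weightSum_le_inv (by norm_num) (by norm_num) _ hβ)).trans (le_of_eq ?_))
  ring

theorem norm_shortCube_sub_le (Q : ℕ) (x y : ℝ) :
    ‖shortCube Q x - shortCube Q y‖ ≤ 2 * π * (Q : ℝ) ^ 4 * |x - y| := by
  simp only [shortCube, cubeTrig, intTrig, ← sum_sub_distrib]
  refine (norm_sum_le _ _).trans ((sum_le_card_nsmul _ _ (2 * π * (Q : ℝ) ^ 3 * |x - y|)
    fun n hn => ?_).trans (le_of_eq ?_))
  · have e : (1 : ℂ) * eAdd (((n : ℤ) ^ 3 : ℤ) * x) - 1 * eAdd (((n : ℤ) ^ 3 : ℤ) * y) =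
        eAdd (((n : ℤ) ^ 3 : ℤ) * y) * (eAdd ((n : ℝ) ^ 3 * (x - y)) - 1) := by
      rw [mul_sub_one, ← eAdd_add]
      push_cast
      ring_nf
    rw [e, norm_mul, norm_eAdd, one_mul]
    refine (norm_eAdd_sub_one_le _).trans ?_
    rw [mul_assoc (2 * π) ((Q : ℝ) ^ 3), abs_mul, abs_of_nonneg (by positivity : 0 ≤ (n : ℝ) ^ 3)]
    gcongr
    exact_mod_cast (mem_Ioc.1 hn).2
  · rw [Nat.card_Ioc, Nat.sub_zero, nsmul_eq_mul]
    ring

theorem cubeWindow_eq_waringSum (P : ℕ) (t : ℝ) :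
    cubeWindow P t = waringSum 3 (2 * P) t - waringSum 3 P t := by
  have h : ∀ N, waringSum 3 N t = ∑ n ∈ Ioc 0 N, eAdd (t * (n : ℝ) ^ 3) := fun N => by
    rw [waringSum]
    congr 1
  rw [h, h, ← sum_Ioc_consecutive _ (Nat.zero_le P) (show P ≤ 2 * P by omega), add_sub_cancel_left,
    cubeWindow, intTrig, window]
  refine sum_congr rfl fun n _ => ?_
  rw [one_mul, mul_comm t]
  push_cast
  rfl

theorem norm_cubeWindow_approx {P q : ℕ} (hP : 1 ≤ P) (hq : 0 < q) (a : ℤ) (β : ℝ) :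
    ‖cubeWindow P ((a : ℝ) / q + β) - densityFactor 3 q a * weightWindow P β‖ ≤
      16 * q * (1 + 16 * π * |β| * (P : ℝ) ^ 3) := by
  have h : ∀ N : ℕ, 1 ≤ N → N ≤ 2 * P →
      ‖waringSum 3 N ((a : ℝ) / q + β) - densityFactor 3 q a * weightSum (1 / 3) (N ^ 3) β‖ ≤
        8 * q * (1 + 16 * π * |β| * (P : ℝ) ^ 3) := fun N hN hN2 => by
    have h0 := norm_waringSum_sub_le (k := 3) (by norm_num) (pow_pos hN 3 : 0 < N ^ 3) hq a β
    rw [rootFloor_cube hN] at h0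
    push_cast at h0
    refine h0.trans ?_
    rw [show 16 * π * |β| * (P : ℝ) ^ 3 = 2 * π * |β| * (2 * (P : ℝ)) ^ 3 by ring]
    gcongr
    exact_mod_cast hN2
  rw [cubeWindow_eq_waringSum, weightWindow, mul_sub, sub_sub_sub_comm]
  refine (norm_sub_le _ _).trans ((add_le_add (h (2 * P) (by omega) le_rfl)
    (h P hP (by omega))).trans (le_of_eq ?_))
  ring

theorem norm_shortCube_approx (Q : ℕ) {q : ℕ} (hq : 0 < q) (a : ℤ) (β : ℝ) :
    ‖shortCube Q ((a : ℝ) / q + β) - densityFactor 3 q a * Q‖ ≤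
      9 * q + 2 * π * (Q : ℝ) ^ 4 * |β| := by
  rcases Nat.eq_zero_or_pos Q with rfl | hQ
  · simp [shortCube, cubeTrig, intTrig]
  have h0 := norm_waringSum_sub_le (k := 3) (by norm_num) (pow_pos hQ 3 : 0 < Q ^ 3) hq a 0
  rw [rootFloor_cube hQ] at h0
  simp only [abs_zero, mul_zero, zero_mul, add_zero, mul_one] at h0
  have e1 : shortCube Q ((a : ℝ) / q) = waringSum 3 Q ((a : ℝ) / q) := by
    rw [shortCube, cubeTrig, intTrig, waringSum, show Icc 1 Q = Ioc 0 Q from rfl]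
    refine sum_congr rfl fun n _ => ?_
    rw [one_mul]
    push_cast
    ring_nf
  have e2 : ‖weightSum (1 / ((3 : ℕ) : ℝ)) (Q ^ 3) 0 - (Q : ℂ)‖ ≤ 1 := by
    rw [weightSum, sum_congr rfl fun m _ => by
      rw [mul_zero, show eAdd (0 : ℝ) = 1 by simp [eAdd], mul_one], ← Complex.ofReal_sum,
      ← Complex.ofReal_natCast, ← Complex.ofReal_sub, Complex.norm_real, Real.norm_eq_abs, abs_le]
    obtain ⟨h1, h2⟩ := abs_sum_weight_sub_le (c := 1 / ((3 : ℕ) : ℝ)) (by norm_num) (by norm_num)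
      (Q ^ 3)
    rw [show (1 / ((3 : ℕ) : ℝ)) = 1 / 3 by norm_num, cube_rpow_third] at h1 h2
    rw [show (1 / ((3 : ℕ) : ℝ)) = 1 / 3 by norm_num]
    constructor <;> linarith
  have h3 := norm_shortCube_sub_le Q ((a : ℝ) / q + β) ((a : ℝ) / q)
  rw [add_sub_cancel_left, e1] at h3
  have h4 : ‖densityFactor 3 q a * weightSum (1 / ((3 : ℕ) : ℝ)) (Q ^ 3) 0 -
      densityFactor 3 q a * (Q : ℂ)‖ ≤ 1 := by
    rw [← mul_sub, norm_mul]
    exact mul_le_one₀ (norm_densityFactor_le_one 3 q a) (norm_nonneg _) e2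
  have hq1 : (1 : ℝ) ≤ q := by exact_mod_cast hq
  refine (norm_sub_le_norm_sub_add_norm_sub _ (waringSum 3 Q ((a : ℝ) / q)) _).trans ?_
  refine (add_le_add h3 ((norm_sub_le_norm_sub_add_norm_sub _
    (densityFactor 3 q a * weightSum (1 / ((3 : ℕ) : ℝ)) (Q ^ 3) 0) _).trans
      (add_le_add h0 h4))).trans ?_
  linarith

theorem card_arcCentres_le (R : ℕ) : ((arcCentres R).card : ℝ) ≤ (R : ℝ) ^ 2 := by
  rw [arcCentres, card_sigma, Nat.cast_sum]
  refine (sum_le_card_nsmul _ _ (R : ℝ) fun q hq => ?_).trans (le_of_eq ?_)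
  · rw [card_unitResidues]
    exact Nat.cast_le.2 ((Nat.totient_le q).trans (mem_Icc.1 hq).2)
  · rw [Nat.card_Icc, Nat.add_sub_cancel, nsmul_eq_mul, sq]

/-- The points of the grid on no small arc. -/
def offArcs (P R : ℕ) (δ : ℝ) : Finset ℕ :=
  (range (gridSize P)).filter fun h => ∀ z ∈ arcCentres R, h ∉ arc (gridSize P) δ z

/-- **The error on one arc.** -/
theorem norm_arc_error_le {P Q R : ℕ} {K : ℝ} (hP : 1 ≤ P) (hQ : (Q : ℝ) ≤ (P : ℝ) ^ (4 / 5 : ℝ))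
    (hR : 1 ≤ R) (hK : 1 ≤ K) {z : Σ _ : ℕ, ℕ} (hz : z ∈ arcCentres R) {t : ℝ}
    (ht : nearDist (t - centre z) ≤ K / (P : ℝ) ^ 3) :
    ‖fourTrig P Q t - arcWeight z * ((Q : ℂ) ^ 2 * weightWindow P (t - centre z) ^ 2)‖ ≤
      5000 * (R * K * (P : ℝ) ^ 3) := by
  obtain ⟨q, a⟩ := z
  obtain ⟨k, hk⟩ : ∃ k : ℤ, k = round (t - centre ⟨q, a⟩) := ⟨_, rfl⟩
  obtain ⟨β, hβ⟩ : ∃ β : ℝ, β = t - centre ⟨q, a⟩ - k := ⟨_, rfl⟩
  have hq := (mem_arcCentres.1 hz).1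
  simp only at hq
  have hβd : |β| ≤ K / (P : ℝ) ^ 3 := by rw [hβ, hk]; exact ht
  rw [show t = ((a : ℤ) : ℝ) / (q : ℝ) + β + k by rw [hβ, centre]; push_cast; ring,
    fourTrig_add_intCast, show ((a : ℤ) : ℝ) / (q : ℝ) + β + k - centre ⟨q, a⟩ = β + k by
      rw [centre]; push_cast; ring, weightWindow_add_intCast]
  obtain ⟨F, hF⟩ : ∃ F, F = cubeWindow P (((a : ℤ) : ℝ) / (q : ℝ) + β) := ⟨_, rfl⟩
  obtain ⟨G, hG⟩ : ∃ G, G = shortCube Q (((a : ℤ) : ℝ) / (q : ℝ) + β) := ⟨_, rfl⟩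
  obtain ⟨X, hX⟩ : ∃ X, X = densityFactor 3 q (a : ℤ) * weightWindow P β := ⟨_, rfl⟩
  obtain ⟨Y, hY⟩ : ∃ Y, Y = densityFactor 3 q (a : ℤ) * (Q : ℂ) := ⟨_, rfl⟩
  have e : fourTrig P Q (((a : ℤ) : ℝ) / (q : ℝ) + β) -
      arcWeight ⟨q, a⟩ * ((Q : ℂ) ^ 2 * weightWindow P β ^ 2) =
      (F * G + X * Y) * ((F - X) * G + X * (G - Y)) := by
    rw [fourTrig, ← hF, ← hG, hX, hY, arcWeight]
    ring
  rw [e]
  have hdf := norm_densityFactor_le_one 3 q (a : ℤ)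
  have nF : ‖F‖ ≤ P := hF ▸ norm_cubeWindow_le P _
  have nG : ‖G‖ ≤ Q := hG ▸ norm_shortCube_le Q _
  have nX : ‖X‖ ≤ 3 * P := by
    rw [hX, norm_mul]
    exact (mul_le_of_le_one_left (norm_nonneg _) hdf).trans (norm_weightWindow_le P β)
  have nY : ‖Y‖ ≤ Q := by
    rw [hY, norm_mul, Complex.norm_natCast]
    exact mul_le_of_le_one_left (Nat.cast_nonneg Q) hdf
  have hP0 : (0 : ℝ) < P := Nat.cast_pos.2 hP
  have hP1 : (1 : ℝ) ≤ P := by exact_mod_cast hP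
  have hqR : (q : ℝ) ≤ R := Nat.cast_le.2 hq.2
  have hβP : |β| * (P : ℝ) ^ 3 ≤ K := (le_div_iff₀ (by positivity)).1 hβd
  have hR1 : (1 : ℝ) ≤ R := by exact_mod_cast hR
  have hRK : (1 : ℝ) ≤ R * K := one_le_mul_of_one_le_of_one_le hR1 hK
  have hpi := Real.pi_lt_d2
  have nFX : ‖F - X‖ ≤ 900 * (R * K) := by
    rw [hF, hX]
    refine (norm_cubeWindow_approx hP hq.1 a β).trans ?_
    calc 16 * (q : ℝ) * (1 + 16 * π * |β| * (P : ℝ) ^ 3)
        = 16 * (q : ℝ) * (1 + 16 * π * (|β| * (P : ℝ) ^ 3)) := by ring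
      _ ≤ 16 * (R : ℝ) * (K + 16 * π * K) := by gcongr
      _ ≤ _ := by nlinarith [mul_le_mul_of_nonneg_left hpi.le (zero_le_one.trans hRK)]
  have nGY : ‖G - Y‖ ≤ 16 * (R * K * (P : ℝ) ^ (1 / 5 : ℝ)) := by
    rw [hG, hY]
    refine (norm_shortCube_approx Q hq.1 a β).trans ?_
    have h5 : (1 : ℝ) ≤ (P : ℝ) ^ (1 / 5 : ℝ) := Real.one_le_rpow hP1 (by norm_num)
    have hQ4 : (Q : ℝ) ^ 4 ≤ (P : ℝ) ^ (1 / 5 : ℝ) * (P : ℝ) ^ 3 := by
      refine (pow_le_pow_left₀ (Nat.cast_nonneg Q) hQ 4).trans (le_of_eq ?_)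
      rw [← Real.rpow_natCast, ← Real.rpow_mul hP0.le, ← Real.rpow_natCast (P : ℝ) 3,
        ← Real.rpow_add hP0]
      norm_num
    have h1 : 2 * π * (Q : ℝ) ^ 4 * |β| ≤ 7 * ((P : ℝ) ^ (1 / 5 : ℝ) * (R * K)) := by
      calc 2 * π * (Q : ℝ) ^ 4 * |β| ≤ 7 * ((P : ℝ) ^ (1 / 5 : ℝ) * (P : ℝ) ^ 3) * |β| := by
            gcongr
            linarith
        _ = 7 * ((P : ℝ) ^ (1 / 5 : ℝ) * (|β| * (P : ℝ) ^ 3)) := by ring
        _ ≤ _ := mul_le_mul_of_nonneg_left (mul_le_mul_of_nonneg_left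
            (hβP.trans (le_mul_of_one_le_left (zero_le_one.trans hK) hR1)) (by positivity))
            (by norm_num)
    have h2 : (q : ℝ) ≤ (R : ℝ) * K * (P : ℝ) ^ (1 / 5 : ℝ) :=
      hqR.trans ((le_mul_of_one_le_right (by linarith) hK).trans
        (le_mul_of_one_le_right (by linarith) h5))
    linarith
  rw [norm_mul]
  have hs : ‖F * G + X * Y‖ ≤ 4 * (P * Q) := by
    refine (norm_add_le _ _).trans ?_
    rw [norm_mul, norm_mul]
    linarith [mul_le_mul nF nG (norm_nonneg _) hP0.le,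
      mul_le_mul nX nY (norm_nonneg _) (by linarith : (0 : ℝ) ≤ 3 * P)]
  have h65 : (Q : ℝ) ≤ (P : ℝ) ^ (6 / 5 : ℝ) :=
    hQ.trans (Real.rpow_le_rpow_of_exponent_le hP1 (by norm_num))
  have e65 : (P : ℝ) * (P : ℝ) ^ (1 / 5 : ℝ) = (P : ℝ) ^ (6 / 5 : ℝ) := by
    rw [← Real.rpow_one_add' hP0.le (by norm_num)]; norm_num
  have hd : ‖(F - X) * G + X * (G - Y)‖ ≤ 1000 * (R * K * (P : ℝ) ^ (6 / 5 : ℝ)) := by
    refine (norm_add_le _ _).trans ?_
    rw [norm_mul, norm_mul]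
    have a1 := mul_le_mul nFX (nG.trans h65) (norm_nonneg _) (by positivity)
    have a2 := mul_le_mul nX nGY (norm_nonneg _) (by linarith : (0 : ℝ) ≤ 3 * P)
    rw [show 3 * (P : ℝ) * (16 * (R * K * (P : ℝ) ^ (1 / 5 : ℝ))) =
      48 * (R * K * ((P : ℝ) * (P : ℝ) ^ (1 / 5 : ℝ))) by ring, e65] at a2
    have h0 : 0 ≤ (R : ℝ) * K * (P : ℝ) ^ (6 / 5 : ℝ) := by positivity
    linarith
  refine (mul_le_mul hs hd (norm_nonneg _) (by positivity)).trans ?_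
  have hPQ : (P : ℝ) * Q * (P : ℝ) ^ (6 / 5 : ℝ) ≤ (P : ℝ) ^ 3 := by
    calc (P : ℝ) * Q * (P : ℝ) ^ (6 / 5 : ℝ)
        ≤ (P : ℝ) * (P : ℝ) ^ (4 / 5 : ℝ) * (P : ℝ) ^ (6 / 5 : ℝ) := by gcongr
      _ = _ := by
          rw [← Real.rpow_one_add' hP0.le (by norm_num), ← Real.rpow_add hP0,
            ← Real.rpow_natCast (P : ℝ) 3]
          norm_num
  calc 4 * ((P : ℝ) * Q) * (1000 * (R * K * (P : ℝ) ^ (6 / 5 : ℝ)))
      = 4000 * (R * K) * ((P : ℝ) * Q * (P : ℝ) ^ (6 / 5 : ℝ)) := by ring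
    _ ≤ 5000 * (R * K) * (P : ℝ) ^ 3 := by gcongr; norm_num
    _ = _ := by ring

/-- **The smooth form off its arc.** -/
theorem sum_weightWindow_pow_four_le {P : ℕ} (hP : 1 ≤ P) {K : ℝ} (hK : 1 ≤ K)
    (z : Σ _ : ℕ, ℕ) :
    ∑ h ∈ (range (gridSize P)).filter (fun h => h ∉ arc (gridSize P) (K / (P : ℝ) ^ 3) z),
        ‖weightWindow P ((h : ℝ) / gridSize P - centre z)‖ ^ 4 ≤
      20000 * ((P : ℝ) * K ^ (-(1 / 3) : ℝ) *
        ((gridSize P : ℝ) * (1 + Real.log (gridSize P : ℕ)))) := by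
  have : NeZero (gridSize P) := ⟨by have := pow_three_le_gridSize hP; have := pow_pos (show 0 < P from hP) 3; omega⟩
  have hP0 : (0 : ℝ) < P := Nat.cast_pos.2 hP
  obtain ⟨δ, hδ⟩ : ∃ δ : ℝ, δ = K / (P : ℝ) ^ 3 := ⟨_, rfl⟩
  rw [← hδ]
  have hδ0 : 0 < δ := by rw [hδ]; positivity
  have hpt : ∀ h ∈ (range (gridSize P)).filter (fun h => h ∉ arc (gridSize P) δ z),
      ‖weightWindow P ((h : ℝ) / gridSize P - centre z)‖ ^ 4 ≤
        1296 * δ ^ (-(1 / 3) : ℝ) * (2 * clip (1 / (2 * δ)) ((h : ℝ) / gridSize P - centre z)) := by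
    intro h hh
    obtain ⟨d, hd⟩ : ∃ d, d = nearDist ((h : ℝ) / gridSize P - centre z) := ⟨_, rfl⟩
    simp only [mem_filter, arc, not_and, not_le] at hh
    have hdδ : δ < d := hd ▸ hh.2 hh.1
    have hd0 : 0 < d := hδ0.trans hdδ
    refine (pow_le_pow_left₀ (norm_nonneg _)
      (norm_weightWindow_le_inv P (hd ▸ hd0)) 4).trans ?_
    rw [clip, ← hd, if_neg hd0.ne',
      min_eq_right (one_div_le_one_div_of_le (by positivity) (by linarith)),
      show (2 : ℝ) * (1 / (2 * d)) = d⁻¹ by field_simp, mul_pow, ← Real.rpow_natCast (d ^ _) 4,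
      ← Real.rpow_mul hd0.le, show -(1 / 3 : ℝ) * ((4 : ℕ) : ℝ) = -(1 / 3) + -1 by norm_num,
      Real.rpow_add hd0, Real.rpow_neg_one, show (6 : ℝ) ^ 4 = 1296 by norm_num, ← mul_assoc]
    refine mul_le_mul_of_nonneg_right (mul_le_mul_of_nonneg_left ?_ (by norm_num)) (by positivity)
    exact Real.rpow_le_rpow_of_nonpos hδ0 hdδ.le (by norm_num)
  refine (sum_le_sum hpt).trans ?_
  rw [← mul_sum, ← mul_sum]
  refine (mul_le_mul_of_nonneg_left (mul_le_mul_of_nonneg_left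
    ((sum_le_sum_of_subset_of_nonneg (filter_subset _ _) fun h _ _ =>
      clip_nonneg (by positivity) _).trans (sum_clip_grid_le _ (by positivity))) two_pos.le)
    (by positivity)).trans ?_
  have hδr : δ ^ (-(1 / 3) : ℝ) = (P : ℝ) * K ^ (-(1 / 3) : ℝ) := by
    have e := cube_rpow_third P
    push_cast at e
    rw [hδ, Real.div_rpow (by linarith) (by positivity),
      Real.rpow_neg (by positivity : (0 : ℝ) ≤ (P : ℝ) ^ 3), e, div_inv_eq_mul, mul_comm]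
  have hinv : 1 / (2 * δ) ≤ (gridSize P : ℝ) * (1 + Real.log (gridSize P : ℕ)) := by
    refine le_trans ?_ (le_mul_of_one_le_right (Nat.cast_nonneg _) (by
      linarith [Real.log_natCast_nonneg (gridSize P)]))
    rw [hδ, div_le_iff₀ (by positivity)]
    have h1 : (64 : ℝ) * (P : ℝ) ^ 3 ≤ (gridSize P : ℝ) := by
      exact_mod_cast pow_three_le_gridSize hP
    rw [mul_div_assoc', mul_div_assoc', le_div_iff₀ (by positivity), one_mul]
    nlinarith [mul_le_mul_of_nonneg_left hK (Nat.cast_nonneg (α := ℝ) (gridSize P))]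
  rw [hδr]
  have hpos : 0 ≤ (P : ℝ) * K ^ (-(1 / 3) : ℝ) := by positivity
  have hpos2 : 0 ≤ (P : ℝ) * K ^ (-(1 / 3) : ℝ) *
      ((gridSize P : ℝ) * (1 + Real.log (gridSize P : ℕ))) :=
    mul_nonneg hpos (mul_nonneg (Nat.cast_nonneg _) (by
      linarith [Real.log_natCast_nonneg (gridSize P)]))
  have hclip : 5 * (1 / (2 * δ)) + 2 * (gridSize P : ℝ) * (1 + Real.log (gridSize P : ℕ)) ≤
      4 * ((gridSize P : ℝ) * (1 + Real.log (gridSize P : ℕ))) + 3 * (1 / (2 * δ)) := by linarith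
  nlinarith [mul_le_mul_of_nonneg_left hinv hpos, mul_le_mul_of_nonneg_left hclip hpos]

/-- **Reduction to the points off the small arcs.** -/
theorem sum_remainder_sq_le {P Q R : ℕ} {K : ℝ} (hP : 1 ≤ P)
    (hQ : (Q : ℝ) ≤ (P : ℝ) ^ (4 / 5 : ℝ)) (hR : 1 ≤ R) (hK : 1 ≤ K)
    (hsep : 2 * (K / (P : ℝ) ^ 3) * ((R : ℝ) * R) < 1) :
    ∑ h ∈ range (gridSize P), ‖remainder P Q R ((h : ℝ) / gridSize P)‖ ^ 2 ≤
      2 * ∑ h ∈ offArcs P R (K / (P : ℝ) ^ 3), ‖fourTrig P Q ((h : ℝ) / gridSize P)‖ ^ 2 +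
        10 ^ 9 * ((gridSize P : ℝ) * (1 + Real.log (gridSize P : ℕ)) *
          ((R : ℝ) ^ 4 * K ^ 3 * (P : ℝ) ^ 3 +
            (R : ℝ) ^ 4 * (Q : ℝ) ^ 4 * ((P : ℝ) * K ^ (-(1 / 3) : ℝ)))) := by
  classical
  obtain ⟨M, hM⟩ : ∃ M, M = gridSize P := ⟨_, rfl⟩
  have hM3 := pow_three_le_gridSize hP
  have hP3 : 0 < P ^ 3 := pow_pos hP 3
  have : NeZero M := ⟨by omega⟩
  obtain ⟨δ, hδ⟩ : ∃ δ : ℝ, δ = K / (P : ℝ) ^ 3 := ⟨_, rfl⟩
  rw [← hδ, ← hM]
  rw [← hδ] at hsep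
  have hP0 : (0 : ℝ) < P := Nat.cast_pos.2 hP
  have hR0 : (0 : ℝ) < R := Nat.cast_pos.2 hR
  have hδ0 : 0 < δ := by rw [hδ]; positivity
  obtain ⟨T, hT⟩ : ∃ T : ℕ → (Σ _ : ℕ, ℕ) → ℂ, T = fun (h : ℕ) z =>
      arcWeight z * ((Q : ℂ) ^ 2 * weightWindow P ((h : ℝ) / M - centre z) ^ 2) := ⟨_, rfl⟩
  have hrem : ∀ h : ℕ, remainder P Q R ((h : ℝ) / M) =
      (fourTrig P Q ((h : ℝ) / M) - ∑ z ∈ (arcCentres R).filter (fun z => h ∈ arc M δ z), T h z) -
        ∑ z ∈ (arcCentres R).filter (fun z => h ∉ arc M δ z), T h z := fun h => by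
    rw [remainder, ← sum_filter_add_sum_filter_not (arcCentres R) (fun z => h ∈ arc M δ z),
      sub_sub, hT]
  have huniq : ∀ h z u, z ∈ arcCentres R → u ∈ arcCentres R → h ∈ arc M δ z → h ∈ arc M δ u →
      z = u := by
    intro h z u hz hu h1 h2
    by_contra hne
    have hd := inv_mul_le_nearDist_centre hz hu hne
    simp only [arc, mem_filter] at h1 h2
    obtain ⟨s, hs⟩ : ∃ s : ℝ, s = (h : ℝ) / M := ⟨_, rfl⟩
    rw [← hs] at h1 h2
    have h3 : nearDist (centre z - centre u) ≤ 2 * δ := by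
      refine (nearDist_le_abs_sub _ (round (s - centre u) - round (s - centre z))).trans ?_
      rw [show centre z - centre u - ((round (s - centre u) - round (s - centre z) : ℤ) : ℝ) =
        (s - centre u - round (s - centre u)) - (s - centre z - round (s - centre z)) by
          push_cast; ring]
      simp only [nearDist] at h1 h2
      exact (abs_sub _ _).trans (by linarith [h1.2, h2.2])
    rw [div_le_iff₀ (by positivity)] at hd
    nlinarith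
  have hA : ∑ h ∈ range M, ‖fourTrig P Q ((h : ℝ) / M) -
      ∑ z ∈ (arcCentres R).filter (fun z => h ∈ arc M δ z), T h z‖ ^ 2 ≤
      ∑ h ∈ offArcs P R δ, ‖fourTrig P Q ((h : ℝ) / M)‖ ^ 2 +
        (R : ℝ) ^ 2 * ((9 * M * δ * (1 + Real.log M)) * (5000 * (R * K * (P : ℝ) ^ 3)) ^ 2) := by
    rw [offArcs, ← hM,
      ← sum_filter_add_sum_filter_not (range M) (fun h => ∀ z ∈ arcCentres R, h ∉ arc M δ z)]
    refine add_le_add (le_of_eq (sum_congr rfl fun h hh => ?_)) ?_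
    · rw [filter_eq_empty_iff.2 fun z hz => (mem_filter.1 hh).2 z hz, sum_empty, sub_zero]
    obtain ⟨B, hB⟩ : ∃ B, B = 5000 * (R * K * (P : ℝ) ^ 3) := ⟨_, rfl⟩
    rw [← hB]
    refine (sum_le_card_nsmul _ _ (B ^ 2) fun h hh => ?_).trans ?_
    · rw [mem_filter] at hh
      push Not at hh
      obtain ⟨z, hz, hhz⟩ := hh.2
      rw [show (arcCentres R).filter (fun z => h ∈ arc M δ z) = {z} from
        eq_singleton_iff_unique_mem.2 ⟨mem_filter.2 ⟨hz, hhz⟩, fun u hu =>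
          huniq h u z (mem_filter.1 hu).1 hz (mem_filter.1 hu).2 hhz⟩, sum_singleton, hT, hB]
      refine pow_le_pow_left₀ (norm_nonneg _) (norm_arc_error_le hP hQ hR hK hz ?_) 2
      rw [← hδ]
      simp only [arc, mem_filter] at hhz
      exact hhz.2
    rw [nsmul_eq_mul, ← mul_assoc]
    refine mul_le_mul_of_nonneg_right ?_ (sq_nonneg B)
    refine (Nat.cast_le.2 ((card_le_card fun h hh => ?_).trans card_biUnion_le :
      ((range M).filter fun h => ¬∀ z ∈ arcCentres R, h ∉ arc M δ z).card ≤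
        ∑ z ∈ arcCentres R, (arc M δ z).card)).trans ?_
    · rw [mem_filter] at hh
      push Not at hh
      exact mem_biUnion.2 hh.2
    push_cast
    refine (sum_le_card_nsmul _ _ (9 * M * δ * (1 + Real.log M)) fun z _ => ?_).trans ?_
    · refine (card_arc_le hδ0 z).trans ?_
      have h1 : (1 : ℝ) ≤ M * δ * (1 + Real.log M) := by
        refine one_le_mul_of_one_le_of_one_le ?_ (by linarith [Real.log_natCast_nonneg M])
        rw [hδ, mul_div_assoc', one_le_div (by positivity)]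
        have h64 : (64 : ℝ) * (P : ℝ) ^ 3 ≤ (M : ℝ) := by
          rw [hM]; exact_mod_cast hM3
        nlinarith [mul_le_mul_of_nonneg_left hK (Nat.cast_nonneg (α := ℝ) M)]
      linarith
    · rw [nsmul_eq_mul]
      exact mul_le_mul_of_nonneg_right (card_arcCentres_le R)
        (by have := Real.log_natCast_nonneg M; positivity)
  have hB : ∑ h ∈ range M, ‖∑ z ∈ (arcCentres R).filter (fun z => h ∉ arc M δ z), T h z‖ ^ 2 ≤
      (R : ℝ) ^ 2 * ((R : ℝ) ^ 2 * ((Q : ℝ) ^ 4 *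
        (20000 * ((P : ℝ) * K ^ (-(1 / 3) : ℝ) * ((M : ℝ) * (1 + Real.log M)))))) := by
    have h1 : ∀ h : ℕ, ‖∑ z ∈ (arcCentres R).filter (fun z => h ∉ arc M δ z), T h z‖ ^ 2 ≤
        (R : ℝ) ^ 2 * ∑ z ∈ arcCentres R, if h ∉ arc M δ z then
          (Q : ℝ) ^ 4 * ‖weightWindow P ((h : ℝ) / M - centre z)‖ ^ 4 else 0 := by
      intro h
      refine (pow_le_pow_left₀ (norm_nonneg _) (norm_sum_le _ _) 2).trans
        (sq_sum_le_card_mul_sum_sq.trans ?_)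
      rw [← sum_filter]
      refine mul_le_mul ((Nat.cast_le.2 (card_le_card (filter_subset _ _))).trans
        (card_arcCentres_le R)) (sum_le_sum fun z _ => ?_) (sum_nonneg fun _ _ => sq_nonneg _)
        (by positivity)
      rw [hT]
      simp only [norm_mul, norm_pow, Complex.norm_natCast, mul_pow, ← pow_mul]
      exact mul_le_of_le_one_left (by positivity)
        (pow_le_one₀ (norm_nonneg _) (norm_arcWeight_le_one z))
    refine (sum_le_sum fun h _ => h1 h).trans ?_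
    rw [← mul_sum, sum_comm]
    refine mul_le_mul_of_nonneg_left ((sum_le_card_nsmul _ _ ((Q : ℝ) ^ 4 *
      (20000 * ((P : ℝ) * K ^ (-(1 / 3) : ℝ) * ((M : ℝ) * (1 + Real.log M))))) fun z _ => ?_).trans
      ?_) (by positivity)
    · rw [← sum_filter, ← mul_sum, hM, hδ]
      exact mul_le_mul_of_nonneg_left (sum_weightWindow_pow_four_le hP hK z) (by positivity)
    · rw [nsmul_eq_mul]
      exact mul_le_mul_of_nonneg_right (card_arcCentres_le R)
        (by have := Real.log_natCast_nonneg M; positivity)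
  simp only [hrem]
  refine (sum_le_sum fun h _ => (pow_le_pow_left₀ (norm_nonneg _) (norm_sub_le _ _) 2).trans
    add_sq_le).trans ?_
  rw [← mul_sum, sum_add_distrib]
  have hδe : (9 * M * δ * (1 + Real.log M)) * (5000 * (R * K * (P : ℝ) ^ 3)) ^ 2 =
      225000000 * ((R : ℝ) ^ 2 * (K ^ 3 * (P : ℝ) ^ 3) * ((M : ℝ) * (1 + Real.log M))) := by
    rw [hδ]
    field_simp
    ring
  rw [hδe] at hA
  have hML : 0 ≤ (M : ℝ) * (1 + Real.log M) :=
    mul_nonneg (Nat.cast_nonneg M) (by linarith [Real.log_natCast_nonneg M])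
  have n1 : 0 ≤ (R : ℝ) ^ 4 * (K ^ 3 * (P : ℝ) ^ 3) * ((M : ℝ) * (1 + Real.log M)) := by positivity
  have n2 : 0 ≤ (R : ℝ) ^ 4 * (Q : ℝ) ^ 4 * ((P : ℝ) * K ^ (-(1 / 3) : ℝ)) *
      ((M : ℝ) * (1 + Real.log M)) := by positivity
  nlinarith [hA, hB, n1, n2]

end FA.FourCubes
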