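import Fermat.Agent.FourCubes.Sixth
import Fermat.Agent.Subconvexity.SecondDerivative

/-!
# The sum over the window near a rational

For `|β| ≤ 1 / (28 q P²)` completion and the lemma of Kuzmin and Landau give
`|f (a / q + β)| ≤ C q ^ (-1/3) P / (1 + P³ |β|) + C q ^ (3/4 + ε)`.
-/

set_option autoImplicit false

noncomputable section

namespace FA.FourCubes

open Finset FA.ThreePrimes FA.WaringAsymptotic FA.HuaCubes
open scoped Real

/-- The residues of least absolute value. -/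
def centredResidues (q : ℕ) : Finset ℤ := Ico (-((q / 2 : ℕ) : ℤ)) ((q : ℤ) - ((q / 2 : ℕ) : ℤ))

/-- `∑_{P < x ≤ 2P} e (β x³ + γ x)`. -/
def windowIntegral (P : ℕ) (β γ : ℝ) : ℂ := ∑ x ∈ window P, eAdd (β * (x : ℝ) ^ 3 + γ * x)

theorem sum_centred_eAdd {q : ℕ} (hq : 0 < q) (m : ℤ) :
    ∑ b ∈ centredResidues q, eAdd ((b : ℝ) * m / q) = if (q : ℤ) ∣ m then (q : ℂ) else 0 := by
  have hq0 : (q : ℝ) ≠ 0 := Nat.cast_ne_zero.2 hq.ne'
  have e : ∑ b ∈ centredResidues q, eAdd ((b : ℝ) * m / q) =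
      eAdd (-(((q / 2 : ℕ) : ℝ) * m / q)) * ∑ j ∈ range q, eAdd ((m : ℝ) * j / q) := by
    rw [mul_sum]
    refine sum_nbij' (fun b => (b + ((q / 2 : ℕ) : ℤ)).toNat) (fun j => (j : ℤ) - ((q / 2 : ℕ) : ℤ))
      (fun b hb => ?_) (fun j hj => ?_) (fun b hb => ?_) (fun j _ => ?_) fun b hb => ?_
    · rw [centredResidues, mem_Ico] at hb; rw [mem_range]; omega
    · rw [mem_range] at hj; rw [centredResidues, mem_Ico]; omega
    · rw [centredResidues, mem_Ico] at hb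
      omega
    · omega
    · rw [centredResidues, mem_Ico] at hb
      have h : (((b + ((q / 2 : ℕ) : ℤ)).toNat : ℕ) : ℝ) = (b : ℝ) + ((q / 2 : ℕ) : ℝ) := by
        have : (((b + ((q / 2 : ℕ) : ℤ)).toNat : ℕ) : ℤ) = b + ((q / 2 : ℕ) : ℤ) :=
          Int.toNat_of_nonneg (by omega)
        have h' := congrArg (Int.cast : ℤ → ℝ) this
        rw [Int.cast_add, Int.cast_natCast, Int.cast_natCast] at h'
        exact h'
      rw [← eAdd_add, h]
      congr 1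
      ring
  rw [e, sum_eAdd_grid hq]
  split_ifs with hd
  · obtain ⟨t, rfl⟩ := hd
    rw [show -(((q / 2 : ℕ) : ℝ) * (((q : ℤ) * t : ℤ) : ℝ) / q) =
      ((-(((q / 2 : ℕ) : ℤ) * t) : ℤ) : ℝ) by
        rw [Int.cast_neg, Int.cast_mul, Int.cast_natCast, Int.cast_mul, Int.cast_natCast]; field_simp,
      eAdd_intCast, one_mul]
  · rw [mul_zero]

/-- **Completion.** -/
theorem cubeWindow_completion {q : ℕ} (hq : 0 < q) (P : ℕ) (a : ℤ) (β : ℝ) :
    (q : ℂ) * cubeWindow P ((a : ℝ) / q + β) =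
      ∑ b ∈ centredResidues q, completeLinear q a b * windowIntegral P β (-((b : ℝ) / q)) := by
  have : NeZero q := ⟨hq.ne'⟩
  simp only [completeLinear, windowIntegral, sum_mul_sum]
  rw [cubeWindow, intTrig, mul_sum, sum_comm, sum_congr rfl fun r _ => sum_comm, sum_comm]
  refine sum_congr rfl fun x _ => ?_
  have key : ∀ r ∈ range q, ∑ b ∈ centredResidues q,
      eAdd (((a : ℝ) * (r : ℝ) ^ 3 + (b : ℝ) * r) / q) *
        eAdd (β * (x : ℝ) ^ 3 + -((b : ℝ) / q) * x) =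
      if r = x % q then (q : ℂ) * (1 * eAdd ((((x : ℤ) ^ 3 : ℤ) : ℝ) * ((a : ℝ) / q + β))) else 0 := by
    intro r hr
    have e1 : ∀ b : ℤ, eAdd (((a : ℝ) * (r : ℝ) ^ 3 + (b : ℝ) * r) / q) *
        eAdd (β * (x : ℝ) ^ 3 + -((b : ℝ) / q) * x) =
        eAdd ((a : ℝ) * (r : ℝ) ^ 3 / q + β * (x : ℝ) ^ 3) *
          eAdd ((b : ℝ) * (((r : ℤ) - x : ℤ) : ℝ) / q) := fun b => by
      rw [← eAdd_add, ← eAdd_add]
      push_cast
      ring_nf
    rw [sum_congr rfl fun b _ => e1 b, ← mul_sum, sum_centred_eAdd hq]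
    have hiff : ((q : ℤ) ∣ (r : ℤ) - x) ↔ r = x % q := by
      rw [← ZMod.intCast_zmod_eq_zero_iff_dvd]
      push_cast
      rw [sub_eq_zero, ZMod.natCast_eq_natCast_iff', Nat.mod_eq_of_lt (mem_range.1 hr)]
    by_cases h : r = x % q
    · rw [if_pos h, if_pos (hiff.2 h), one_mul, mul_comm]
      congr 1
      obtain ⟨t, ht⟩ : ∃ t : ℤ, a * ((x : ℤ) ^ 3 - (r : ℤ) ^ 3) = (q : ℤ) * t := by
        have h2 : (q : ℤ) ∣ (x : ℤ) - r := by
          obtain ⟨t, ht⟩ := hiff.2 h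
          exact ⟨-t, by linarith⟩
        exact (h2.trans (sub_dvd_pow_sub_pow _ _ 3)).mul_left a
      have hq0 : (q : ℝ) ≠ 0 := Nat.cast_ne_zero.2 hq.ne'
      have hreal : (a : ℝ) * ((x : ℝ) ^ 3 - (r : ℝ) ^ 3) = q * t := by exact_mod_cast ht
      rw [show (((x : ℤ) ^ 3 : ℤ) : ℝ) * ((a : ℝ) / q + β) =
        (a : ℝ) * (r : ℝ) ^ 3 / q + β * (x : ℝ) ^ 3 + (t : ℤ) by
          push_cast; field_simp; linarith, eAdd_add_intCast]
    · rw [if_neg h, if_neg (mt hiff.1 h), mul_zero]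
  rw [sum_congr rfl key, sum_ite_eq' (range q) (x % q),
    if_pos (mem_range.2 (Nat.mod_lt x hq))]

/-- **Kuzmin and Landau on the window.** -/
theorem norm_windowIntegral_le {P : ℕ} {β γ μ : ℝ} {k : ℤ} (hμ : 0 < μ)
    (h : ∀ n : ℕ, P ≤ n → n ≤ 2 * P →
      (k : ℝ) + μ ≤ β * (3 * (n : ℝ) ^ 2 + 3 * n + 1) + γ ∧
        β * (3 * (n : ℝ) ^ 2 + 3 * n + 1) + γ ≤ (k : ℝ) + 1 - μ) :
    ‖windowIntegral P β γ‖ ≤ 1 + 1 / μ := by
  obtain ⟨φ, hφ⟩ : ∃ φ : ℕ → ℝ,
      φ = fun n : ℕ => 2 * π * (β * (n : ℝ) ^ 3 + γ * n) := ⟨_, rfl⟩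
  have hsum : windowIntegral P β γ = ∑ n ∈ Ico (P + 1) (2 * P + 1), Subconvexity.expI (φ n) := by
    rw [windowIntegral, window, show Ioc P (2 * P) = Ico (P + 1) (2 * P + 1) by
      ext; simp]
    refine sum_congr rfl fun n _ => ?_
    rw [eAdd, Subconvexity.expI, hφ]
  have hd : ∀ n : ℕ, φ (n + 1) - φ n = 2 * π * (β * (3 * (n : ℝ) ^ 2 + 3 * n + 1) + γ) := fun n => by
    rw [hφ]; push_cast; ring
  rw [hsum]
  refine (Subconvexity.norm_kuzmin_le (lam := 2 * π * μ) (k := k) (by positivity) (fun n hn => ?_)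
    ?_).trans (le_of_eq ?_)
  · rw [mem_Ico] at hn
    obtain ⟨h1, h2⟩ := h n (by omega) (by omega)
    rw [hd, ← mul_add, ← mul_sub]
    exact ⟨mul_le_mul_of_nonneg_left h1 (by positivity),
      mul_le_mul_of_nonneg_left h2 (by positivity)⟩
  · have hmono : ∀ n : ℕ, 3 * (n : ℝ) ^ 2 + 3 * n + 1 ≤
        3 * ((n + 1 : ℕ) : ℝ) ^ 2 + 3 * (n + 1 : ℕ) + 1 := fun n => by
      push_cast
      nlinarith [Nat.cast_nonneg (α := ℝ) n]
    rcases le_total 0 β with hβ | hβ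
    · exact Or.inl fun n _ _ => by
        rw [hd, hd]; gcongr 2 * π * (?_ + γ); exact mul_le_mul_of_nonneg_left (hmono n) hβ
    · exact Or.inr fun n _ _ => by
        rw [hd, hd]; gcongr 2 * π * (?_ + γ); exact mul_le_mul_of_nonpos_left (hmono n) hβ
  · field_simp

theorem norm_windowIntegral_le_self (P : ℕ) (β γ : ℝ) : ‖windowIntegral P β γ‖ ≤ P := by
  refine (norm_sum_le _ _).trans (le_of_eq ?_)
  simp only [norm_eAdd, sum_const, nsmul_eq_mul, mul_one, window, Nat.card_Ioc]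
  push_cast [show 2 * P - P = P by omega]
  rfl

theorem deriv_bounds {P n : ℕ} (hP : 1 ≤ P) (h1 : P ≤ n) (h2 : n ≤ 2 * P) :
    3 * (P : ℝ) ^ 2 ≤ 3 * (n : ℝ) ^ 2 + 3 * n + 1 ∧
      3 * (n : ℝ) ^ 2 + 3 * n + 1 ≤ 19 * (P : ℝ) ^ 2 := by
  have a1 : (P : ℝ) ≤ n := by exact_mod_cast h1
  have a2 : (n : ℝ) ≤ 2 * (P : ℝ) := by exact_mod_cast h2
  have a3 : (1 : ℝ) ≤ P := by exact_mod_cast hP
  constructor <;> nlinarith

/-- **The bound near a rational.** -/
theorem exists_cubeWindow_le {ε : ℝ} (hε : 0 < ε) : ∃ C : ℝ, 0 < C ∧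
    ∀ (P q : ℕ) (a : ℤ) (β : ℝ), 1 ≤ P → 0 < q → IsUnit (a : ZMod q) →
      |β| * (28 * q * (P : ℝ) ^ 2) ≤ 1 →
        ‖cubeWindow P ((a : ℝ) / q + β)‖ ≤
          C * ((q : ℝ) ^ (-(1 / 3) : ℝ) * (P / (1 + (P : ℝ) ^ 3 * |β|)) +
            (q : ℝ) ^ (3 / 4 + ε)) := by
  obtain ⟨C₁, hC₁, hS⟩ := exists_completeSum_three_le
  obtain ⟨C₂, hC₂, hL⟩ := exists_completeLinear_le (show 0 < ε / 2 by linarith)
  refine ⟨2 * C₁ + C₂ * (2 + 8 * (1 + 2 / ε)), by positivity, fun P q a β hP hq ha hβ => ?_⟩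
  have hq1 : (1 : ℝ) ≤ q := by exact_mod_cast hq
  have hP1 : (1 : ℝ) ≤ P := by exact_mod_cast hP
  obtain ⟨d, hd⟩ : ∃ d, d = |β| := ⟨_, rfl⟩
  rw [← hd] at hβ ⊢
  have hd0 : 0 ≤ d := hd ▸ abs_nonneg β
  have hdq : d * (28 * (P : ℝ) ^ 2) ≤ 1 / q := by
    rw [le_div_iff₀ (by linarith)]; linarith
  have hq' : 1 / (q : ℝ) ≤ 1 := by rw [div_le_one (by linarith)]; exact hq1
  have hDbd : ∀ n : ℕ, P ≤ n → n ≤ 2 * P →
      |β * (3 * (n : ℝ) ^ 2 + 3 * n + 1)| ≤ 19 / (28 * (q : ℝ)) := by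
    intro n h1 h2
    rw [abs_mul, ← hd, abs_of_pos (by positivity)]
    refine (mul_le_mul_of_nonneg_left (deriv_bounds hP h1 h2).2 hd0).trans ?_
    rw [show (19 : ℝ) / (28 * q) = 19 / 28 * (1 / q) by field_simp]
    linarith
  have hzero : ‖windowIntegral P β (-((((0 : ℤ)) : ℝ) / q))‖ ≤
      2 * (P / (1 + (P : ℝ) ^ 3 * d)) := by
    rw [Int.cast_zero, zero_div, neg_zero]
    rcases le_or_gt ((P : ℝ) ^ 3 * d) 1 with hu | hu
    · refine (norm_windowIntegral_le_self P β 0).trans ?_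
      rw [mul_div_assoc', le_div_iff₀ (by positivity)]
      nlinarith
    have hd1 : 0 < d := pos_of_mul_pos_right (zero_lt_one.trans hu) (by positivity)
    have h3 : 3 * (P : ℝ) ^ 2 * d ≤ 3 / 28 := by linarith
    have h19 : 19 / (28 * (q : ℝ)) ≤ 19 / 28 := by
      rw [div_le_div_iff₀ (by positivity) (by norm_num)]; linarith
    refine (norm_windowIntegral_le (μ := 3 * (P : ℝ) ^ 2 * d) (k := if 0 ≤ β then 0 else -1)
      (by positivity) fun n h1 h2 => ?_).trans ?_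
    · have hb := abs_le.1 (hDbd n h1 h2)
      have hlow : 3 * (P : ℝ) ^ 2 * d ≤ |β * (3 * (n : ℝ) ^ 2 + 3 * n + 1)| := by
        rw [abs_mul, ← hd, abs_of_pos (show (0 : ℝ) < 3 * (n : ℝ) ^ 2 + 3 * n + 1 by positivity),
          mul_comm]
        exact mul_le_mul_of_nonneg_left (deriv_bounds hP h1 h2).1 hd0
      split_ifs with hs
      · rw [abs_of_nonneg (mul_nonneg hs (by positivity))] at hlow
        push_cast
        constructor <;> linarith
      · rw [abs_of_nonpos (mul_nonpos_of_nonpos_of_nonneg (not_le.1 hs).le (by positivity))] at hlow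
        push_cast
        constructor <;> linarith
    · have e : 2 * (P / (1 + (P : ℝ) ^ 3 * d)) - (1 + 1 / (3 * (P : ℝ) ^ 2 * d)) =
          (6 * (P : ℝ) ^ 3 * d - (3 * (P : ℝ) ^ 2 * d + 1) * (1 + (P : ℝ) ^ 3 * d)) /
            (3 * (P : ℝ) ^ 2 * d * (1 + (P : ℝ) ^ 3 * d)) := by
        field_simp
        ring
      rw [← sub_nonneg, e]
      refine div_nonneg ?_ (by positivity)
      nlinarith [mul_le_mul_of_nonneg_left h3 (show 0 ≤ (P : ℝ) ^ 3 * d by positivity)]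
  have hnz : ∀ b ∈ (centredResidues q).erase 0,
      ‖windowIntegral P β (-((b : ℝ) / q))‖ ≤ 1 + 4 * q / (b.natAbs : ℝ) := by
    intro b hb
    rw [mem_erase, centredResidues, mem_Ico] at hb
    obtain ⟨c, hc⟩ : ∃ c : ℝ, c = (b.natAbs : ℝ) := ⟨_, rfl⟩
    rw [← hc]
    have hc1 : 1 ≤ c := by rw [hc]; exact_mod_cast Int.natAbs_pos.2 hb.1
    have hc2 : 2 * c ≤ q := by rw [hc]; exact_mod_cast (show 2 * b.natAbs ≤ q by omega)
    have hbc : |(b : ℝ)| = c := by rw [hc, Nat.cast_natAbs, Int.cast_abs]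
    refine (norm_windowIntegral_le (μ := 9 * c / (28 * q)) (k := if 0 ≤ b then -1 else 0)
      (by positivity) fun n h1 h2 => ?_).trans ?_
    · have hbd := abs_le.1 (hDbd n h1 h2)
      have a1 : 9 * c / (28 * q) + 19 / (28 * (q : ℝ)) ≤ c / q := by
        rw [← add_div, div_le_div_iff₀ (by positivity) (by positivity)]
        nlinarith
      have a2 : c / (q : ℝ) + 9 * c / (28 * q) + 19 / (28 * (q : ℝ)) ≤ 1 := by
        rw [show c / (q : ℝ) = 28 * c / (28 * q) by field_simp, ← add_div, ← add_div,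
          div_le_one (by positivity)]
        linarith
      split_ifs with hs
      · rw [abs_of_nonneg (by exact_mod_cast hs)] at hbc
        rw [hbc]
        push_cast
        constructor <;> linarith
      · rw [abs_of_nonpos (by exact_mod_cast (not_le.1 hs).le)] at hbc
        rw [show (b : ℝ) = -c by linarith, neg_div, neg_neg]
        push_cast
        constructor <;> linarith
    · rw [one_div_div, add_le_add_iff_left, div_le_div_iff₀ (by positivity) (by positivity)]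
      nlinarith
  have hlog : logOne q ≤ (1 + 2 / ε) * (q : ℝ) ^ (ε / 2) := by
    rw [logOne, add_mul, one_mul]
    have h1 := Real.log_le_rpow_div (Nat.cast_nonneg q) (show 0 < ε / 2 by linarith)
    rw [div_div_eq_mul_div, mul_comm, ← div_mul_eq_mul_div] at h1
    linarith [Real.one_le_rpow hq1 (show 0 ≤ ε / 2 by linarith)]
  have hsum : ∑ b ∈ (centredResidues q).erase 0, (1 + 4 * (q : ℝ) / (b.natAbs : ℝ)) ≤
      (2 + 8 * (1 + 2 / ε)) * (q * (q : ℝ) ^ (ε / 2)) := by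
    refine (sum_natAbs_le (N := q) _ (fun b hb => ?_) (fun n => 1 + 4 * (q : ℝ) / (n : ℝ))
      fun n => by positivity).trans ?_
    · rw [mem_erase, centredResidues, mem_Ico] at hb
      exact ⟨hb.1, by omega⟩
    rw [sum_add_distrib, sum_const, Nat.card_Ioc, Nat.sub_zero, nsmul_eq_mul, mul_one]
    simp only [div_eq_mul_inv (4 * (q : ℝ)), ← mul_sum]
    refine (mul_le_mul_of_nonneg_left (add_le_add (le_mul_of_one_le_right (Nat.cast_nonneg q)
      (Real.one_le_rpow hq1 (show 0 ≤ ε / 2 by linarith))) (mul_le_mul_of_nonneg_left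
        ((sum_inv_le_logOne q).trans hlog) (by positivity))) two_pos.le).trans (le_of_eq ?_)
    ring
  have h0mem : (0 : ℤ) ∈ centredResidues q := by rw [centredResidues, mem_Ico]; omega
  have hfin : (q : ℝ) * ‖cubeWindow P ((a : ℝ) / q + β)‖ ≤
      C₁ * (q : ℝ) ^ (2 / 3 : ℝ) * (2 * (P / (1 + (P : ℝ) ^ 3 * d))) +
        C₂ * (q : ℝ) ^ (3 / 4 + ε / 2) * ((2 + 8 * (1 + 2 / ε)) * (q * (q : ℝ) ^ (ε / 2))) := by
    have he := congrArg norm (cubeWindow_completion hq P a β)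
    rw [norm_mul, Complex.norm_natCast] at he
    rw [he, ← add_sum_erase _ _ h0mem]
    refine (norm_add_le _ _).trans (add_le_add ?_ ?_)
    · rw [norm_mul, completeLinear_zero]
      exact mul_le_mul (hS q a hq ha) hzero (norm_nonneg _) (by positivity)
    · refine (norm_sum_le _ _).trans ((sum_le_sum fun b hb => ?_).trans
        ((mul_sum _ _ _).symm.trans_le (mul_le_mul_of_nonneg_left hsum (by positivity))))
      rw [norm_mul]
      exact mul_le_mul (hL q a b hq ha) (hnz b hb) (norm_nonneg _) (by positivity)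
  refine le_of_mul_le_mul_left (hfin.trans ?_) (show (0 : ℝ) < q by linarith)
  rw [show (q : ℝ) ^ (2 / 3 : ℝ) = q * (q : ℝ) ^ (-(1 / 3) : ℝ) by
      rw [← Real.rpow_one_add' (Nat.cast_nonneg q) (by norm_num)]; norm_num,
    show (q : ℝ) ^ (3 / 4 + ε) = (q : ℝ) ^ (3 / 4 + ε / 2) * (q : ℝ) ^ (ε / 2) by
      rw [← Real.rpow_add (by linarith)]; ring_nf]
  have n1 : 0 ≤ (q : ℝ) * ((q : ℝ) ^ (-(1 / 3) : ℝ) * (P / (1 + (P : ℝ) ^ 3 * d))) *
      (C₂ * (2 + 8 * (1 + 2 / ε))) := by positivity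
  have n2 : 0 ≤ (q : ℝ) * ((q : ℝ) ^ (3 / 4 + ε / 2) * (q : ℝ) ^ (ε / 2)) * (2 * C₁) := by positivity
  nlinarith [n1, n2]

end FA.FourCubes
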