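import Fermat.Agent.HuaCubes.Moment
import Fermat.Agent.WaringAsymptotic.Local
import Fermat.Agent.WaringAsymptotic.Weyl

/-!
# Complete sums for four cubes

`|S (q, a)| ≤ C q ^ (2/3)` for `a` prime to `q`; the fourth powers over all residues give at most
`C τ (q) (Q + q) ⁴` for the mean of `|g| ⁴` over the shifts `a / q + β`; and
`|∑ e ((a x³ + b x) / q)| ≤ C q ^ (3/4 + ε)` by differencing twice.
-/

set_option autoImplicit false

noncomputable section

namespace FA.FourCubes

open Finset FA.ThreePrimes FA.WaringAsymptotic FA.HuaCubes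

/-- The constant at a prime. -/
def cubeConst (p : ℕ) : ℝ := if p < 46656 then 36 else 1

theorem one_le_cubeConst (p : ℕ) : 1 ≤ cubeConst p := by
  unfold cubeConst
  split_ifs <;> norm_num

/-- **Modulo a prime power.** -/
theorem norm_completeSum_three_primePow_le {p : ℕ} (hp : p.Prime) : ∀ (l : ℕ) {a : ℤ},
    ¬(p : ℤ) ∣ a →
      ‖completeSum 3 (p ^ l) a‖ ≤ cubeConst p * (p : ℝ) ^ ((l : ℝ) * (2 / 3)) := by
  intro l
  induction l using Nat.strong_induction_on with
  | _ l ih =>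
    intro a ha
    have hp1 : (1 : ℝ) ≤ p := by exact_mod_cast hp.one_le
    have hc := one_le_cubeConst p
    have hτ : padicValNat p 3 ≤ 1 ∧ (p ≠ 3 → padicValNat p 3 = 0) := by
      rcases eq_or_ne p 3 with rfl | h
      · exact ⟨by simp, fun h => absurd rfl h⟩
      · have h0 : padicValNat p 3 = 0 := padicValNat.eq_zero_of_not_dvd fun hd =>
          h ((Nat.prime_dvd_prime_iff_eq hp Nat.prime_three).1 hd)
        exact ⟨by omega, fun _ => h0⟩
    rcases le_or_gt 4 l with hl | hl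
    · rw [completeSum_primePow_high hp (by norm_num) (by omega) (by omega) ha, norm_mul, norm_pow,
        Complex.norm_natCast]
      refine (mul_le_mul_of_nonneg_left (ih (l - 3) (by omega) ha) (by positivity)).trans
        (le_of_eq ?_)
      rw [mul_left_comm, ← Real.rpow_natCast, ← Real.rpow_add (by linarith), Nat.cast_sub (by omega : 3 ≤ l)]
      push_cast
      ring_nf
    · obtain rfl | hl1 := Nat.eq_zero_or_pos l
      · refine (norm_completeSum_le _ _ _).trans ?_
        simpa using hc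
      rcases eq_or_ne p 3 with h3 | h3
      · subst h3
        refine (norm_completeSum_le _ _ _).trans ?_
        have e : ((3 ^ l : ℕ) : ℝ) = (3 : ℝ) ^ ((l : ℝ) / 3) * (3 : ℝ) ^ ((l : ℝ) * (2 / 3)) := by
          rw [← Real.rpow_add (by norm_num), show (l : ℝ) / 3 + (l : ℝ) * (2 / 3) = l by ring,
            Real.rpow_natCast]
          push_cast
          rfl
        rw [e, show ((3 : ℕ) : ℝ) = 3 by norm_num, cubeConst, if_pos (by norm_num)]
        refine mul_le_mul_of_nonneg_right ?_ (by positivity)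
        calc (3 : ℝ) ^ ((l : ℝ) / 3) ≤ (3 : ℝ) ^ (1 : ℝ) :=
              Real.rpow_le_rpow_of_exponent_le (by norm_num) (by
                have : (l : ℝ) ≤ 3 := by exact_mod_cast (show l ≤ 3 by omega)
                linarith)
          _ ≤ 36 := by norm_num
      · rcases (show l = 1 ∨ 2 ≤ l by omega) with rfl | hl2
        · rw [pow_one, Nat.cast_one, one_mul, cubeConst]
          split_ifs with hsm
          · refine (norm_completeSum_le _ _ _).trans ?_
            calc (p : ℝ) = (p : ℝ) ^ (1 / 3 : ℝ) * (p : ℝ) ^ (2 / 3 : ℝ) := by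
                  rw [← Real.rpow_add (by linarith)]; norm_num
              _ ≤ _ := by
                  refine mul_le_mul_of_nonneg_right ?_ (by positivity)
                  rw [one_div, Real.rpow_inv_le_iff_of_pos (by linarith) (by norm_num) (by norm_num)]
                  have : (p : ℝ) < 46656 := by exact_mod_cast hsm
                  norm_num
                  linarith
          · refine (norm_completeSum_prime_le hp (by norm_num)
              ((ZMod.coe_int_isUnit_iff_isCoprime a p).2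
                ((Nat.prime_iff_prime_int.1 hp).coprime_iff_not_dvd.2 ha))).trans ?_
            rw [one_mul, Real.sqrt_eq_rpow,
              show (2 / 3 : ℝ) = 1 / 6 + 1 / 2 by norm_num, Real.rpow_add (by linarith)]
            refine mul_le_mul_of_nonneg_right ?_ (by positivity)
            rw [one_div, Real.le_rpow_inv_iff_of_pos (by norm_num) (by linarith) (by norm_num)]
            have : (46656 : ℝ) ≤ p := by exact_mod_cast not_lt.1 hsm
            norm_num
            linarith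
        · rw [completeSum_primePow hp (by norm_num) (by have := hτ.2 h3; omega) ha]
          refine (norm_sum_le _ _).trans ?_
          simp only [norm_eAdd, sum_const, card_range, nsmul_eq_mul, mul_one, Nat.cast_pow]
          refine le_trans ?_ (le_mul_of_one_le_left (by positivity) hc)
          rw [← Real.rpow_natCast, Nat.cast_sub (by omega)]
          refine Real.rpow_le_rpow_of_exponent_le hp1 ?_
          have : (l : ℝ) ≤ 3 := by exact_mod_cast (show l ≤ 3 by omega)
          push_cast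
          linarith

/-- **The exponent `2/3` for cubes.** -/
theorem exists_completeSum_three_le : ∃ C : ℝ, 1 ≤ C ∧ ∀ (q : ℕ) (a : ℤ),
    0 < q → IsUnit (a : ZMod q) → ‖completeSum 3 q a‖ ≤ C * (q : ℝ) ^ (2 / 3 : ℝ) := by
  obtain ⟨b, hb⟩ : ∃ b : ℕ, b = 46656 := ⟨_, rfl⟩
  refine ⟨(36 : ℝ) ^ b, one_le_pow₀ (by norm_num), fun q a hq ha => ?_⟩
  have key : ∀ n : ℕ, 0 < n → ∀ m : ℤ, IsCoprime m (n : ℤ) →
      ‖completeSum 3 n m‖ ≤ (∏ p ∈ n.primeFactors, cubeConst p) * (n : ℝ) ^ (2 / 3 : ℝ) := by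
    intro n
    induction n using Nat.recOnPosPrimePosCoprime with
    | prime_pow p l hp hl =>
      intro _ m hm
      rw [Nat.primeFactors_prime_pow hl.ne' hp, prod_singleton]
      refine (norm_completeSum_three_primePow_le hp l fun hd => ?_).trans (le_of_eq ?_)
      · push_cast at hm
        exact (Nat.prime_iff_prime_int.1 hp).not_isUnit (hm.isUnit_of_dvd' hd (dvd_pow_self _ hl.ne'))
      · push_cast
        rw [← Real.rpow_natCast, ← Real.rpow_mul (Nat.cast_nonneg p)]
    | zero => intro h; omega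
    | one =>
      intro _ m _
      refine (norm_completeSum_le _ _ _).trans ?_
      simp
    | coprime x y hx hy hxy hIx hIy =>
      intro _ m hm
      push_cast at hm
      have hyx : IsCoprime (y : ℤ) (x : ℤ) := by
        rw [Int.isCoprime_iff_nat_coprime]; simpa using hxy.symm
      rw [completeSum_mul (by omega) hxy (by omega) (by omega), norm_mul,
        hxy.primeFactors_mul, prod_union hxy.disjoint_primeFactors, Nat.cast_mul,
        Real.mul_rpow (Nat.cast_nonneg x) (Nat.cast_nonneg y), mul_mul_mul_comm]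
      exact mul_le_mul (hIx (by omega) _ ((hm.of_mul_right_left).mul_left hyx.pow_left))
        (hIy (by omega) _ ((hm.of_mul_right_right).mul_left hyx.symm.pow_left)) (norm_nonneg _)
        (mul_nonneg (prod_nonneg fun p _ => (zero_le_one.trans (one_le_cubeConst p)))
          (by positivity))
  refine (key q hq a ((ZMod.coe_int_isUnit_iff_isCoprime a q).1 ha).symm).trans
    (mul_le_mul_of_nonneg_right ?_ (by positivity))
  rw [← prod_filter_mul_prod_filter_not q.primeFactors (fun p => p < b),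
    prod_congr rfl fun p hp => (by rw [cubeConst, if_pos (hb ▸ (mem_filter.1 hp).2)] :
      cubeConst p = 36),
    prod_eq_one (s := q.primeFactors.filter fun p => ¬p < b)
      fun p hp => by rw [cubeConst, if_neg (hb ▸ (mem_filter.1 hp).2)],
    mul_one, prod_const]
  exact pow_le_pow_right₀ (by norm_num) ((card_le_card (t := range b) fun p hp =>
    mem_range.2 (mem_filter.1 hp).2).trans (card_range _).le)

/-- **The fourth powers over all residues.** -/
theorem exists_completeSum_pow_four_le : ∃ C : ℝ, 1 ≤ C ∧ ∀ q : ℕ, 0 < q →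
    ∑ a ∈ range q, ‖completeSum 3 q a‖ ^ 4 ≤ C * ((q : ℝ) ^ 4 * q.divisors.card) := by
  obtain ⟨C, hC, h⟩ := exists_completeSum_three_le
  refine ⟨C ^ 4, one_le_pow₀ hC, fun q hq => ?_⟩
  rw [← sum_fiberwise_of_maps_to (g := fun a => a.gcd q) (t := q.divisors) fun a _ =>
    Nat.mem_divisors.2 ⟨Nat.gcd_dvd_right a q, hq.ne'⟩]
  refine (sum_le_card_nsmul _ _ (C ^ 4 * (q : ℝ) ^ 4) fun g hg => ?_).trans
    (le_of_eq (by rw [nsmul_eq_mul]; ring))
  obtain ⟨⟨n, rfl⟩, -⟩ := Nat.mem_divisors.1 hg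
  have hg0 : 0 < g := Nat.pos_of_mul_pos_right hq
  have hn0 : 0 < n := Nat.pos_of_mul_pos_left hq
  have hterm : ∀ a ∈ (range (g * n)).filter (fun a => a.gcd (g * n) = g),
      ‖completeSum 3 (g * n) a‖ ^ 4 ≤ C ^ 4 * ((g : ℝ) ^ 4 * (n : ℝ) ^ 3) := by
    intro a ha
    obtain ⟨a', rfl⟩ : g ∣ a := by
      have := Nat.gcd_dvd_left a (g * n)
      rwa [(mem_filter.1 ha).2] at this
    have hcop : a'.Coprime n := by
      have h1 := (mem_filter.1 ha).2
      rw [Nat.gcd_mul_left] at h1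
      exact (mul_eq_left₀ hg0.ne').1 h1
    rw [Nat.cast_mul g a', completeSum_mul_left hg0 hn0, norm_mul, Complex.norm_natCast, mul_pow]
    have hu : IsUnit (((a' : ℕ) : ℤ) : ZMod n) := by
      rw [Int.cast_natCast]
      exact (ZMod.isUnit_iff_coprime a' n).2 hcop
    refine (mul_le_mul_of_nonneg_left (pow_le_pow_left₀ (norm_nonneg _) (h n a' hn0 hu) 4)
      (by positivity)).trans ?_
    rw [mul_pow, mul_left_comm]
    refine mul_le_mul_of_nonneg_left (mul_le_mul_of_nonneg_left ?_ (by positivity)) (by positivity)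
    rw [← Real.rpow_natCast, ← Real.rpow_mul (Nat.cast_nonneg n), ← Real.rpow_natCast (n : ℝ) 3]
    exact Real.rpow_le_rpow_of_exponent_le (by exact_mod_cast hn0) (by norm_num)
  refine (sum_le_card_nsmul _ _ _ hterm).trans ?_
  have hcard : ((range (g * n)).filter fun a => a.gcd (g * n) = g).card ≤ n := by
    refine (card_le_card (t := (range n).image fun b => g * b) fun a ha => ?_).trans
      (card_image_le.trans (card_range n).le)
    rw [mem_filter, mem_range] at ha
    obtain ⟨b, rfl⟩ : g ∣ a := by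
      have := Nat.gcd_dvd_left a (g * n)
      rwa [ha.2] at this
    exact mem_image.2 ⟨b, mem_range.2 (Nat.lt_of_mul_lt_mul_left ha.1), rfl⟩
  rw [nsmul_eq_mul]
  refine (mul_le_mul_of_nonneg_right (Nat.cast_le.2 hcard) (by positivity)).trans (le_of_eq ?_)
  push_cast
  ring

/-- The periodic sum over whole periods. -/
theorem cubeTrig_periodic {q : ℕ} (hq : 0 < q) (m a : ℕ) :
    cubeTrig (fun _ => 1) (m * q) ((a : ℝ) / q) = (m : ℂ) * completeSum 3 q a := by
  rcases Nat.eq_zero_or_pos m with rfl | hm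
  · simp [cubeTrig, intTrig]
  obtain ⟨F, hF⟩ : ∃ F : ℕ → ℂ, F = fun x : ℕ => eAdd ((a : ℝ) * (x : ℝ) ^ 3 / q) := ⟨_, rfl⟩
  have e1 : cubeTrig (fun _ => 1) (m * q) ((a : ℝ) / q) = ∑ x ∈ Ioc 0 (m * q), F x := by
    rw [cubeTrig, intTrig]
    refine sum_congr rfl fun x _ => ?_
    rw [hF, one_mul]
    congr 1
    push_cast
    ring
  have e2 : completeSum 3 (m * q) ((m : ℤ) * a) = ∑ x ∈ range (m * q), F x := by
    refine sum_congr rfl fun x _ => ?_
    rw [hF]
    congr 1
    have : (m : ℝ) ≠ 0 := Nat.cast_ne_zero.2 hm.ne'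
    push_cast
    field_simp
  have e3 : F (m * q) = F 0 := by
    have h : (a : ℝ) * ((m * q : ℕ) : ℝ) ^ 3 / q = ((a * m ^ 3 * q ^ 2 : ℕ) : ℤ) := by
      have : (q : ℝ) ≠ 0 := Nat.cast_ne_zero.2 hq.ne'
      push_cast
      field_simp
    rw [hF]
    simp only [h, eAdd_intCast, Nat.cast_zero, ne_eq, OfNat.ofNat_ne_zero, not_false_eq_true,
      zero_pow, mul_zero, zero_div]
    simp [eAdd]
  have e4 : ∀ N : ℕ, ∑ x ∈ Ioc 0 N, F x + F 0 = ∑ x ∈ range N, F x + F N := fun N => by
    induction N with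
    | zero => simp
    | succ N ih => rw [sum_Ioc_succ_top (Nat.zero_le N), sum_range_succ, ← ih]; ring
  replace e4 := e4 (m * q)
  rw [e3, add_left_inj] at e4
  rw [e1, e4, ← e2, completeSum_mul_left hm hq]

/-- **The mean of `|g| ⁴` over the shifts of a rational.** -/
theorem exists_sum_cubeTrig_shift_le {ε : ℝ} (hε : 0 < ε) : ∃ C : ℝ, 0 < C ∧
    ∀ (q Q : ℕ) (β : ℝ), 0 < q →
      ∑ a ∈ range q, ‖cubeTrig (fun _ => 1) Q ((a : ℝ) / q + β)‖ ^ 4 ≤
        C * ((q : ℝ) ^ ε * ((Q : ℝ) + q) ^ 4) := by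
  obtain ⟨C, hC, h⟩ := exists_completeSum_pow_four_le
  obtain ⟨D, hD1, hD⟩ := RepresentationBound.card_divisors_isBigO ε hε
  refine ⟨C * D, by positivity, fun q Q β hq => ?_⟩
  obtain ⟨n, hn⟩ : ∃ n : ℕ → ℕ,
      n = fun P => ((quads P).filter fun w => (q : ℤ) ∣ quadVal w).card := ⟨_, rfl⟩
  have hexp : ∀ (P : ℕ) (γ : ℝ), ∑ a ∈ range q,
      ((‖cubeTrig (fun _ => 1) P ((a : ℝ) / q + γ)‖ ^ 4 : ℝ) : ℂ) =
        (q : ℂ) * ∑ w ∈ (quads P).filter (fun w => (q : ℤ) ∣ quadVal w),
          eAdd ((quadVal w : ℝ) * γ) := by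
    intro P γ
    simp only [cubeTrig_pow_four, intTrig, map_one, mul_one, one_mul]
    rw [sum_comm, mul_sum, sum_filter]
    refine sum_congr rfl fun w _ => ?_
    simp only [mul_add, eAdd_add, mul_div_assoc']
    rw [← sum_mul, sum_eAdd_grid hq]
    split_ifs <;> simp
  have hle : ∑ a ∈ range q, ‖cubeTrig (fun _ => 1) Q ((a : ℝ) / q + β)‖ ^ 4 ≤ q * n Q := by
    have h1 := congrArg norm (hexp Q β)
    rw [← Complex.ofReal_sum, Complex.norm_real,
      Real.norm_of_nonneg (sum_nonneg fun a _ => pow_nonneg (norm_nonneg _) 4), norm_mul,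
      Complex.norm_natCast] at h1
    rw [h1, hn]
    refine mul_le_mul_of_nonneg_left ((norm_sum_le _ _).trans (le_of_eq ?_)) (Nat.cast_nonneg q)
    simp [norm_eAdd]
  obtain ⟨m, hm⟩ : ∃ m, m = Q / q + 1 := ⟨_, rfl⟩
  have hQm : Q ≤ m * q := by rw [hm, add_mul, one_mul]; exact (Nat.lt_div_mul_add hq).le
  have hmono : n Q ≤ n (m * q) := by
    rw [hn]
    refine card_le_card (filter_subset_filter _ fun w hw => ?_)
    simp only [quads, pairs, mem_product, mem_Ioc] at hw ⊢
    omega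
  have heq : (q : ℝ) * n (m * q) = (m : ℝ) ^ 4 * ∑ a ∈ range q, ‖completeSum 3 q a‖ ^ 4 := by
    apply Complex.ofReal_injective
    have h0 := hexp (m * q) 0
    simp only [add_zero, cubeTrig_periodic hq, mul_zero, show eAdd (0 : ℝ) = 1 by simp [eAdd],
      sum_const, nsmul_eq_mul, mul_one, norm_mul, Complex.norm_natCast, mul_pow] at h0
    rw [hn]
    push_cast at h0 ⊢
    rw [mul_sum]
    exact h0.symm
  refine hle.trans ((mul_le_mul_of_nonneg_left (Nat.cast_le.2 hmono) (Nat.cast_nonneg q)).trans ?_)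
  rw [heq]
  refine (mul_le_mul_of_nonneg_left (h q hq) (by positivity)).trans ?_
  have hmq : (m : ℝ) * q ≤ (Q : ℝ) + q := by
    have h1 : m * q ≤ Q + q := by
      rw [hm, add_mul, one_mul]; exact Nat.add_le_add_right (Nat.div_mul_le_self Q q) q
    exact_mod_cast h1
  calc (m : ℝ) ^ 4 * (C * ((q : ℝ) ^ 4 * q.divisors.card))
      = C * (((m : ℝ) * q) ^ 4 * q.divisors.card) := by ring
    _ ≤ C * (((Q : ℝ) + q) ^ 4 * (D * (q : ℝ) ^ ε)) := by
        gcongr
        exact hD q hq.ne'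
    _ = _ := by ring

/-- `∑_{r < q} e ((a r³ + b r) / q)`. -/
def completeLinear (q : ℕ) (a b : ℤ) : ℂ :=
  ∑ r ∈ range q, eAdd (((a : ℝ) * (r : ℝ) ^ 3 + (b : ℝ) * r) / q)

theorem completeLinear_zero (q : ℕ) (a : ℤ) : completeLinear q a 0 = completeSum 3 q a := by
  simp [completeLinear, completeSum]

theorem hasLead_three_linear (γ : ℝ) : HasLead 3 0 fun x : ℤ => γ * (x : ℝ) := by
  intro h₁ h₂ h₃ x
  push_cast
  ring

/-- **Differencing twice.** -/
theorem exists_completeLinear_le {ε : ℝ} (hε : 0 < ε) : ∃ C : ℝ, 0 < C ∧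
    ∀ (q : ℕ) (a b : ℤ), 0 < q → IsUnit (a : ZMod q) →
      ‖completeLinear q a b‖ ≤ C * (q : ℝ) ^ (3 / 4 + ε) := by
  obtain ⟨C, hC, h⟩ := exists_steps_sum_le (j := 2) (by norm_num) hε
  obtain ⟨L₁, hL₁, hlog⟩ : ∃ L₁ : ℝ, 0 < L₁ ∧ ∀ q : ℕ, 1 ≤ q →
      1 + Real.log q ≤ L₁ * (q : ℝ) ^ ε := by
    refine ⟨1 + 1 / ε, by positivity, fun q hq => ?_⟩
    have h1 := Real.log_le_rpow_div (Nat.cast_nonneg q) hε
    have h2 : (1 : ℝ) ≤ (q : ℝ) ^ ε := Real.one_le_rpow (by exact_mod_cast hq) hε.le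
    rw [add_mul, one_mul, div_mul_eq_mul_div, one_mul]
    linarith
  obtain ⟨B, hB⟩ : ∃ B : ℝ, B = 2 * C * (1 + 8 * 7 * L₁) + 1 := ⟨_, rfl⟩
  refine ⟨B, by rw [hB]; positivity, fun q a b hq ha => ?_⟩
  have : NeZero q := ⟨hq.ne'⟩
  have hq1 : (1 : ℝ) ≤ q := by exact_mod_cast hq
  obtain ⟨φ, hφ⟩ : ∃ φ : ℤ → ℝ,
      φ = fun x : ℤ => (a : ℝ) / q * (x : ℝ) ^ 3 + (b : ℝ) / q * (x : ℝ) := ⟨_, rfl⟩
  have hlead : HasLead (2 + 1) ((a : ℝ) / q * ((Nat.factorial 3 : ℕ) : ℝ) + 0) φ :=
    hφ ▸ (hasLead_pow ((a : ℝ) / q) 3).add (hasLead_three_linear ((b : ℝ) / q))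
  have hsum : completeLinear q a b = ∑ x ∈ Ioc (-1 : ℤ) ((q : ℤ) - 1), eAdd (φ x) := by
    refine sum_nbij' (fun n : ℕ => (n : ℤ)) Int.toNat (fun n hn => ?_) (fun x hx => ?_)
      (fun n _ => Int.toNat_natCast n) (fun x hx => ?_) fun n _ => ?_
    · rw [mem_range] at hn; rw [mem_Ioc]; omega
    · rw [mem_Ioc] at hx; rw [mem_range]; omega
    · rw [mem_Ioc] at hx; exact Int.toNat_of_nonneg (by omega)
    · rw [hφ]
      congr 1
      push_cast
      ring
  have hw := weyl_differencing 2 hlead (P := q) hq (-1) ((q : ℤ) - 1) (by simp)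
  rw [← hsum, add_zero] at hw
  norm_num at hw
  have hs := h q hq ((a : ℝ) / q)
  norm_num [Nat.factorial] at hs hw
  have hclip := sum_clip_range_le (α := (a : ℝ) / q) ha (by simp) 0 (Z := (q : ℝ))
    (Nat.cast_nonneg q) (6 * q ^ 2 + 1)
  simp only [zero_add] at hclip
  have hS : ∑ m ∈ range (6 * q ^ 2 + 1), clip q ((a : ℝ) / q * m) ≤
      8 * 7 * L₁ * ((q : ℝ) ^ 2 * (q : ℝ) ^ ε) := by
    refine hclip.trans ?_
    have h1 : (((6 * q ^ 2 + 1 : ℕ) : ℝ) / q + 1) ≤ 8 * q := by
      push_cast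
      rw [div_add_one (by positivity), div_le_iff₀ (by positivity)]
      nlinarith
    have h2 : 5 * (q : ℝ) + 2 * q * (1 + Real.log q) ≤ 7 * q * (1 + Real.log q) := by
      nlinarith [Real.log_natCast_nonneg q]
    calc _ ≤ 8 * (q : ℝ) * (7 * q * (L₁ * (q : ℝ) ^ ε)) := by
          refine mul_le_mul h1 (h2.trans ?_) (by positivity [Real.log_natCast_nonneg q])
            (by positivity)
          gcongr
          exact hlog q hq
      _ = _ := by ring
  have hqε : (1 : ℝ) ≤ (q : ℝ) ^ ε := Real.one_le_rpow hq1 hε.le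
  have h4 : ‖completeLinear q a b‖ ^ 4 ≤ B * ((q : ℝ) ^ 3 * ((q : ℝ) ^ ε * (q : ℝ) ^ ε)) := by
    refine hw.trans ((mul_le_mul_of_nonneg_left (hs.trans (mul_le_mul_of_nonneg_left (add_le_add
      (le_mul_of_one_le_right (by positivity) (one_le_mul_of_one_le_of_one_le hqε hqε))
      (mul_le_mul_of_nonneg_left hS (by positivity))) hC.le)) (by positivity)).trans ?_)
    rw [hB]
    have h0 : 0 ≤ (q : ℝ) ^ 3 * ((q : ℝ) ^ ε * (q : ℝ) ^ ε) := by positivity
    nlinarith
  refine le_of_pow_le_pow_left₀ (n := 4) (by norm_num) (by rw [hB]; positivity) (h4.trans ?_)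
  rw [mul_pow]
  refine mul_le_mul (le_self_pow₀ (by rw [hB]; nlinarith [mul_pos hC hL₁]) (by norm_num)) ?_
    (by positivity) (by positivity)
  rw [← Real.rpow_natCast (q : ℝ) 3, ← Real.rpow_add (by linarith), ← Real.rpow_add (by linarith),
    ← Real.rpow_natCast ((q : ℝ) ^ (3 / 4 + ε)) 4, ← Real.rpow_mul (by linarith)]
  refine Real.rpow_le_rpow_of_exponent_le hq1 ?_
  push_cast
  linarith

end FA.FourCubes
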