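import Fermat.Agent.FourCubes.Complete
import Fermat.Agent.ErdosKac.Mertens
import Mathlib.Combinatorics.Additive.CauchyDavenport
import Mathlib.Analysis.SpecialFunctions.Pow.Asymptotics

/-!
# The singular series of four cubes

Its sum over the divisors of `W = ∏_{p ≤ w} p ^ w` is a product of local densities, each positive
(four cubes with one prime to `p` reach every residue, modulo `27` for `p = 3`) and at least
`1 - 1300 / p`, so it is at least a power of `1 / log w`; the rest of a partial sum is small in mean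
square.
-/

set_option autoImplicit false

noncomputable section

namespace FA.FourCubes

open Finset FA.ThreePrimes FA.WaringAsymptotic
open scoped Pointwise ComplexConjugate

/-- The coefficient of a centre. -/
def arcWeight (z : Σ _ : ℕ, ℕ) : ℂ := densityFactor 3 z.1 z.2 ^ 4

theorem norm_arcWeight_le_one (z : Σ _ : ℕ, ℕ) : ‖arcWeight z‖ ≤ 1 := by
  rw [arcWeight, norm_pow]
  exact pow_le_one₀ (norm_nonneg _) (norm_densityFactor_le_one _ _ _)

theorem singularTerm_eq_arcs (N : ℕ) (A : Finset ℕ) :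
    ∑ q ∈ A, singularTerm 3 4 N q =
      ∑ z ∈ A.sigma unitResidues, arcWeight z * eAdd (-((N : ℝ) * centre z)) := by
  rw [sum_sigma]
  refine sum_congr rfl fun q _ => sum_congr rfl fun r _ => ?_
  simp only [arcWeight, centre, mul_div_assoc]

theorem unitResidues_cast_isUnit {q r : ℕ} (hr : r ∈ unitResidues q) :
    IsUnit (((r : ℕ) : ℤ) : ZMod q) := by
  rw [unitResidues, mem_filter] at hr
  rw [Int.cast_natCast]
  exact (ZMod.isUnit_iff_coprime r q).2 hr.2.symm

theorem exists_density_three_le : ∃ C : ℝ, 1 ≤ C ∧ ∀ (q r : ℕ), r ∈ unitResidues q →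
    ‖densityFactor 3 q r‖ ≤ C * (q : ℝ) ^ (-(1 / 3) : ℝ) := by
  obtain ⟨C, hC, h⟩ := exists_completeSum_three_le
  refine ⟨C, hC, fun q r hr => ?_⟩
  have hq : 0 < q := by rw [unitResidues, mem_filter, mem_range] at hr; omega
  rw [densityFactor, norm_div, Complex.norm_natCast, div_le_iff₀ (Nat.cast_pos.2 hq), mul_assoc,
    ← Real.rpow_add_one (Nat.cast_ne_zero.2 hq.ne'),
    show -(1 / 3 : ℝ) + 1 = 2 / 3 by norm_num]
  exact h q r hq (unitResidues_cast_isUnit hr)

/-! ### The local densities -/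

/-- The local density at `p` to the order `w`. -/
def localFour (N p w : ℕ) : ℝ :=
  ((p ^ w : ℕ) : ℝ) * congrCount 3 4 N (p ^ w) / ((p ^ w : ℕ) : ℝ) ^ 4

theorem sum_singularTerm_primePow {p : ℕ} (hp : p.Prime) (N w : ℕ) :
    ∑ l ∈ range (w + 1), singularTerm 3 4 N (p ^ l) = (localFour N p w : ℂ) := by
  rw [← residueSum_primePow hp w, residueSum_eq (pow_pos hp.pos w), localFour]
  push_cast
  rfl

theorem exists_pattern_three (N : ℕ) : ∃ y : Fin 4 → ℕ, ¬3 ∣ y 0 ∧
    ((27 : ℕ) : ℤ) ∣ ((∑ i, y i ^ 3 : ℕ) : ℤ) - N := by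
  have key : ∀ n : Fin 27, ∃ a : Fin 27, ∃ t : Fin 7, ¬3 ∣ (a : ℕ) ∧
      ((a : ℕ) ^ 3 + (t : ℕ) + 24) % 27 = (n : ℕ) := by decide +kernel
  obtain ⟨a, t, ha, hn⟩ := key ⟨N % 27, Nat.mod_lt _ (by norm_num)⟩
  simp only at hn
  obtain ⟨b, c, d, hbcd⟩ : ∃ b c d : ℕ, (b ^ 3 + c ^ 3 + d ^ 3) % 27 = ((t : ℕ) + 24) % 27 := by
    obtain ⟨t, ht⟩ := t
    interval_cases t
    exacts [⟨26, 26, 26, by norm_num⟩, ⟨26, 26, 0, by norm_num⟩, ⟨26, 0, 0, by norm_num⟩,
      ⟨0, 0, 0, by norm_num⟩, ⟨1, 0, 0, by norm_num⟩, ⟨1, 1, 0, by norm_num⟩,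
      ⟨1, 1, 1, by norm_num⟩]
  refine ⟨![(a : ℕ), b, c, d], by simpa using ha, ?_⟩
  rw [show ∑ i, (![(a : ℕ), b, c, d]) i ^ 3 = (a : ℕ) ^ 3 + (b ^ 3 + c ^ 3 + d ^ 3) by
    simp [Fin.sum_univ_four]; ring, Nat.cast_ofNat]
  omega

theorem exists_pattern_four {p : ℕ} (hp : p.Prime) (N : ℕ) : ∃ y : Fin 4 → ℕ, ¬p ∣ y 0 ∧
    ((p ^ (2 * padicValNat p 3 + 1) : ℕ) : ℤ) ∣ ((∑ i, y i ^ 3 : ℕ) : ℤ) - N := by
  classical
  rcases eq_or_ne p 3 with rfl | h3
  · rw [show padicValNat 3 3 = 1 by simp]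
    exact exists_pattern_three N
  have : Fact p.Prime := ⟨hp⟩
  rw [show padicValNat p 3 = 0 from padicValNat.eq_zero_of_not_dvd fun hd =>
    h3 ((Nat.prime_dvd_prime_iff_eq hp Nat.prime_three).1 hd), mul_zero, zero_add, pow_one]
  obtain ⟨A, hA⟩ : ∃ A, A = ((univ : Finset (ZMod p)).erase 0).image (fun x => x ^ 3) := ⟨_, rfl⟩
  obtain ⟨B, hB⟩ : ∃ B, B = insert (0 : ZMod p) A := ⟨_, rfl⟩
  have hA3 : p - 1 ≤ 3 * A.card := by
    refine le_trans (le_of_eq ?_) ((card_le_mul_card_image (n := 3)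
      ((univ : Finset (ZMod p)).erase 0) (f := fun x => x ^ 3) fun b _ =>
        (card_le_card (filter_subset_filter _ (erase_subset _ _))).trans
          (card_pow_eq_le (by norm_num) b)).trans (le_of_eq (by rw [hA])))
    rw [card_erase_of_mem (mem_univ _), card_univ, ZMod.card]
  have h0A : (0 : ZMod p) ∉ A := fun h => by
    rw [hA, mem_image] at h
    obtain ⟨x, hx, he⟩ := h
    exact ne_of_mem_erase hx (eq_zero_of_pow_eq_zero he)
  have hA1 : A.Nonempty := card_pos.1 (by have := hp.two_le; omega)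
  have hBc : B.card = A.card + 1 := by rw [hB, card_insert_of_notMem h0A]
  have hB1 : B.Nonempty := hB ▸ insert_nonempty _ _
  have h1 := ZMod.cauchy_davenport hp hA1 hB1
  have h2 := ZMod.cauchy_davenport hp (hA1.add hB1) hB1
  have h3' := ZMod.cauchy_davenport hp ((hA1.add hB1).add hB1) hB1
  have hfull : A + B + B + B = univ := by
    refine eq_univ_of_card _ ?_
    rw [ZMod.card]
    have := card_le_univ (A + B + B + B)
    rw [ZMod.card] at this
    have := hA1.card_pos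
    have h4 : p ≤ 4 * A.card := by
      rcases eq_or_ne p 2 with h | h
      · omega
      · have := hp.two_le
        have := hp.odd_of_ne_two h
        obtain ⟨k, hk⟩ := this
        omega
    omega
  have hcube : ∀ b ∈ B, ∃ x : ZMod p, x ^ 3 = b := by
    intro b hb
    rw [hB, mem_insert, hA, mem_image] at hb
    rcases hb with rfl | ⟨x, -, rfl⟩
    exacts [⟨0, zero_pow three_ne_zero⟩, ⟨x, rfl⟩]
  obtain ⟨u, hu, d, hd, e1⟩ := Finset.mem_add.1 (hfull ▸ mem_univ (N : ZMod p))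
  obtain ⟨v, hv, c, hc, rfl⟩ := Finset.mem_add.1 hu
  obtain ⟨a, ha, b, hb, rfl⟩ := Finset.mem_add.1 hv
  obtain ⟨x₀, hx₀, rfl⟩ := mem_image.1 (hA ▸ ha)
  obtain ⟨x₁, rfl⟩ := hcube b hb
  obtain ⟨x₂, rfl⟩ := hcube c hc
  obtain ⟨x₃, rfl⟩ := hcube d hd
  refine ⟨![x₀.val, x₁.val, x₂.val, x₃.val], fun hd0 => ne_of_mem_erase hx₀ ?_, ?_⟩
  · rw [← ZMod.natCast_zmod_val x₀, ZMod.natCast_eq_zero_iff]
    simpa using hd0
  · rw [← ZMod.intCast_zmod_eq_zero_iff_dvd]
    simp only [Fin.sum_univ_four, Matrix.cons_val_zero, Matrix.cons_val_one, Matrix.cons_val]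
    push_cast
    simp only [ZMod.natCast_zmod_val]
    rw [e1, sub_self]

theorem localFour_ge {p : ℕ} (hp : p.Prime) (N : ℕ) {w : ℕ} (hw : 3 ≤ w) :
    1 / (p : ℝ) ^ 9 ≤ localFour N p w := by
  obtain ⟨y, hy, hN⟩ := exists_pattern_four hp N
  obtain ⟨γ, hγ, hγ3⟩ : ∃ γ, γ = 2 * padicValNat p 3 + 1 ∧ γ ≤ 3 := by
    refine ⟨_, rfl, ?_⟩
    rcases eq_or_ne p 3 with rfl | h3
    · simp
    · rw [padicValNat.eq_zero_of_not_dvd fun hd =>
        h3 ((Nat.prime_dvd_prime_iff_eq hp Nat.prime_three).1 hd)]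
      norm_num
  have hC := congrCount_ge hp (show 1 ≤ 3 by norm_num) hy hN (L := w) (by omega)
  rw [← hγ] at hC
  have hq : (0 : ℝ) < ((p ^ w : ℕ) : ℝ) := Nat.cast_pos.2 (pow_pos hp.pos w)
  rw [localFour, pow_succ' ((p ^ w : ℕ) : ℝ) 3, mul_div_mul_left _ _ hq.ne',
    div_le_div_iff₀ (pow_pos (Nat.cast_pos.2 hp.pos) 9) (pow_pos hq 3), one_mul]
  have h1 : (p ^ w) ^ 3 ≤ (p ^ (w - γ)) ^ 3 * p ^ 9 := by
    rw [← pow_mul, ← pow_mul, ← pow_add]
    exact Nat.pow_le_pow_right hp.pos (by omega)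
  exact_mod_cast h1.trans (Nat.mul_le_mul_right _ hC)

theorem localFour_ge_large {p : ℕ} (hp : p.Prime) (hbig : 46656 ≤ p) (N : ℕ) (w : ℕ) :
    1 - 1300 / (p : ℝ) ≤ localFour N p w := by
  have hp0 : (0 : ℝ) < p := Nat.cast_pos.2 hp.pos
  obtain ⟨t, ht⟩ : ∃ t : ℝ, t = (p : ℝ) ^ (-(1 / 3) : ℝ) := ⟨_, rfl⟩
  have ht0 : 0 ≤ t := by rw [ht]; positivity
  have ht3 : t ^ 3 = 1 / (p : ℝ) := by
    rw [ht, ← Real.rpow_natCast, ← Real.rpow_mul hp0.le]
    norm_num [Real.rpow_neg_one]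
  have htl : t ≤ 1 / 2 := by
    refine le_of_pow_le_pow_left₀ three_ne_zero (by norm_num) ?_
    rw [ht3, div_le_iff₀ hp0]
    have : (46656 : ℝ) ≤ p := by exact_mod_cast hbig
    linarith
  obtain ⟨B, hB⟩ : ∃ B : ℕ → ℝ, B = fun l =>
      if l = 1 then 1296 / (p : ℝ) else if l = 2 then 1 / (p : ℝ) else t ^ l := ⟨_, rfl⟩
  have hterm : ∀ l, 1 ≤ l → ‖singularTerm 3 4 N (p ^ l)‖ ≤ B l := by
    intro l hl
    have hunit : ∀ r ∈ unitResidues (p ^ l), ¬(p : ℤ) ∣ ((r : ℕ) : ℤ) := fun r hr hd => by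
      rw [unitResidues, mem_filter] at hr
      exact (hp.coprime_iff_not_dvd.1 ((Nat.coprime_pow_left_iff hl p r).1 hr.2))
        (Int.natCast_dvd_natCast.1 hd)
    have hsum : ∀ X : ℝ, (∀ r ∈ unitResidues (p ^ l), ‖densityFactor 3 (p ^ l) r‖ ≤ X) →
        ‖singularTerm 3 4 N (p ^ l)‖ ≤ ((p ^ l : ℕ) : ℝ) * X ^ 4 := fun X hX => by
      refine (norm_sum_le _ _).trans ((sum_le_card_nsmul _ _ (X ^ 4) fun r hr => ?_).trans ?_)
      · rw [norm_mul, norm_pow, norm_eAdd, mul_one]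
        exact pow_le_pow_left₀ (norm_nonneg _) (hX r hr) 4
      · rw [nsmul_eq_mul, card_unitResidues]
        exact mul_le_mul_of_nonneg_right (Nat.cast_le.2 (Nat.totient_le _))
          (Even.pow_nonneg (by decide) X)
    rcases (show l = 1 ∨ l = 2 ∨ 3 ≤ l by omega) with rfl | rfl | h3
    · refine (hsum (6 / √(p : ℝ)) fun r hr => ?_).trans (le_of_eq ?_)
      · rw [densityFactor, norm_div, Complex.norm_natCast, pow_one, div_le_iff₀ hp0,
          div_mul_eq_mul_div, mul_div_assoc, Real.div_sqrt]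
        exact (norm_completeSum_prime_le hp (by norm_num) ((ZMod.coe_int_isUnit_iff_isCoprime _ p).2
          ((Nat.prime_iff_prime_int.1 hp).coprime_iff_not_dvd.2 (hunit r hr)))).trans
          (le_of_eq (by norm_num))
      · rw [hB]
        simp only [if_true]
        rw [pow_one, div_pow, show √(p : ℝ) ^ 4 = (√(p : ℝ) ^ 2) ^ 2 by ring, Real.sq_sqrt hp0.le]
        field_simp
        norm_num
    · refine (hsum (1 / (p : ℝ)) fun r hr => ?_).trans ?_
      · rw [densityFactor, norm_div, Complex.norm_natCast, completeSum_primePow hp (by norm_num)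
          (by rw [padicValNat.eq_zero_of_not_dvd fun hd => by
            have := Nat.le_of_dvd (by norm_num) hd; omega]) (hunit r hr),
          div_le_iff₀ (by positivity)]
        refine (norm_sum_le _ _).trans (le_of_eq ?_)
        simp only [norm_eAdd, sum_const, card_range, nsmul_eq_mul, mul_one]
        push_cast
        field_simp
      · rw [hB]
        simp only [if_true, OfNat.ofNat_ne_one, if_false]
        push_cast
        rw [show (p : ℝ) ^ 2 * (1 / (p : ℝ)) ^ 4 = 1 / (p : ℝ) ^ 2 by field_simp]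
        exact one_div_le_one_div_of_le hp0 (le_self_pow₀ (by
          exact_mod_cast hp.one_le) two_ne_zero)
    · refine (hsum (t ^ l) fun r hr => ?_).trans (le_of_eq ?_)
      · rw [densityFactor, norm_div, Complex.norm_natCast, div_le_iff₀ (by positivity)]
        refine (norm_completeSum_three_primePow_le hp l (hunit r hr)).trans (le_of_eq ?_)
        rw [cubeConst, if_neg (by omega), one_mul, ht]
        push_cast
        rw [← Real.rpow_natCast, ← Real.rpow_natCast, ← Real.rpow_mul hp0.le,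
          ← Real.rpow_add hp0]
        ring_nf
      · rw [hB]
        simp only [show l ≠ 1 by omega, show l ≠ 2 by omega, if_false]
        push_cast
        rw [show (p : ℝ) = (t ^ 3)⁻¹ by rw [ht3, one_div, inv_inv], inv_pow, ← pow_mul, ← pow_mul]
        have : t ≠ 0 := fun h => by
          rw [h] at ht3; simp at ht3; exact hp.ne_zero (by exact_mod_cast ht3.symm)
        rw [mul_comm, ← pow_sub₀ t this (by omega)]
        congr 1
        omega
  have hBsum : ∀ w : ℕ, ∑ l ∈ range w, B (l + 1) ≤ 1300 / (p : ℝ) := by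
    intro w
    have hgeo : ∀ m : ℕ, ∑ l ∈ range m, t ^ (l + 3) ≤ 2 * t ^ 3 * (1 - t ^ m) := by
      intro m
      induction m with
      | zero => simp
      | succ m ih =>
        rw [sum_range_succ, pow_succ t m, pow_add t m 3]
        nlinarith [mul_nonneg (mul_nonneg (pow_nonneg ht0 m) (pow_nonneg ht0 3))
          (show 0 ≤ 1 - 2 * t by linarith)]
    refine (sum_le_sum_of_subset_of_nonneg (t := range (w + 2)) (range_subset_range.2 (by omega))
      fun l _ _ => ?_).trans ?_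
    · rw [hB]; simp only; split_ifs <;> positivity
    rw [add_comm w 2, sum_range_add, sum_range_succ, sum_range_succ, sum_range_zero, zero_add]
    have e : ∑ l ∈ range w, B (2 + l + 1) = ∑ l ∈ range w, t ^ (l + 3) :=
      sum_congr rfl fun l _ => by
        rw [hB]
        simp only [show 2 + l + 1 ≠ 1 by omega, show 2 + l + 1 ≠ 2 by omega, if_false]
        congr 1
        omega
    rw [e, hB]
    simp only [zero_add, if_true, show (1 : ℕ) + 1 ≠ 1 by norm_num, if_false]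
    have := hgeo w
    rw [ht3] at this
    have h1 : 0 ≤ 1 / (p : ℝ) * t ^ w := by positivity
    have h2 : (1300 : ℝ) / p = 1300 * (1 / p) := by ring
    have h3 : (1296 : ℝ) / p = 1296 * (1 / p) := by ring
    have h4 : 0 ≤ 1 / (p : ℝ) := by positivity
    linarith
  have h := sum_singularTerm_primePow hp N w
  rw [sum_range_succ', pow_zero, singularTerm_one] at h
  have hn : ‖((localFour N p w - 1 : ℝ) : ℂ)‖ ≤ 1300 / (p : ℝ) := by
    push_cast
    rw [← h, add_sub_cancel_right]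
    exact (norm_sum_le _ _).trans ((sum_le_sum fun l _ => hterm (l + 1) (by omega)).trans (hBsum w))
  rw [Complex.norm_real, Real.norm_eq_abs] at hn
  linarith [(abs_le.1 hn).1]

/-! ### The sum over the divisors of `W` -/

/-- `∏_{p ≤ w} p ^ w`. -/
def smoothModulus (w : ℕ) : ℕ := ∏ p ∈ ErdosKac.primesUpTo w, p ^ w

/-- The singular series over the divisors of `W`. -/
def smoothSeries (N w : ℕ) : ℝ := ∏ p ∈ ErdosKac.primesUpTo w, localFour N p w

theorem smoothModulus_pos (w : ℕ) : 0 < smoothModulus w :=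
  prod_pos fun _ hp => pow_pos (ErdosKac.mem_primesUpTo.1 hp).1.pos w

theorem dvd_smoothModulus {w q : ℕ} (hq : 0 < q) (hqw : q ≤ w) : q ∣ smoothModulus w := by
  rw [Nat.dvd_iff_prime_pow_dvd_dvd]
  intro p k hp hk
  rcases Nat.eq_zero_or_pos k with rfl | hk0
  · simp
  have hle := (Nat.le_of_dvd hq hk).trans hqw
  have hpw : p ≤ w := (Nat.le_self_pow hk0.ne' p).trans hle
  refine dvd_trans (pow_dvd_pow p ((Nat.lt_pow_self hp.one_lt).le.trans hle)) ?_
  exact dvd_prod_of_mem (fun p => p ^ w) (ErdosKac.mem_primesUpTo.2 ⟨hp, hpw⟩)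

theorem sum_divisors_smoothModulus (N w : ℕ) :
    ∑ q ∈ (smoothModulus w).divisors, singularTerm 3 4 N q = (smoothSeries N w : ℂ) := by
  classical
  obtain ⟨f, hf⟩ : ∃ f : ArithmeticFunction ℂ, f = ⟨singularTerm 3 4 N,
      by simp [WaringAsymptotic.singularTerm, unitResidues]⟩ := ⟨_, rfl⟩
  have hfa : ∀ q, f q = singularTerm 3 4 N q := fun q => by rw [hf]; rfl
  have hmul : ArithmeticFunction.IsMultiplicative f :=
    ⟨by rw [hfa, singularTerm_one], fun {m n} h => by
      rw [hfa, hfa, hfa, singularTerm_mul (by norm_num) h]⟩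
  obtain ⟨g, hg⟩ : ∃ g : ArithmeticFunction ℂ, g = f * ↑ArithmeticFunction.zeta := ⟨_, rfl⟩
  have hga : ∀ n, g n = ∑ q ∈ n.divisors, singularTerm 3 4 N q := fun n => by
    rw [hg, ArithmeticFunction.coe_mul_zeta_apply]
    exact sum_congr rfl fun q _ => hfa q
  have hgm : ArithmeticFunction.IsMultiplicative g :=
    hg ▸ hmul.mul ArithmeticFunction.isMultiplicative_zeta.natCast
  rw [← hga, smoothModulus, ArithmeticFunction.IsMultiplicative.map_prod _ hgm _ fun p hp r hr hne =>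
    ((Nat.coprime_primes (ErdosKac.mem_primesUpTo.1 hp).1 (ErdosKac.mem_primesUpTo.1 hr).1).2 hne).pow
      w w, smoothSeries, Complex.ofReal_prod]
  refine prod_congr rfl fun p hp => ?_
  rw [hga, Nat.sum_divisors_prime_pow (ErdosKac.mem_primesUpTo.1 hp).1,
    sum_singularTerm_primePow (ErdosKac.mem_primesUpTo.1 hp).1]

/-- **The lower bound.** -/
theorem exists_smoothSeries_ge : ∃ c : ℝ, 0 < c ∧ ∀ w : ℕ, 3 ≤ w → ∀ N : ℕ,
    c / Real.log w ^ (2600 : ℝ) ≤ smoothSeries N w := by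
  obtain ⟨C, hC⟩ := ErdosKac.exists_abs_recipSum_sub_le
  obtain ⟨b, hb⟩ : ∃ b : ℕ, b = 46656 := ⟨_, rfl⟩
  refine ⟨(1 / (b : ℝ) ^ 9) ^ b * Real.exp (-(2600 * C)), mul_pos (pow_pos (by
    rw [hb]; positivity) _) (Real.exp_pos _), fun w hw N => ?_⟩
  have hb0 : (0 : ℝ) < b := by rw [hb]; norm_num
  have hc1 : 1 / (b : ℝ) ^ 9 ≤ 1 := by
    rw [div_le_one (pow_pos hb0 9)]
    exact one_le_pow₀ (by rw [hb]; norm_num)
  have hlw : 0 < Real.log w := Real.log_pos (by exact_mod_cast (show 1 < w by omega))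
  rw [smoothSeries, ← prod_filter_mul_prod_filter_not (ErdosKac.primesUpTo w) (fun p => p < b)]
  have hsmall : (1 / (b : ℝ) ^ 9) ^ b ≤
      ∏ p ∈ (ErdosKac.primesUpTo w).filter (fun p => p < b), localFour N p w := by
    have hcard : ((ErdosKac.primesUpTo w).filter fun p => p < b).card ≤ b :=
      (card_le_card (t := range b) fun p hp => mem_range.2 (mem_filter.1 hp).2).trans
        (card_range b).le
    refine (pow_le_pow_of_le_one (by positivity) hc1 hcard).trans ?_
    rw [← prod_const]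
    refine prod_le_prod (fun _ _ => by positivity) fun p hp => ?_
    rw [mem_filter, ErdosKac.mem_primesUpTo] at hp
    refine le_trans (one_div_le_one_div_of_le (pow_pos (Nat.cast_pos.2 hp.1.1.pos) 9) ?_)
      (localFour_ge hp.1.1 N hw)
    exact pow_le_pow_left₀ (Nat.cast_nonneg p) (Nat.cast_le.2 hp.2.le) 9
  have hlarge : Real.exp (-(2600 * C)) / Real.log w ^ (2600 : ℝ) ≤
      ∏ p ∈ (ErdosKac.primesUpTo w).filter (fun p => ¬p < b), localFour N p w := by
    have h1 : ∀ p ∈ (ErdosKac.primesUpTo w).filter (fun p => ¬p < b),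
        Real.exp (-(2600 * (p : ℝ)⁻¹)) ≤ localFour N p w := by
      intro p hp
      rw [mem_filter, ErdosKac.mem_primesUpTo, not_lt, hb] at hp
      refine le_trans ?_ (localFour_ge_large hp.1.1 hp.2 N w)
      obtain ⟨x, hx⟩ : ∃ x : ℝ, x = 1300 / (p : ℝ) := ⟨_, rfl⟩
      have hx0 : 0 ≤ x := by rw [hx]; positivity
      have hx2 : x ≤ 1 / 2 := by
        rw [hx, div_le_iff₀ (Nat.cast_pos.2 hp.1.1.pos)]
        have : (46656 : ℝ) ≤ p := by exact_mod_cast hp.2
        linarith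
      rw [show 2600 * (p : ℝ)⁻¹ = 2 * x by rw [hx]; ring, ← hx, Real.exp_neg,
        inv_le_iff_one_le_mul₀' (Real.exp_pos _)]
      nlinarith [Real.add_one_le_exp (2 * x), mul_nonneg hx0 (show 0 ≤ 1 - 2 * x by linarith)]
    refine le_trans ?_ (prod_le_prod (fun _ _ => (Real.exp_pos _).le) h1)
    rw [← Real.exp_sum, Real.rpow_def_of_pos hlw, div_eq_mul_inv, ← Real.exp_neg, ← Real.exp_add,
      sum_neg_distrib, ← mul_sum]
    refine Real.exp_le_exp.2 ?_
    have hsum : ∑ p ∈ (ErdosKac.primesUpTo w).filter (fun p => ¬p < b), (p : ℝ)⁻¹ ≤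
        ErdosKac.recipSum w :=
      sum_le_sum_of_subset_of_nonneg (filter_subset _ _) fun p _ _ => by positivity
    linarith [(abs_le.1 (hC w (by omega))).2]
  rw [mul_div_assoc]
  exact mul_le_mul hsmall hlarge (by positivity) ((by positivity : (0 : ℝ) ≤ _).trans hsmall)

/-! ### The rest of the partial sum -/

/-- **The large sieve in its simplest form.** -/
theorem sum_norm_arcs_sq_le {R : ℕ} {Z : Finset (Σ _ : ℕ, ℕ)} (hZ : Z ⊆ arcCentres R) (A B : ℕ) :
    ∑ n ∈ Ioc A B, ‖∑ z ∈ Z, arcWeight z * eAdd (-((n : ℝ) * centre z))‖ ^ 2 ≤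
      ((B - A : ℕ) : ℝ) * ∑ z ∈ Z, ‖arcWeight z‖ ^ 2 + (R : ℝ) ^ 6 := by
  classical
  obtain ⟨G, hG⟩ : ∃ G : (Σ _ : ℕ, ℕ) → (Σ _ : ℕ, ℕ) → ℝ,
      G = fun z u => ‖∑ n ∈ Ioc A B, eAdd ((n : ℝ) * (centre u - centre z))‖ := ⟨_, rfl⟩
  have h1 : ∑ n ∈ Ioc A B, ‖∑ z ∈ Z, arcWeight z * eAdd (-((n : ℝ) * centre z))‖ ^ 2 ≤
      ∑ z ∈ Z, ∑ u ∈ Z, ‖arcWeight z‖ * ‖arcWeight u‖ * G z u := by
    refine (le_abs_self _).trans (le_of_eq_of_le (Complex.norm_real _).symm ?_)
    push_cast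
    simp only [← Complex.mul_conj', map_sum, sum_mul_sum, map_mul, conj_eAdd, neg_neg]
    rw [sum_comm]
    refine (norm_sum_le _ _).trans (sum_le_sum fun z _ => ?_)
    rw [sum_comm]
    refine (norm_sum_le _ _).trans (le_of_eq (sum_congr rfl fun u _ => ?_))
    rw [hG, ← Complex.norm_conj (arcWeight u), ← norm_mul, ← norm_mul, mul_sum]
    refine congrArg _ (sum_congr rfl fun n _ => ?_)
    rw [show (n : ℝ) * (centre u - centre z) = -((n : ℝ) * centre z) + (n : ℝ) * centre u by ring,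
      eAdd_add]
    ring
  refine h1.trans ?_
  have h2 : ∀ z ∈ Z, ∀ u ∈ Z, ‖arcWeight z‖ * ‖arcWeight u‖ * G z u ≤
      (if z = u then ((B - A : ℕ) : ℝ) * ‖arcWeight z‖ ^ 2 else 0) + (R : ℝ) ^ 2 := by
    intro z hz u hu
    split_ifs with h
    · subst h
      refine le_add_of_le_of_nonneg ?_ (by positivity)
      simp only [hG, sub_self]
      simp only [mul_zero, show eAdd (0 : ℝ) = 1 by simp [eAdd], sum_const, nsmul_eq_mul, mul_one,
        Complex.norm_natCast, Nat.card_Ioc]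
      exact le_of_eq (by ring)
    · rw [zero_add]
      refine (mul_le_of_le_one_left (by rw [hG]; positivity) (mul_le_one₀ (norm_arcWeight_le_one z)
        (norm_nonneg _) (norm_arcWeight_le_one u))).trans ?_
      have hd := inv_mul_le_nearDist_centre (hZ hu) (hZ hz) (Ne.symm h)
      have hR0 : (0 : ℝ) < R := Nat.cast_pos.2 (by
        have := (mem_arcCentres.1 (hZ hz)).1; omega)
      rw [hG]
      refine ((norm_geom_le _ A B).trans (clip_le_inv (by positivity) hd)).trans ?_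
      rw [mul_one_div, one_div_div, sq]
      exact div_le_self (by positivity) (by norm_num)
  refine (sum_le_sum fun z hz => sum_le_sum fun u hu => h2 z hz u hu).trans ?_
  simp only [sum_add_distrib, sum_const, nsmul_eq_mul]
  refine add_le_add (le_of_eq ?_) ?_
  · rw [mul_sum]
    refine sum_congr rfl fun z hz => ?_
    rw [sum_ite_eq, if_pos hz]
  · have hcard : (Z.card : ℝ) ≤ (R : ℝ) ^ 2 := by
      refine le_trans (Nat.cast_le.2 (card_le_card hZ)) ?_
      rw [arcCentres, card_sigma, Nat.cast_sum]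
      refine (sum_le_card_nsmul _ _ (R : ℝ) fun q hq => ?_).trans (le_of_eq ?_)
      · rw [card_unitResidues]
        exact Nat.cast_le.2 ((Nat.totient_le q).trans (mem_Icc.1 hq).2)
      · rw [Nat.card_Icc, Nat.add_sub_cancel, nsmul_eq_mul, sq]
    calc (Z.card : ℝ) * ((Z.card : ℝ) * (R : ℝ) ^ 2)
        ≤ (R : ℝ) ^ 2 * ((R : ℝ) ^ 2 * (R : ℝ) ^ 2) := by gcongr
      _ = _ := by ring

/-- **The rest of the partial sum is small in mean square.** -/
theorem exists_singular_rest : ∃ C : ℝ, 0 < C ∧ ∀ w R A B : ℕ, 1 ≤ w → smoothModulus w ≤ R →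
    ∑ n ∈ Ioc A B,
        ‖∑ q ∈ Icc 1 R, singularTerm 3 4 n q - (smoothSeries n w : ℂ)‖ ^ 2 ≤
      C * (((B - A : ℕ) : ℝ) * (w : ℝ) ^ (-(1 / 2) : ℝ)) + (R : ℝ) ^ 6 := by
  classical
  obtain ⟨C, hC, hdf⟩ := exists_density_three_le
  have hsum : Summable fun q : ℕ => (q : ℝ) ^ (-(7 / 6) : ℝ) :=
    Real.summable_nat_rpow.2 (by norm_num)
  refine ⟨C ^ 8 * (∑' q : ℕ, (q : ℝ) ^ (-(7 / 6) : ℝ) + 1), mul_pos (pow_pos (by linarith) 8)
    (add_pos_of_nonneg_of_pos (tsum_nonneg fun q => by positivity) one_pos),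
    fun w R A B hw hWR => ?_⟩
  have hsub : (smoothModulus w).divisors ⊆ Icc 1 R := fun q hq => mem_Icc.2
    ⟨Nat.pos_of_mem_divisors hq, (Nat.divisor_le hq).trans hWR⟩
  obtain ⟨S, hS⟩ : ∃ S, S = Icc 1 R \ (smoothModulus w).divisors := ⟨_, rfl⟩
  have e : ∀ n, ∑ q ∈ Icc 1 R, singularTerm 3 4 n q - (smoothSeries n w : ℂ) =
      ∑ z ∈ S.sigma unitResidues, arcWeight z * eAdd (-((n : ℝ) * centre z)) := fun n => by
    rw [← sum_divisors_smoothModulus, ← sum_sdiff hsub, add_sub_cancel_right, hS,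
      singularTerm_eq_arcs]
  simp only [e]
  refine (sum_norm_arcs_sq_le (R := R) ?_ A B).trans (add_le_add ?_ le_rfl)
  · intro z hz
    rw [mem_sigma, hS, mem_sdiff] at hz
    rw [arcCentres, mem_sigma]
    exact ⟨hz.1.1, hz.2⟩
  · rw [mul_left_comm]
    refine mul_le_mul_of_nonneg_left ?_ (Nat.cast_nonneg _)
    rw [sum_sigma]
    calc ∑ q ∈ S, ∑ r ∈ unitResidues q, ‖arcWeight ⟨q, r⟩‖ ^ 2
        ≤ ∑ q ∈ S, C ^ 8 * ((w : ℝ) ^ (-(1 / 2) : ℝ) * (q : ℝ) ^ (-(7 / 6) : ℝ)) := by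
          refine sum_le_sum fun q hq => ?_
          rw [hS, mem_sdiff, mem_Icc] at hq
          have hwq : w < q := by
            by_contra h
            exact hq.2 (Nat.mem_divisors.2 ⟨dvd_smoothModulus hq.1.1 (not_lt.1 h),
              (smoothModulus_pos w).ne'⟩)
          have hq0 : (0 : ℝ) < q := Nat.cast_pos.2 hq.1.1
          refine (sum_le_card_nsmul _ _ ((C * (q : ℝ) ^ (-(1 / 3) : ℝ)) ^ 8) fun r hr => ?_).trans ?_
          · rw [arcWeight, norm_pow, ← pow_mul]
            exact pow_le_pow_left₀ (norm_nonneg _) (hdf q r hr) 8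
          rw [nsmul_eq_mul, card_unitResidues, mul_pow]
          refine (mul_le_mul_of_nonneg_right (Nat.cast_le.2 (Nat.totient_le q))
            (by positivity)).trans ?_
          rw [mul_left_comm]
          refine mul_le_mul_of_nonneg_left ?_ (pow_nonneg (by linarith) 8)
          rw [← Real.rpow_natCast ((q : ℝ) ^ _) 8, ← Real.rpow_mul hq0.le,
            ← Real.rpow_one_add' hq0.le (by norm_num),
            show (1 : ℝ) + -(1 / 3) * ((8 : ℕ) : ℝ) = -(1 / 2) + -(7 / 6) by norm_num,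
            Real.rpow_add hq0]
          exact mul_le_mul_of_nonneg_right (Real.rpow_le_rpow_of_nonpos (Nat.cast_pos.2 hw)
            (Nat.cast_le.2 hwq.le) (by norm_num)) (by positivity)
      _ ≤ _ := by
          rw [← mul_sum, ← mul_sum, mul_assoc, mul_comm ((w : ℝ) ^ _)]
          refine mul_le_mul_of_nonneg_left (mul_le_mul_of_nonneg_right ?_ (by positivity))
            (pow_nonneg (by linarith) 8)
          linarith [hsum.sum_le_tsum S fun q _ => by positivity]

end FA.FourCubes
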