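import Fermat.Agent.FourCubes.Approx
import Fermat.Agent.FourCubes.Singular

/-!
# Four cubes on a grid

`F = f² g²`; the expected number of representations of `n` is `Q² J (n)` times a partial sum of the
singular series, and by Bessel the squares of the deviations add up to at most the mean square of
what is left of `F` on the grid of step `1 / (64 P⁶)`.
-/

set_option autoImplicit false

noncomputable section

namespace FA.FourCubes

open Finset FA.ThreePrimes FA.WaringAsymptotic FA.HuaCubes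
open scoped ComplexConjugate

/-- The number of points of the grid. -/
def gridSize (P : ℕ) : ℕ := 64 * P ^ 6

/-- The variables. -/
def fourVars (P Q : ℕ) : Finset ((ℕ × ℕ) × (ℕ × ℕ)) := (window P ×ˢ window P) ×ˢ pairs Q

/-- Representations `x₁³ + x₂³ + y₁³ + y₂³` with `x` in the window and `y ≤ Q`. -/
def fourReps (P Q n : ℕ) : ℕ :=
  ((fourVars P Q).filter fun w => pairSum w.1 + pairSum w.2 = n).card

/-- `f² g²`. -/
def fourTrig (P Q : ℕ) (t : ℝ) : ℂ := cubeWindow P t ^ 2 * shortCube Q t ^ 2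

/-- The smooth form of the sum over the window. -/
def weightWindow (P : ℕ) (β : ℝ) : ℂ :=
  weightSum (1 / 3) ((2 * P) ^ 3) β - weightSum (1 / 3) (P ^ 3) β

/-- The pairs of smooth variables. -/
def weightPairs (P : ℕ) : Finset (ℕ × ℕ) :=
  Ioc (P ^ 3) ((2 * P) ^ 3) ×ˢ Ioc (P ^ 3) ((2 * P) ^ 3)

/-- `J (n)`. -/
def pairWeight (P n : ℕ) : ℝ :=
  ∑ m ∈ (weightPairs P).filter (fun m => m.1 + m.2 = n), weight (1 / 3) m.1 * weight (1 / 3) m.2

/-- The expected number. -/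
def expected (P Q R n : ℕ) : ℂ :=
  (((Q : ℝ) ^ 2 * pairWeight P n : ℝ) : ℂ) * ∑ q ∈ Icc 1 R, WaringAsymptotic.singularTerm 3 4 n q

/-- What is left of `F`. -/
def remainder (P Q R : ℕ) (t : ℝ) : ℂ :=
  fourTrig P Q t - ∑ z ∈ arcCentres R, arcWeight z * ((Q : ℂ) ^ 2 * weightWindow P (t - centre z) ^ 2)

theorem fourTrig_eq (P Q : ℕ) (t : ℝ) :
    fourTrig P Q t = intTrig (fourVars P Q) (fun _ => 1) (fun w => pairSum w.1 + pairSum w.2) t := by
  rw [fourTrig, sq, sq, cubeWindow, shortCube, cubeTrig, intTrig_mul, intTrig_mul, intTrig_mul]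
  simp only [mul_one]
  rfl

theorem weightWindow_eq (P : ℕ) (β : ℝ) : weightWindow P β =
    intTrig (Ioc (P ^ 3) ((2 * P) ^ 3)) (fun m => (weight (1 / 3) m : ℂ)) (fun m => (m : ℤ)) β := by
  have h : P ^ 3 ≤ (2 * P) ^ 3 := Nat.pow_le_pow_left (by omega) 3
  rw [weightWindow, weightSum, weightSum, ← sum_Ioc_consecutive _ (Nat.zero_le _) h,
    add_sub_cancel_left, intTrig]
  simp only [Int.cast_natCast]

theorem weightWindow_sq_shift (P : ℕ) (t θ : ℝ) : weightWindow P (t - θ) ^ 2 =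
    intTrig (weightPairs P) (fun m => (weight (1 / 3) m.1 : ℂ) * (weight (1 / 3) m.2 : ℂ) *
      eAdd (-(((m.1 + m.2 : ℕ) : ℝ) * θ))) (fun m => ((m.1 + m.2 : ℕ) : ℤ)) t := by
  rw [weightWindow_eq, sq, intTrig_mul, intTrig, intTrig]
  refine sum_congr rfl fun m _ => ?_
  simp only [mul_assoc, ← eAdd_add]
  push_cast
  ring_nf

/-- **One coefficient from the grid.** -/
theorem sum_intTrig_coeff {ι : Type*} (A : Finset ι) (c : ι → ℂ) (φ : ι → ℤ) {M : ℕ} (hM0 : 0 < M)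
    (n : ℕ) (hM : ∀ i ∈ A, |φ i - n| < (M : ℤ)) :
    ∑ h ∈ range M, intTrig A c φ (h / M) * eAdd (-((n : ℝ) * h / M)) =
      (M : ℂ) * ∑ i ∈ A.filter (fun i => φ i = n), c i := by
  simp only [intTrig, sum_mul]
  rw [sum_comm, mul_sum, sum_filter]
  refine sum_congr rfl fun i hi => ?_
  have e : ∀ h : ℕ, c i * eAdd ((φ i : ℝ) * ((h : ℝ) / M)) * eAdd (-((n : ℝ) * h / M)) =
      c i * eAdd (((φ i - n : ℤ) : ℝ) * h / M) := fun h => by
    rw [mul_assoc, ← eAdd_add]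
    push_cast
    ring_nf
  rw [sum_congr rfl fun h _ => e h, ← mul_sum, sum_eAdd_grid hM0]
  by_cases h : φ i = n
  · rw [if_pos h, if_pos (by simp [h]), mul_comm]
  · rw [if_neg h, if_neg, mul_zero]
    intro hd
    exact absurd (Int.le_of_dvd (abs_pos.2 (sub_ne_zero.2 h)) ((dvd_abs _ _).2 hd))
      (not_le.2 (hM i hi))

/-- **Bessel's inequality on the grid.** -/
theorem sum_norm_coeff_sq_le {M : ℕ} (E : ℕ → ℂ) {A B : ℕ} (hB : B < M) :
    ∑ n ∈ Ioc A B, ‖∑ h ∈ range M, E h * eAdd (-((n : ℝ) * h / M))‖ ^ 2 ≤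
      (M : ℝ) * ∑ h ∈ range M, ‖E h‖ ^ 2 := by
  obtain ⟨a, ha⟩ : ∃ a : ℕ → ℂ, a = fun n : ℕ =>
      ∑ h ∈ range M, E h * eAdd (-((n : ℝ) * h / M)) := ⟨_, rfl⟩
  obtain ⟨D, hD⟩ : ∃ D : ℕ → ℂ,
      D = fun h : ℕ => intTrig (Ioc A B) a (fun n => (n : ℤ)) ((h : ℝ) / M) := ⟨_, rfl⟩
  obtain ⟨S, hS⟩ : ∃ S, S = ∑ n ∈ Ioc A B, ‖a n‖ ^ 2 := ⟨_, rfl⟩
  rw [show ∑ n ∈ Ioc A B, ‖∑ h ∈ range M, E h * eAdd (-((n : ℝ) * h / M))‖ ^ 2 = S by rw [hS, ha]]
  have hS0 : 0 ≤ S := hS ▸ sum_nonneg fun _ _ => sq_nonneg _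
  have h1 : S ≤ ∑ h ∈ range M, ‖E h‖ * ‖D h‖ := by
    have e : ((S : ℝ) : ℂ) = ∑ h ∈ range M, E h * conj (D h) := by
      rw [hS, Complex.ofReal_sum, hD]
      simp only [intTrig, map_sum, map_mul, conj_eAdd, mul_sum]
      rw [sum_comm]
      refine sum_congr rfl fun n _ => ?_
      rw [Complex.ofReal_pow, ← Complex.conj_mul',
        show (conj (a n) * a n) = conj (a n) * ∑ h ∈ range M, E h * eAdd (-((n : ℝ) * h / M)) by
          rw [ha], mul_sum]
      refine sum_congr rfl fun h _ => ?_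
      rw [mul_left_comm]
      push_cast
      ring_nf
    calc S = ‖((S : ℝ) : ℂ)‖ := by rw [Complex.norm_real, Real.norm_of_nonneg hS0]
      _ ≤ _ := by
          rw [e]
          refine (norm_sum_le _ _).trans (le_of_eq (sum_congr rfl fun h _ => ?_))
          rw [norm_mul, Complex.norm_conj]
  have h2 : ∑ h ∈ range M, ‖D h‖ ^ 2 = M * S := by
    apply Complex.ofReal_injective
    rw [hD, sum_intTrig_grid (Ioc A B) a (fun n => (n : ℤ)) fun i hi j hj => by
      rw [mem_Ioc] at hi hj; rw [abs_lt]; omega, hS]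
    simp only [Nat.cast_inj, Complex.ofReal_mul, Complex.ofReal_natCast, Complex.ofReal_sum,
      Complex.ofReal_pow, ← Complex.mul_conj', sum_ite_eq]
    congr 1
    exact sum_congr rfl fun n hn => by rw [if_pos hn]
  have h3 := pow_le_pow_left₀ hS0 (h1.trans (Real.sum_mul_le_sqrt_mul_sqrt _ _ _)) 2
  rw [h2, mul_pow, Real.sq_sqrt (sum_nonneg fun _ _ => sq_nonneg _),
    Real.sq_sqrt (mul_nonneg (Nat.cast_nonneg M) hS0)] at h3
  rcases hS0.eq_or_lt with h | h
  · rw [← h]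
    exact mul_nonneg (Nat.cast_nonneg M) (sum_nonneg fun _ _ => sq_nonneg _)
  · exact le_of_mul_le_mul_right (by linarith) h

theorem pow_three_le_gridSize {P : ℕ} (hP : 1 ≤ P) : 64 * P ^ 3 ≤ gridSize P :=
  Nat.mul_le_mul_left 64 (Nat.pow_le_pow_right hP (by norm_num))

theorem sum_grid_remainder {P Q : ℕ} (R : ℕ) (hP : 1 ≤ P) (hQ : Q ≤ 2 * P) {n : ℕ}
    (hn : n ≤ 8 * P ^ 3) :
    ∑ h ∈ range (gridSize P),
        remainder P Q R ((h : ℝ) / gridSize P) * eAdd (-((n : ℝ) * h / gridSize P)) =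
      (gridSize P : ℂ) * ((fourReps P Q n : ℂ) - expected P Q R n) := by
  have hM := pow_three_le_gridSize hP
  have hP3 : 0 < P ^ 3 := pow_pos hP 3
  have hM0 : 0 < gridSize P := by omega
  simp only [remainder, sub_mul, sum_sub_distrib, mul_sub, sum_mul]
  congr 1
  · simp only [fourTrig_eq]
    rw [sum_intTrig_coeff _ _ _ hM0 n fun i hi => ?_]
    · simp [fourReps]
    · simp only [fourVars, mem_product, window, mem_Ioc] at hi
      have h1 := pairSum_bounds (P := 2 * P) (z := i.1)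
        (mem_pairs.2 ⟨⟨by omega, hi.1.1.2⟩, by omega, hi.1.2.2⟩)
      have h2 := pairSum_bounds hi.2
      have h3 : (Q : ℤ) ^ 3 ≤ ((2 * P : ℕ) : ℤ) ^ 3 := (cube_bounds hQ).2
      have h4 : (n : ℤ) ≤ 8 * (P : ℤ) ^ 3 := by exact_mod_cast hn
      have h5 : 64 * (P : ℤ) ^ 3 ≤ (gridSize P : ℤ) := by exact_mod_cast hM
      have h6 : (1 : ℤ) ≤ (P : ℤ) ^ 3 := by exact_mod_cast hP3
      push_cast at h1 h3
      rw [mul_pow] at h1 h3
      rw [abs_lt]
      omega
  · rw [sum_comm, expected, singularTerm_eq_arcs, mul_sum, mul_sum, ← arcCentres]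
    refine sum_congr rfl fun z _ => ?_
    simp only [weightWindow_sq_shift, mul_assoc, ← mul_sum]
    rw [sum_intTrig_coeff _ _ _ hM0 n fun i hi => ?_]
    · rw [pairWeight, Complex.ofReal_mul, Complex.ofReal_sum,
        show (weightPairs P).filter (fun m => ((m.1 + m.2 : ℕ) : ℤ) = n) =
          (weightPairs P).filter (fun m => m.1 + m.2 = n) from
          filter_congr fun m _ => Int.natCast_inj]
      rw [sum_congr rfl fun m hm => by rw [(mem_filter.1 hm).2, ← mul_assoc, ← Complex.ofReal_mul],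
        ← sum_mul]
      push_cast
      ring
    · simp only [weightPairs, mem_product, mem_Ioc] at hi
      rw [show (2 * P) ^ 3 = 8 * P ^ 3 by ring] at hi
      rw [abs_lt]
      omega

/-- **The deviations and the remainder.** -/
theorem sum_deviation_sq_le {P Q : ℕ} (R : ℕ) (hP : 1 ≤ P) (hQ : Q ≤ 2 * P) :
    (gridSize P : ℝ) *
        ∑ n ∈ Ioc (4 * P ^ 3) (8 * P ^ 3), ‖(fourReps P Q n : ℂ) - expected P Q R n‖ ^ 2 ≤
      ∑ h ∈ range (gridSize P), ‖remainder P Q R ((h : ℝ) / gridSize P)‖ ^ 2 := by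
  have hM := pow_three_le_gridSize hP
  have hP3 : 0 < P ^ 3 := pow_pos hP 3
  have hM0 : 0 < gridSize P := by omega
  refine le_of_mul_le_mul_left ?_ (Nat.cast_pos.2 hM0 : (0 : ℝ) < gridSize P)
  refine le_trans (le_of_eq ?_) (sum_norm_coeff_sq_le
    (fun h => remainder P Q R ((h : ℝ) / gridSize P)) (A := 4 * P ^ 3) (B := 8 * P ^ 3) (by omega))
  rw [← mul_assoc, mul_sum]
  refine sum_congr rfl fun n hn => ?_
  rw [sum_grid_remainder R hP hQ (mem_Ioc.1 hn).2, norm_mul, Complex.norm_natCast, mul_pow]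
  ring

end FA.FourCubes
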