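import Fermat.Agent.FourCubes.Minor

/-!
# Almost every number is a sum of four cubes

The deviation from the expected number has mean square `O (P ^ (21/5 - 1/1000))` over
`(4 P³, 8 P³]`, so an exceptional `n` there has a small partial singular series, which is rare; a
bounded number of such intervals covers `(ε N, N]`.
-/

set_option autoImplicit false

noncomputable section

namespace FA.FourCubes

open Finset FA.ThreePrimes FA.WaringAsymptotic FA.HuaCubes Filter Topology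
open scoped Real

/-- A sum of four positive cubes. -/
def IsFourCubes (n : ℕ) : Prop :=
  ∃ a b c d : ℕ, 0 < a ∧ 0 < b ∧ 0 < c ∧ 0 < d ∧ a ^ 3 + b ^ 3 + c ^ 3 + d ^ 3 = n

/-- The length of the short range. -/
def shortLength (P : ℕ) : ℕ := ⌊(P : ℝ) ^ (4 / 5 : ℝ)⌋₊

/-- The height of the small arcs. -/
def arcHeight (P : ℕ) : ℕ := ⌊(P : ℝ) ^ (1 / 100 : ℝ)⌋₊

theorem shortLength_le (P : ℕ) : (shortLength P : ℝ) ≤ (P : ℝ) ^ (4 / 5 : ℝ) :=
  Nat.floor_le (by positivity)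

theorem arcHeight_le (P : ℕ) : (arcHeight P : ℝ) ≤ (P : ℝ) ^ (1 / 100 : ℝ) :=
  Nat.floor_le (by positivity)

/-- **The mean square of the deviation.** -/
theorem exists_deviation_le : ∃ C : ℝ, 0 < C ∧ ∀ P : ℕ, 2 ≤ P →
    ∑ n ∈ Ioc (4 * P ^ 3) (8 * P ^ 3),
        ‖(fourReps P (shortLength P) n : ℂ) - expected P (shortLength P) (arcHeight P) n‖ ^ 2 ≤
      C * (P : ℝ) ^ (4199 / 1000 : ℝ) := by
  obtain ⟨C, hC, hoff⟩ := exists_offArcs_le
  refine ⟨2 * C + 2 * 10 ^ 9 * (65 + 6000), by positivity, fun P hP => ?_⟩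
  obtain ⟨Q, hQ⟩ : ∃ Q, Q = shortLength P := ⟨_, rfl⟩
  obtain ⟨R, hR⟩ : ∃ R, R = arcHeight P := ⟨_, rfl⟩
  rw [← hQ, ← hR]
  have hP2 : (2 : ℝ) ≤ P := by exact_mod_cast hP
  have hP1 : (1 : ℝ) ≤ P := by linarith
  have hP0 : (0 : ℝ) < P := by linarith
  have hQr : (Q : ℝ) ≤ (P : ℝ) ^ (4 / 5 : ℝ) := hQ ▸ shortLength_le P
  have hQP : Q ≤ 2 * P := by
    have : (Q : ℝ) ≤ P := hQr.trans (by
      simpa using Real.rpow_le_rpow_of_exponent_le hP1 (show (4 / 5 : ℝ) ≤ 1 by norm_num))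
    have : Q ≤ P := by exact_mod_cast this
    omega
  have hRr : (R : ℝ) ≤ (P : ℝ) ^ (1 / 100 : ℝ) := hR ▸ arcHeight_le P
  have hR1 : 1 ≤ R := hR ▸ Nat.le_floor (by
    push_cast
    exact Real.one_le_rpow hP1 (by norm_num))
  obtain ⟨K, hK⟩ : ∃ K : ℝ, K = (P : ℝ) ^ (1 / 5 : ℝ) := ⟨_, rfl⟩
  have hK1 : 1 ≤ K := hK ▸ Real.one_le_rpow hP1 (by norm_num)
  have hsep : 2 * (K / (P : ℝ) ^ 3) * ((R : ℝ) * R) < 1 := by
    have h1 : K * ((R : ℝ) * R) ≤ P := by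
      calc K * ((R : ℝ) * R) ≤ (P : ℝ) ^ (1 / 5 : ℝ) *
            ((P : ℝ) ^ (1 / 100 : ℝ) * (P : ℝ) ^ (1 / 100 : ℝ)) := by rw [hK]; gcongr
        _ ≤ (P : ℝ) ^ (1 : ℝ) := by
            rw [← Real.rpow_add hP0, ← Real.rpow_add hP0]
            exact Real.rpow_le_rpow_of_exponent_le hP1 (by norm_num)
        _ = _ := Real.rpow_one _
    rw [show 2 * (K / (P : ℝ) ^ 3) * ((R : ℝ) * R) = 2 * (K * ((R : ℝ) * R)) / (P : ℝ) ^ 3 by ring,
      div_lt_one (by positivity)]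
    nlinarith [mul_le_mul_of_nonneg_left hP2 hP0.le]
  have h := (sum_deviation_sq_le (Q := Q) R (by omega) hQP).trans
    (sum_remainder_sq_le (by omega) hQr hR1 hK1 hsep)
  have hoff' := hoff P Q (by omega) hQr
  rw [← show arcHeight P = ⌊(P : ℝ) ^ (1 / 100 : ℝ)⌋₊ from rfl, ← hR, ← hK] at hoff'
  have hM : (0 : ℝ) < gridSize P := Nat.cast_pos.2 (by
    have := pow_three_le_gridSize (show 1 ≤ P by omega)
    have := pow_pos (show 0 < P by omega) 3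
    omega)
  refine le_of_mul_le_mul_left ((h.trans (add_le_add (mul_le_mul_of_nonneg_left hoff' two_pos.le)
    (le_refl _))).trans ?_) hM
  have hL : 1 + Real.log (gridSize P : ℕ) ≤ (65 + 6000) * (P : ℝ) ^ (1 / 1000 : ℝ) := by
    rw [gridSize]
    push_cast
    rw [Real.log_mul (by norm_num) (by positivity), Real.log_pow]
    have h1 := Real.log_le_rpow_div hP0.le (show (0 : ℝ) < 1 / 1000 by norm_num)
    have h2 : (1 : ℝ) ≤ (P : ℝ) ^ (1 / 1000 : ℝ) := Real.one_le_rpow hP1 (by norm_num)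
    have h3 := Real.log_le_sub_one_of_pos (show (0 : ℝ) < 64 by norm_num)
    push_cast
    linarith
  have hlog : 0 ≤ 1 + Real.log (gridSize P : ℕ) := by linarith [Real.log_natCast_nonneg (gridSize P)]
  have hmain : (1 + Real.log (gridSize P : ℕ)) * ((R : ℝ) ^ 4 * K ^ 3 * (P : ℝ) ^ 3 +
      (R : ℝ) ^ 4 * (Q : ℝ) ^ 4 * ((P : ℝ) * K ^ (-(1 / 3) : ℝ))) ≤
        2 * (65 + 6000) * (P : ℝ) ^ (4199 / 1000 : ℝ) := by
    rw [show 2 * (65 + 6000) * (P : ℝ) ^ (4199 / 1000 : ℝ) =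
      (65 + 6000) * (P : ℝ) ^ (1 / 1000 : ℝ) * (2 * (P : ℝ) ^ (4198 / 1000 : ℝ)) by
        rw [show (4199 / 1000 : ℝ) = 1 / 1000 + 4198 / 1000 by norm_num, Real.rpow_add hP0]; ring]
    refine mul_le_mul hL ?_ (by positivity) (by positivity)
    have a1 : (R : ℝ) ^ 4 ≤ (P : ℝ) ^ (1 / 25 : ℝ) := by
      refine (pow_le_pow_left₀ (Nat.cast_nonneg R) hRr 4).trans (le_of_eq ?_)
      rw [← Real.rpow_natCast, ← Real.rpow_mul hP0.le]
      norm_num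
    have a2 : (Q : ℝ) ^ 4 ≤ (P : ℝ) ^ (16 / 5 : ℝ) := by
      refine (pow_le_pow_left₀ (Nat.cast_nonneg Q) hQr 4).trans (le_of_eq ?_)
      rw [← Real.rpow_natCast, ← Real.rpow_mul hP0.le]
      norm_num
    have a3 : K ^ 3 = (P : ℝ) ^ (3 / 5 : ℝ) := by
      rw [hK, ← Real.rpow_natCast, ← Real.rpow_mul hP0.le]; norm_num
    have a4 : K ^ (-(1 / 3) : ℝ) = (P : ℝ) ^ (-(1 / 15) : ℝ) := by
      rw [hK, ← Real.rpow_mul hP0.le]; norm_num
    rw [a3, a4, two_mul]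
    refine add_le_add ?_ ?_
    · calc (R : ℝ) ^ 4 * (P : ℝ) ^ (3 / 5 : ℝ) * (P : ℝ) ^ 3
          ≤ (P : ℝ) ^ (1 / 25 : ℝ) * (P : ℝ) ^ (3 / 5 : ℝ) * (P : ℝ) ^ 3 := by gcongr
        _ ≤ _ := by
            rw [← Real.rpow_natCast (P : ℝ) 3, ← Real.rpow_add hP0, ← Real.rpow_add hP0]
            exact Real.rpow_le_rpow_of_exponent_le hP1 (by norm_num)
    · calc (R : ℝ) ^ 4 * (Q : ℝ) ^ 4 * ((P : ℝ) * (P : ℝ) ^ (-(1 / 15) : ℝ))
          ≤ (P : ℝ) ^ (1 / 25 : ℝ) * (P : ℝ) ^ (16 / 5 : ℝ) *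
              ((P : ℝ) * (P : ℝ) ^ (-(1 / 15) : ℝ)) := by gcongr
        _ ≤ _ := by
            rw [← Real.rpow_one_add' hP0.le (by norm_num), ← Real.rpow_add hP0, ← Real.rpow_add hP0]
            exact Real.rpow_le_rpow_of_exponent_le hP1 (by norm_num)
  have := mul_le_mul_of_nonneg_left hmain hM.le
  linarith

theorem weight_lower {P : ℕ} (hP : 1 ≤ P) {m : ℕ} (hm : m ≤ (2 * P) ^ 3) :
    1 / (56 * (P : ℝ) ^ 2) ≤ weight (1 / 3) m := by
  refine le_trans ?_ (weight_antitone (by norm_num) (by norm_num) hm)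
  obtain ⟨j, hj⟩ : ∃ j, j = (2 * P) ^ 3 := ⟨_, rfl⟩
  rw [← hj]
  have hc : (0 : ℝ) < 1 / 3 := by norm_num
  have h1 := (abs_sum_weight_sub_le hc (by norm_num) (8 * j)).1
  have h2 := (abs_sum_weight_sub_le hc (by norm_num) j).2
  rw [← sum_Ioc_consecutive _ (Nat.zero_le j) (show j ≤ 8 * j by omega)] at h1
  have h3 : ∑ m ∈ Ioc j (8 * j), weight (1 / 3) m ≤ (7 * j : ℕ) * weight (1 / 3) j := by
    refine (sum_le_card_nsmul _ _ (weight (1 / 3) j) fun i hi =>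
      weight_antitone hc (by norm_num) (mem_Ioc.1 hi).1.le).trans (le_of_eq ?_)
    rw [Nat.card_Ioc, nsmul_eq_mul, show 8 * j - j = 7 * j by omega]
  rw [show 8 * j = (4 * P) ^ 3 by rw [hj]; ring, cube_rpow_third] at h1
  rw [show 8 * j = (4 * P) ^ 3 by rw [hj]; ring] at h3
  have hjc : (j : ℝ) ^ (1 / 3 : ℝ) = ((2 * P : ℕ) : ℝ) := by rw [hj, cube_rpow_third]
  rw [hjc] at h2
  have hP1 : (1 : ℝ) ≤ P := by exact_mod_cast hP
  have hjr : ((7 * j : ℕ) : ℝ) = 56 * (P : ℝ) ^ 3 := by rw [hj]; push_cast; ring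
  rw [hjr] at h3
  push_cast at h1 h2
  rw [div_le_iff₀ (by positivity)]
  nlinarith

theorem pairWeight_lower {P : ℕ} (hP : 1 ≤ P) {n : ℕ} (hn : n ∈ Ioc (4 * P ^ 3) (8 * P ^ 3)) :
    1 / (1568 * (P : ℝ)) ≤ pairWeight P n := by
  rw [mem_Ioc] at hn
  have e8 : (2 * P) ^ 3 = 8 * P ^ 3 := by ring
  rw [pairWeight]
  refine le_trans ?_ (card_nsmul_le_sum _ _
    (1 / (56 * (P : ℝ) ^ 2) * (1 / (56 * (P : ℝ) ^ 2))) fun m hm => ?_)
  swap
  · simp only [weightPairs, mem_filter, mem_product, mem_Ioc] at hm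
    exact mul_le_mul (weight_lower hP hm.1.1.2) (weight_lower hP hm.1.2.2) (by positivity)
      (weight_nonneg (by norm_num) _)
  rw [nsmul_eq_mul]
  have hcard : 2 * P ^ 3 ≤ ((weightPairs P).filter fun m => m.1 + m.2 = n).card := by
    refine le_trans (le_of_eq ?_) (card_le_card_of_injOn (fun m => (m, n - m))
      (s := Ioc (P ^ 3) (3 * P ^ 3)) (fun m hm => ?_) fun a _ b _ e => congrArg Prod.fst e)
    · rw [Nat.card_Ioc]; omega
    · simp only [mem_coe, mem_Ioc, weightPairs, mem_filter, mem_product] at hm ⊢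
      omega
  have hcard' : 2 * (P : ℝ) ^ 3 ≤ (((weightPairs P).filter fun m => m.1 + m.2 = n).card : ℝ) := by
    exact_mod_cast hcard
  refine le_trans (le_of_eq ?_) (mul_le_mul_of_nonneg_right hcard' (by positivity))
  have : (P : ℝ) ≠ 0 := Nat.cast_ne_zero.2 (by omega)
  field_simp
  ring

theorem fourReps_eq_zero {P Q n : ℕ} (h : ¬IsFourCubes n) : fourReps P Q n = 0 := by
  rw [fourReps, card_eq_zero, filter_eq_empty_iff]
  intro w hw e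
  simp only [fourVars, mem_product, window, pairs, mem_Ioc] at hw
  refine h ⟨w.1.1, w.1.2, w.2.1, w.2.2, by omega, by omega, hw.2.1.1, hw.2.2.1, ?_⟩
  simp only [pairSum] at e
  have e' : ((w.1.1 ^ 3 + w.1.2 ^ 3 + w.2.1 ^ 3 + w.2.2 ^ 3 : ℕ) : ℤ) = (n : ℤ) := by
    push_cast
    linarith
  exact_mod_cast e'

open Classical in
/-- **The exceptions in one interval are few.** -/
theorem eventually_exceptions_le {δ : ℝ} (hδ : 0 < δ) : ∀ᶠ P : ℕ in atTop,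
    (((Ioc (4 * P ^ 3) (8 * P ^ 3)).filter fun n => ¬IsFourCubes n).card : ℝ) ≤
      δ * (P : ℝ) ^ 3 := by
  obtain ⟨C₁, hC₁, hrest⟩ := exists_singular_rest
  obtain ⟨C₂, hC₂, hdev⟩ := exists_deviation_le
  obtain ⟨c, hc, hlow⟩ := exists_smoothSeries_ge
  obtain ⟨w, hw3, hw⟩ : ∃ w : ℕ, 3 ≤ w ∧
      16 * C₁ / c ^ 2 * (Real.log w ^ (5200 : ℝ) * (w : ℝ) ^ (-(1 / 2) : ℝ)) ≤ δ / 3 := by
    have h := ((isLittleO_log_rpow_rpow_atTop (5200 : ℝ) (show (0 : ℝ) < 1 / 2 by norm_num)).comp_tendsto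
      tendsto_natCast_atTop_atTop).bound
        (show 0 < δ / 3 / (16 * C₁ / c ^ 2) by positivity)
    obtain ⟨N, hN⟩ := eventually_atTop.1 h
    refine ⟨max 3 N, le_max_left _ _, ?_⟩
    obtain ⟨w, hw⟩ : ∃ w, w = max 3 N := ⟨_, rfl⟩
    rw [← hw]
    have hw0 : (0 : ℝ) < w := Nat.cast_pos.2 (by omega)
    have h' := hN w (hw ▸ le_max_right _ _)
    simp only [Function.comp_apply, Real.norm_eq_abs] at h'
    rw [abs_of_nonneg (Real.rpow_nonneg (Real.log_natCast_nonneg w) _),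
      abs_of_nonneg (Real.rpow_nonneg hw0.le _), div_mul_eq_mul_div, le_div_iff₀ (by positivity)] at h'
    rw [Real.rpow_neg hw0.le, ← mul_assoc, ← div_eq_mul_inv, div_le_iff₀ (by positivity)]
    linarith
  obtain ⟨cw, hcw⟩ : ∃ cw : ℝ, cw = c / Real.log w ^ (2600 : ℝ) := ⟨_, rfl⟩
  have hlw : 0 < Real.log w := Real.log_pos (by exact_mod_cast (show 1 < w by omega))
  have hcw0 : 0 < cw := by rw [hcw]; positivity
  have ht : Tendsto (fun P : ℕ => (P : ℝ) ^ (-(1 / 1000) : ℝ)) atTop (𝓝 0) :=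
    (tendsto_rpow_neg_atTop (by norm_num)).comp tendsto_natCast_atTop_atTop
  have hR : ∀ᶠ P : ℕ in atTop, smoothModulus w ≤ arcHeight P := by
    filter_upwards [((tendsto_rpow_atTop (show (0 : ℝ) < 1 / 100 by norm_num)).comp
      tendsto_natCast_atTop_atTop).eventually_ge_atTop (smoothModulus w : ℝ)] with P hP
    exact Nat.le_floor hP
  filter_upwards [eventually_ge_atTop 2, hR,
    ht.eventually (eventually_le_nhds (show 0 < δ / 3 / ((4 + 12544 ^ 2 * C₂) / cw ^ 2) by positivity))]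
    with P hP hRW hsmall
  obtain ⟨Q, hQ⟩ : ∃ Q, Q = shortLength P := ⟨_, rfl⟩
  obtain ⟨R, hR'⟩ : ∃ R, R = arcHeight P := ⟨_, rfl⟩
  rw [← hR'] at hRW
  have hP1 : (1 : ℝ) ≤ P := by exact_mod_cast (show 1 ≤ P by omega)
  have hP0 : (0 : ℝ) < P := by linarith
  obtain ⟨S, hS⟩ : ∃ S, S = Ioc (4 * P ^ 3) (8 * P ^ 3) := ⟨_, rfl⟩
  obtain ⟨X, hX⟩ : ∃ X : ℝ, X = cw / 12544 * (P : ℝ) ^ (3 / 5 : ℝ) := ⟨_, rfl⟩
  have hX0 : 0 < X := by rw [hX]; positivity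
  obtain ⟨D, hD⟩ : ∃ D : ℕ → ℝ, D = fun n =>
      ‖∑ q ∈ Icc 1 R, WaringAsymptotic.singularTerm 3 4 n q - (smoothSeries n w : ℂ)‖ := ⟨_, rfl⟩
  obtain ⟨E, hE⟩ : ∃ E : ℕ → ℝ,
      E = fun n => ‖(fourReps P Q n : ℂ) - expected P Q R n‖ := ⟨_, rfl⟩
  rw [← hS]
  have hsub : S.filter (fun n => ¬IsFourCubes n) ⊆
      S.filter (fun n => cw / 2 ≤ D n) ∪ S.filter (fun n => X ≤ E n) := by
    intro n hn
    rw [mem_filter] at hn
    rw [mem_union, mem_filter, mem_filter]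
    by_cases h : cw / 2 ≤ D n
    · exact Or.inl ⟨hn.1, h⟩
    refine Or.inr ⟨hn.1, ?_⟩
    obtain ⟨Z, hZ⟩ : ∃ Z, Z = ∑ q ∈ Icc 1 R, WaringAsymptotic.singularTerm 3 4 n q := ⟨_, rfl⟩
    have hZn : cw / 2 ≤ ‖Z‖ := by
      have h1 : cw ≤ ‖(smoothSeries n w : ℂ)‖ := by
        rw [Complex.norm_real, Real.norm_eq_abs]
        exact (hcw ▸ hlow w hw3 n).trans (le_abs_self _)
      have h2 := norm_le_norm_add_norm_sub Z (smoothSeries n w : ℂ)
      simp only [hD] at h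
      rw [← hZ] at h
      linarith
    have hJ := pairWeight_lower (show 1 ≤ P by omega) (hS ▸ hn.1)
    have hQ2 : (P : ℝ) ^ (8 / 5 : ℝ) / 4 ≤ (Q : ℝ) ^ 2 := by
      have h1 : (1 : ℝ) ≤ (P : ℝ) ^ (4 / 5 : ℝ) := Real.one_le_rpow hP1 (by norm_num)
      have h2 : (P : ℝ) ^ (4 / 5 : ℝ) / 2 ≤ Q := by
        have h3 : (P : ℝ) ^ (4 / 5 : ℝ) < (Q : ℝ) + 1 := hQ ▸ Nat.lt_floor_add_one _
        have h4 : 1 ≤ Q := hQ ▸ Nat.le_floor (by push_cast; exact h1)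
        have h5 : (1 : ℝ) ≤ Q := by exact_mod_cast h4
        linarith
      calc (P : ℝ) ^ (8 / 5 : ℝ) / 4 = ((P : ℝ) ^ (4 / 5 : ℝ) / 2) ^ 2 := by
            rw [div_pow, ← Real.rpow_natCast ((P : ℝ) ^ _) 2, ← Real.rpow_mul hP0.le]
            norm_num
        _ ≤ _ := pow_le_pow_left₀ (by positivity) h2 2
    rw [hE]
    simp only
    rw [fourReps_eq_zero hn.2, Nat.cast_zero, zero_sub, norm_neg, expected, ← hZ, norm_mul,
      Complex.norm_real, Real.norm_eq_abs,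
      abs_of_nonneg (mul_nonneg (sq_nonneg _) (le_trans (by positivity) hJ))]
    refine le_trans (le_of_eq ?_) (mul_le_mul (mul_le_mul hQ2 hJ (by positivity) (sq_nonneg _)) hZn
      (by positivity) (mul_nonneg (sq_nonneg _) (le_trans (by positivity) hJ)))
    rw [hX, show (8 / 5 : ℝ) = 3 / 5 + 1 by norm_num, Real.rpow_add hP0, Real.rpow_one]
    field_simp
    ring
  have hcount : ∀ (F : ℕ → ℝ) (x : ℝ), 0 < x → (∀ n, 0 ≤ F n) →
      ((S.filter fun n => x ≤ F n).card : ℝ) ≤ (∑ n ∈ S, F n ^ 2) / x ^ 2 := by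
    intro F x hx hF
    rw [le_div_iff₀ (by positivity)]
    refine le_trans ?_ ((card_nsmul_le_sum _ _ (x ^ 2) fun n hn =>
      pow_le_pow_left₀ hx.le (mem_filter.1 hn).2 2).trans
      (sum_le_sum_of_subset_of_nonneg (filter_subset _ _) fun n _ _ => sq_nonneg _))
    rw [nsmul_eq_mul]
  refine (Nat.cast_le.2 (card_le_card hsub)).trans ?_
  refine (Nat.cast_le.2 (card_union_le _ _)).trans ?_
  rw [Nat.cast_add]
  refine (add_le_add (hcount D (cw / 2) (by positivity) fun n => by rw [hD]; exact norm_nonneg _)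
    (hcount E X hX0 fun n => by rw [hE]; exact norm_nonneg _)).trans ?_
  have hA : ∑ n ∈ S, D n ^ 2 ≤ C₁ * (4 * (P : ℝ) ^ 3 * (w : ℝ) ^ (-(1 / 2) : ℝ)) +
      (P : ℝ) ^ (-(1 / 1000) : ℝ) * (P : ℝ) ^ 3 := by
    rw [hS, hD]
    refine (hrest w R (4 * P ^ 3) (8 * P ^ 3) (by omega) hRW).trans (add_le_add ?_ ?_)
    · rw [show 8 * P ^ 3 - 4 * P ^ 3 = 4 * P ^ 3 by omega]
      push_cast
      exact le_rfl
    · calc (R : ℝ) ^ 6 ≤ ((P : ℝ) ^ (1 / 100 : ℝ)) ^ 6 :=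
            pow_le_pow_left₀ (Nat.cast_nonneg R) (hR' ▸ arcHeight_le P) 6
        _ ≤ _ := by
            rw [← Real.rpow_natCast, ← Real.rpow_mul hP0.le, ← Real.rpow_natCast (P : ℝ) 3,
              ← Real.rpow_add hP0]
            exact Real.rpow_le_rpow_of_exponent_le hP1 (by norm_num)
  have hB : ∑ n ∈ S, E n ^ 2 ≤ C₂ * (P : ℝ) ^ (4199 / 1000 : ℝ) := by
    rw [hS, hE, hQ, hR']
    exact hdev P hP
  refine (add_le_add (div_le_div_of_nonneg_right hA (sq_nonneg _))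
    (div_le_div_of_nonneg_right hB (sq_nonneg _))).trans ?_
  have hX2 : C₂ * (P : ℝ) ^ (4199 / 1000 : ℝ) / X ^ 2 =
      12544 ^ 2 * C₂ / cw ^ 2 * ((P : ℝ) ^ (-(1 / 1000) : ℝ) * (P : ℝ) ^ 3) := by
    have e : (P : ℝ) ^ (4199 / 1000 : ℝ) =
        (P : ℝ) ^ (-(1 / 1000) : ℝ) * (P : ℝ) ^ 3 * ((P : ℝ) ^ (3 / 5 : ℝ)) ^ 2 := by
      rw [← Real.rpow_natCast (P : ℝ) 3, ← Real.rpow_natCast ((P : ℝ) ^ _) 2,
        ← Real.rpow_mul hP0.le, ← Real.rpow_add hP0, ← Real.rpow_add hP0]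
      norm_num
    rw [e, hX]
    field_simp
  rw [hX2]
  rw [le_div_iff₀ (by positivity)] at hsmall
  have h1 := mul_le_mul_of_nonneg_right hsmall (show 0 ≤ (P : ℝ) ^ 3 by positivity)
  have h2 := mul_le_mul_of_nonneg_right hw (show 0 ≤ (P : ℝ) ^ 3 by positivity)
  have e2 : Real.log w ^ (5200 : ℝ) = (Real.log w ^ (2600 : ℝ)) ^ 2 := by
    rw [← Real.rpow_natCast, ← Real.rpow_mul hlw.le]; norm_num
  have e3 : 16 * C₁ / c ^ 2 * (Real.log w ^ (5200 : ℝ) * (w : ℝ) ^ (-(1 / 2) : ℝ)) =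
      16 * C₁ * (w : ℝ) ^ (-(1 / 2) : ℝ) / cw ^ 2 := by
    rw [e2, hcw]
    field_simp
  rw [e3] at h2
  have e4 : (C₁ * (4 * (P : ℝ) ^ 3 * (w : ℝ) ^ (-(1 / 2) : ℝ)) +
      (P : ℝ) ^ (-(1 / 1000) : ℝ) * (P : ℝ) ^ 3) / (cw / 2) ^ 2 =
      16 * C₁ * (w : ℝ) ^ (-(1 / 2) : ℝ) / cw ^ 2 * (P : ℝ) ^ 3 +
        4 / cw ^ 2 * ((P : ℝ) ^ (-(1 / 1000) : ℝ) * (P : ℝ) ^ 3) := by
    field_simp
    ring
  rw [e4]
  have e5 : (P : ℝ) ^ (-(1 / 1000) : ℝ) * ((4 + 12544 ^ 2 * C₂) / cw ^ 2) * (P : ℝ) ^ 3 =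
      4 / cw ^ 2 * ((P : ℝ) ^ (-(1 / 1000) : ℝ) * (P : ℝ) ^ 3) +
        12544 ^ 2 * C₂ / cw ^ 2 * ((P : ℝ) ^ (-(1 / 1000) : ℝ) * (P : ℝ) ^ 3) := by ring
  rw [e5] at h1
  have : 0 ≤ δ / 3 * (P : ℝ) ^ 3 := by positivity
  linarith

open Classical in
/-- **Davenport's theorem.** -/
theorem eventually_almost_all {ε : ℝ} (hε : 0 < ε) : ∀ᶠ N : ℕ in atTop,
    (((Ioc 0 N).filter fun n => ¬IsFourCubes n).card : ℝ) ≤ ε * N := by
  obtain ⟨e, he, he1, hee⟩ : ∃ e : ℝ, 0 < e ∧ e ≤ 1 ∧ e ^ 3 ≤ ε / 2 := by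
    refine ⟨min 1 (ε / 2), lt_min one_pos (by linarith), min_le_left _ _, ?_⟩
    refine le_trans ?_ (min_le_right 1 (ε / 2))
    exact pow_le_of_le_one (le_min zero_le_one (by linarith)) (min_le_left _ _) three_ne_zero
  obtain ⟨L, hL⟩ : ∃ L, L = ⌈16 / e⌉₊ := ⟨_, rfl⟩
  have hL1 : 16 / e ≤ L := hL ▸ Nat.le_ceil _
  have hL0 : (0 : ℝ) < L := lt_of_lt_of_le (by positivity) hL1
  obtain ⟨P₀, hP₀⟩ := eventually_atTop.1 (eventually_exceptions_le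
    (show 0 < ε / (16 * L) by positivity))
  have hx : Tendsto (fun N : ℕ => (N : ℝ) ^ (1 / 3 : ℝ)) atTop atTop :=
    (tendsto_rpow_atTop (by norm_num)).comp tendsto_natCast_atTop_atTop
  filter_upwards [hx.eventually_ge_atTop (max (16 / e) ((P₀ + 1 : ℕ) * L))] with N hN
  obtain ⟨x, hx'⟩ : ∃ x : ℝ, x = (N : ℝ) ^ (1 / 3 : ℝ) := ⟨_, rfl⟩
  rw [← hx'] at hN
  have hx0 : 0 < x := lt_of_lt_of_le (by positivity) ((le_max_left _ _).trans hN)
  have hx3 : x ^ 3 = (N : ℝ) := by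
    rw [hx', ← Real.rpow_natCast, ← Real.rpow_mul (Nat.cast_nonneg N)]
    norm_num
  have hex : 16 ≤ e * x := by
    have := (div_le_iff₀ he).1 ((le_max_left _ _).trans hN)
    linarith
  obtain ⟨Pj, hPj⟩ : ∃ Pj : ℕ → ℕ, Pj = fun j : ℕ => ⌈(j : ℝ) * x / L⌉₊ := ⟨_, rfl⟩
  have hbig : ∀ j ∈ Icc 1 L, P₀ ≤ Pj j ∧ (Pj j : ℝ) ≤ 2 * x := by
    intro j hj
    rw [mem_Icc] at hj
    have hj1 : (1 : ℝ) ≤ j := by exact_mod_cast hj.1
    have hjL : (j : ℝ) ≤ L := Nat.cast_le.2 hj.2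
    constructor
    · rw [hPj]
      have h1 : ((P₀ + 1 : ℕ) : ℝ) ≤ (j : ℝ) * x / L := by
        rw [le_div_iff₀ hL0]
        refine ((le_max_right _ _).trans hN).trans ?_
        exact le_mul_of_one_le_left hx0.le hj1
      have h2 := h1.trans (Nat.le_ceil _)
      have h3 : P₀ + 1 ≤ ⌈(j : ℝ) * x / L⌉₊ := by exact_mod_cast h2
      simp only
      omega
    · rw [hPj]
      simp only
      refine (Nat.ceil_lt_add_one (by positivity)).le.trans ?_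
      have h1 : (j : ℝ) * x / L ≤ x := by
        rw [div_le_iff₀ hL0, mul_comm x]
        exact mul_le_mul_of_nonneg_right hjL hx0.le
      nlinarith
  have hcover : (Ioc 0 N).filter (fun n => ¬IsFourCubes n) ⊆
      ((Ioc 0 N).filter fun n : ℕ => (n : ℝ) < e ^ 3 * N) ∪ (Icc 1 L).biUnion
        (fun j => (Ioc (4 * Pj j ^ 3) (8 * Pj j ^ 3)).filter fun n => ¬IsFourCubes n) := by
    intro n hn
    rw [mem_filter, mem_Ioc] at hn
    rw [mem_union, mem_filter, mem_biUnion]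
    rcases lt_or_ge (n : ℝ) (e ^ 3 * N) with h | h
    · exact Or.inl ⟨mem_Ioc.2 hn.1, h⟩
    refine Or.inr ?_
    obtain ⟨t, ht⟩ : ∃ t : ℝ, t = (n : ℝ) ^ (1 / 3 : ℝ) / 2 := ⟨_, rfl⟩
    have ht0 : 0 ≤ t := by rw [ht]; positivity
    have ht3 : 8 * t ^ 3 = (n : ℝ) := by
      rw [ht, div_pow, ← Real.rpow_natCast, ← Real.rpow_mul (Nat.cast_nonneg n)]
      norm_num
      ring
    have htlow : e * x ≤ 2 * t := by
      refine le_of_pow_le_pow_left₀ three_ne_zero (by positivity) ?_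
      rw [mul_pow, hx3, mul_pow]
      linarith
    have hthigh : 2 * t ≤ x := by
      refine le_of_pow_le_pow_left₀ three_ne_zero hx0.le ?_
      rw [hx3, mul_pow]
      have : (n : ℝ) ≤ N := Nat.cast_le.2 hn.1.2
      linarith
    obtain ⟨j, hj⟩ : ∃ j, j = ⌈t * L / x⌉₊ := ⟨_, rfl⟩
    have hjlow : t * L / x ≤ j := hj ▸ Nat.le_ceil _
    have hjhigh : (j : ℝ) < t * L / x + 1 := hj ▸ Nat.ceil_lt_add_one (by positivity)
    have htpos : 0 < t := by nlinarith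
    have hjL : j ≤ L := by
      rw [hj, Nat.ceil_le, div_le_iff₀ hx0, mul_comm (L : ℝ)]
      exact mul_le_mul_of_nonneg_right (by linarith) hL0.le
    have hj1 : 1 ≤ j := hj ▸ Nat.one_le_iff_ne_zero.2 (by
      rw [Ne, Nat.ceil_eq_zero, not_le]; positivity)
    refine ⟨j, mem_Icc.2 ⟨hj1, hjL⟩, mem_filter.2 ⟨mem_Ioc.2 ?_, hn.2⟩⟩
    obtain ⟨P, hP⟩ : ∃ P, P = Pj j := ⟨_, rfl⟩
    rw [← hP]
    have hPlow : t ≤ P := by
      rw [hP, hPj]
      refine le_trans ?_ (Nat.le_ceil _)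
      rw [le_div_iff₀ hL0]
      rw [div_le_iff₀ hx0] at hjlow
      exact hjlow
    have hPhigh : (P : ℝ) < t + t / 4 := by
      rw [hP, hPj]
      refine lt_of_lt_of_le (Nat.ceil_lt_add_one (by positivity)) ?_
      have h1 : (j : ℝ) * x / L ≤ t + x / L := by
        rw [div_le_iff₀ hL0, add_mul, div_mul_cancel₀ _ hL0.ne']
        have := mul_le_mul_of_nonneg_right hjhigh.le hx0.le
        rw [add_mul, div_mul_cancel₀ _ hx0.ne'] at this
        linarith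
      have h2 : x / L ≤ e * x / 16 := by
        rw [div_le_iff₀ hL0]
        rw [div_le_iff₀ he] at hL1
        nlinarith
      linarith
    have h4 : 4 * (P : ℝ) ^ 3 < n := by
      have h5 : (P : ℝ) ^ 3 ≤ (5 / 4 * t) ^ 3 := pow_le_pow_left₀ (by positivity) (by linarith) 3
      nlinarith [pow_pos htpos 3]
    have h8 : (n : ℝ) ≤ 8 * (P : ℝ) ^ 3 := by
      have := pow_le_pow_left₀ ht0 hPlow 3
      linarith
    exact ⟨by exact_mod_cast h4, by exact_mod_cast h8⟩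
  refine (Nat.cast_le.2 ((card_le_card hcover).trans ((card_union_le _ _).trans
    (Nat.add_le_add_left card_biUnion_le _)))).trans ?_
  push_cast
  have hsmall : (((Ioc 0 N).filter fun n : ℕ => (n : ℝ) < e ^ 3 * N).card : ℝ) ≤ ε / 2 * N := by
    refine le_trans (Nat.cast_le.2 (card_le_card (t := Ioc 0 ⌊e ^ 3 * (N : ℝ)⌋₊) fun n hn => ?_)) ?_
    · rw [mem_filter, mem_Ioc] at hn
      exact mem_Ioc.2 ⟨hn.1.1, Nat.le_floor hn.2.le⟩
    · rw [Nat.card_Ioc, Nat.sub_zero]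
      exact (Nat.floor_le (by positivity)).trans
        (mul_le_mul_of_nonneg_right hee (Nat.cast_nonneg N))
  have hrest : ∑ j ∈ Icc 1 L,
      (((Ioc (4 * Pj j ^ 3) (8 * Pj j ^ 3)).filter fun n => ¬IsFourCubes n).card : ℝ) ≤
        ε / 2 * N := by
    refine (sum_le_card_nsmul _ _ (ε / (16 * L) * (8 * N)) fun j hj => ?_).trans (le_of_eq ?_)
    · refine (hP₀ _ (hbig j hj).1).trans (mul_le_mul_of_nonneg_left ?_ (by positivity))
      refine (pow_le_pow_left₀ (Nat.cast_nonneg _) (hbig j hj).2 3).trans (le_of_eq ?_)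
      rw [mul_pow, hx3]
      norm_num
    · rw [Nat.card_Icc, Nat.add_sub_cancel, nsmul_eq_mul]
      field_simp
      ring
  linarith

end FA.FourCubes
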