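import Fermat.Agent.FourCubes.Major

/-!
# Off the small arcs

Dirichlet gives denominators up to `28 P²`. Above `P ^ (17/20)` Weyl's inequality saves
`P ^ (17/40)` on the sixth moment; below, the approximation of `f` and the mean of `|g| ⁴` over the
shifts of a rational save a power of `P`. In all `∑ |F|² ≤ C M P ^ (21/5 - 1/1000)`.
-/

set_option autoImplicit false

noncomputable section

namespace FA.FourCubes

open Finset FA.ThreePrimes FA.WaringAsymptotic FA.HuaCubes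
open scoped Real

theorem shortCube_add_intCast (Q : ℕ) (t : ℝ) (k : ℤ) : shortCube Q (t + k) = shortCube Q t := by
  rw [shortCube, shortCube, cubeTrig, cubeTrig, intTrig_add_intCast]

theorem cubeWindow_add_intCast (P : ℕ) (t : ℝ) (k : ℤ) :
    cubeWindow P (t + k) = cubeWindow P t := by
  rw [cubeWindow, cubeWindow, intTrig_add_intCast]

theorem norm_fourTrig_sq (P Q : ℕ) (t : ℝ) :
    ‖fourTrig P Q t‖ ^ 2 = ‖cubeWindow P t‖ ^ 4 * ‖shortCube Q t‖ ^ 4 := by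
  rw [fourTrig, norm_mul, norm_pow, norm_pow]
  ring

/-- **Weyl's inequality on the window.** -/
theorem exists_window_weyl {ε : ℝ} (hε : 0 < ε) : ∃ C : ℝ, 0 < C ∧
    ∀ (P q : ℕ) (a : ℤ) (α : ℝ), 1 ≤ P → IsUnit (a : ZMod q) → |α - a / q| ≤ 1 / (q : ℝ) ^ 2 →
      (P : ℝ) ^ (17 / 20 : ℝ) ≤ q → (q : ℝ) ≤ 28 * (P : ℝ) ^ 2 →
        ‖cubeWindow P α‖ ^ 2 ≤ C * (P : ℝ) ^ (63 / 40 + 3 * ε / 2) := by
  obtain ⟨C, hC, hweyl⟩ := exists_weyl (k := 3) (by norm_num) hε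
  obtain ⟨B, hB⟩ : ∃ B : ℝ, B = C * (2 : ℝ) ^ (4 + ε) * 30 * (6 + 1 / ε) := ⟨_, rfl⟩
  refine ⟨4 * √B, by rw [hB]; positivity, fun P q a α hP ha hα hlow hhigh => ?_⟩
  have hP1 : (1 : ℝ) ≤ P := by exact_mod_cast hP
  have hP0 : (0 : ℝ) < P := by linarith
  have hq1 : (1 : ℝ) ≤ q := (Real.one_le_rpow hP1 (by norm_num)).trans hlow
  have : NeZero q := ⟨fun h => by rw [h] at hq1; norm_num at hq1⟩
  have hlog : 1 + Real.log q ≤ (6 + 1 / ε) * (P : ℝ) ^ (2 * ε) := by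
    have h1 : Real.log q ≤ 5 + 2 * Real.log P := by
      refine (Real.log_le_log (by linarith) hhigh).trans ?_
      rw [Real.log_mul (by norm_num) (by positivity), Real.log_pow]
      have : Real.log 28 ≤ 5 := by
        rw [Real.log_le_iff_le_exp (by norm_num)]
        have := Real.add_one_le_exp (1 : ℝ)
        rw [show (5 : ℝ) = ((5 : ℕ) : ℝ) * 1 by norm_num, Real.exp_nat_mul]
        calc (28 : ℝ) ≤ 2 ^ 5 := by norm_num
          _ ≤ _ := pow_le_pow_left₀ (by norm_num) (by linarith) 5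
      push_cast
      linarith
    have h2 := Real.log_le_rpow_div hP0.le (show 0 < 2 * ε by linarith)
    have h3 : (1 : ℝ) ≤ (P : ℝ) ^ (2 * ε) := Real.one_le_rpow hP1 (by linarith)
    have h4 : 2 * Real.log P ≤ (P : ℝ) ^ (2 * ε) * (1 / ε) := by
      refine (mul_le_mul_of_nonneg_left h2 two_pos.le).trans (le_of_eq ?_)
      field_simp
    linarith
  have hbd : ∀ N : ℕ, 1 ≤ N → P ≤ N → N ≤ 2 * P →
      ‖waringSum 3 N α‖ ^ 4 ≤ B * (P : ℝ) ^ (63 / 20 + 3 * ε) := by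
    intro N hN hPN hN2
    have h := hweyl N q a α hN ha hα
    norm_num at h
    refine h.trans ?_
    have hN0 : (0 : ℝ) < N := Nat.cast_pos.2 hN
    have hN2' : (N : ℝ) ≤ 2 * (P : ℝ) := by exact_mod_cast hN2
    have hPN' : (P : ℝ) ≤ N := Nat.cast_le.2 hPN
    have hR0P : (P : ℝ) ^ (17 / 20 : ℝ) ≤ P := by
      simpa using Real.rpow_le_rpow_of_exponent_le hP1 (show (17 / 20 : ℝ) ≤ 1 by norm_num)
    have hR0 : (0 : ℝ) < (P : ℝ) ^ (17 / 20 : ℝ) := by positivity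
    have e : (q : ℝ)⁻¹ + (N : ℝ)⁻¹ + (q : ℝ) / (N : ℝ) ^ 3 ≤
        30 * (P : ℝ) ^ (-(17 / 20) : ℝ) := by
      rw [Real.rpow_neg hP0.le]
      have a1 : (q : ℝ)⁻¹ ≤ ((P : ℝ) ^ (17 / 20 : ℝ))⁻¹ := inv_anti₀ hR0 hlow
      have a2 : (N : ℝ)⁻¹ ≤ ((P : ℝ) ^ (17 / 20 : ℝ))⁻¹ := inv_anti₀ hR0 (hR0P.trans hPN')
      have a3 : (q : ℝ) / (N : ℝ) ^ 3 ≤ 28 * ((P : ℝ) ^ (17 / 20 : ℝ))⁻¹ := by
        refine (div_le_div_of_nonneg_left (by linarith) (by positivity)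
          (pow_le_pow_left₀ hP0.le hPN' 3)).trans ?_
        refine (div_le_div_of_nonneg_right hhigh (by positivity)).trans ?_
        rw [show 28 * (P : ℝ) ^ 2 / (P : ℝ) ^ 3 = 28 * (P : ℝ)⁻¹ by field_simp]
        exact mul_le_mul_of_nonneg_left (inv_anti₀ hR0 hR0P) (by norm_num)
      linarith
    calc C * (N : ℝ) ^ ((4 : ℝ) + ε) * ((q : ℝ)⁻¹ + (N : ℝ)⁻¹ + (q : ℝ) / (N : ℝ) ^ 3) *
          (1 + Real.log q)
        ≤ C * (2 * (P : ℝ)) ^ ((4 : ℝ) + ε) * (30 * (P : ℝ) ^ (-(17 / 20) : ℝ)) *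
            ((6 + 1 / ε) * (P : ℝ) ^ (2 * ε)) := by gcongr
      _ = _ := by
          have he : (P : ℝ) ^ (63 / 20 + 3 * ε) = (P : ℝ) ^ ((4 : ℝ) + ε) *
              (P : ℝ) ^ (-(17 / 20) : ℝ) * (P : ℝ) ^ (2 * ε) := by
            rw [← Real.rpow_add hP0, ← Real.rpow_add hP0]
            ring_nf
          rw [hB, he, Real.mul_rpow two_pos.le hP0.le]
          ring
  have hB0 : 0 ≤ B := by rw [hB]; positivity
  have hsq : ∀ N : ℕ, 1 ≤ N → P ≤ N → N ≤ 2 * P →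
      ‖waringSum 3 N α‖ ^ 2 ≤ √B * (P : ℝ) ^ (63 / 40 + 3 * ε / 2) := fun N hN h1 h2 => by
    refine le_of_pow_le_pow_left₀ two_ne_zero (by positivity) ?_
    rw [← pow_mul, mul_pow, Real.sq_sqrt hB0, ← Real.rpow_natCast ((P : ℝ) ^ _) 2,
      ← Real.rpow_mul hP0.le,
      show (63 / 40 + 3 * ε / 2) * ((2 : ℕ) : ℝ) = 63 / 20 + 3 * ε by push_cast; ring]
    exact hbd N hN h1 h2
  rw [cubeWindow_eq_waringSum]
  refine ((pow_le_pow_left₀ (norm_nonneg _) (norm_sub_le _ _) 2).trans add_sq_le).trans ?_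
  have := hsq (2 * P) (by omega) (by omega) le_rfl
  have := hsq P hP le_rfl (by omega)
  linarith

/-- `∑_{|j| ≤ J} (1 + s |j|) ^ (-2) ≤ 1 + 2 / s`. -/
theorem sum_decay_le {s : ℝ} (hs : 0 < s) (J : ℕ) :
    ∑ j ∈ Icc (-(J : ℤ)) J, 1 / (1 + s * (j.natAbs : ℝ)) ^ 2 ≤ 1 + 2 / s := by
  have htel : ∀ m : ℕ, ∑ n ∈ Ioc 0 m, 1 / (1 + s * (n : ℝ)) ^ 2 ≤
      (1 / s) * (1 - 1 / (1 + s * (m : ℝ))) := by
    intro m
    induction m with
    | zero => simp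
    | succ m ih =>
      rw [sum_Ioc_succ_top (Nat.zero_le m)]
      have h1 : 0 < 1 + s * (m : ℝ) := by positivity
      push_cast at *
      have h3 : 0 < 1 + s * ((m : ℝ) + 1) := by positivity
      have e : (1 / s) * (1 / (1 + s * (m : ℝ)) - 1 / (1 + s * ((m : ℝ) + 1))) =
          1 / ((1 + s * (m : ℝ)) * (1 + s * ((m : ℝ) + 1))) := by
        field_simp
        ring
      have h2 : 1 / (1 + s * ((m : ℝ) + 1)) ^ 2 ≤
          1 / ((1 + s * (m : ℝ)) * (1 + s * ((m : ℝ) + 1))) := by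
        refine one_div_le_one_div_of_le (by positivity) ?_
        rw [sq]
        exact mul_le_mul_of_nonneg_right (by linarith) h3.le
      linarith
  rw [← add_sum_erase _ _ (show (0 : ℤ) ∈ Icc (-(J : ℤ)) J by rw [mem_Icc]; omega)]
  refine add_le_add (le_of_eq (by simp)) ?_
  refine (sum_natAbs_le (N := J) _ (fun j hj => ?_) (fun n => 1 / (1 + s * (n : ℝ)) ^ 2)
    fun n => by positivity).trans ?_
  · rw [mem_erase, mem_Icc] at hj
    exact ⟨hj.1, by omega⟩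
  refine (mul_le_mul_of_nonneg_left ((htel J).trans (mul_le_of_le_one_right (by positivity) ?_))
    two_pos.le).trans (le_of_eq (by ring))
  have : 0 ≤ 1 / (1 + s * (J : ℝ)) := by positivity
  linarith

/-- Dirichlet's rational for a point of the grid. -/
theorem exists_dirichlet_grid {P : ℕ} (hP : 1 ≤ P) (t : ℝ) : ∃ (q r : ℕ) (k : ℤ),
    0 < q ∧ q ≤ 28 * P ^ 2 ∧ r < q ∧ r.Coprime q ∧
      |t - (r : ℝ) / q - k| * (28 * q * (P : ℝ) ^ 2) ≤ 1 := by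
  obtain ⟨ρ, hρ, hρn⟩ := Real.exists_rat_abs_sub_le_and_den_le t
    (n := 28 * P ^ 2) (by positivity)
  obtain ⟨q, hq⟩ : ∃ q, q = ρ.den := ⟨_, rfl⟩
  have : NeZero q := ⟨hq ▸ ρ.den_ne_zero⟩
  have hq0 : (0 : ℝ) < q := Nat.cast_pos.2 (NeZero.pos q)
  rw [Rat.cast_def, ← hq] at hρ
  have hu : IsUnit (ρ.num : ZMod q) := by
    rw [ZMod.coe_int_isUnit_iff_isCoprime, isCoprime_comm, Int.isCoprime_iff_nat_coprime, hq]
    simpa using ρ.reduced
  obtain ⟨r, hr⟩ : ∃ r, r = (ρ.num : ZMod q).val := ⟨_, rfl⟩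
  obtain ⟨m, hm⟩ : (q : ℤ) ∣ ρ.num - r := by
    rw [← ZMod.intCast_zmod_eq_zero_iff_dvd, hr]
    push_cast
    rw [ZMod.natCast_zmod_val, sub_self]
  refine ⟨q, r, m, NeZero.pos q, hq ▸ hρn, hr ▸ ZMod.val_lt _, ?_, ?_⟩
  · refine (ZMod.isUnit_iff_coprime r q).1 ?_
    rwa [hr, ZMod.natCast_zmod_val]
  · have e : t - (r : ℝ) / q - m = t - (ρ.num : ℝ) / q := by
      have h3 : (ρ.num : ℝ) - r = q * m := by exact_mod_cast hm
      field_simp
      linarith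
    rw [e]
    refine (mul_le_mul_of_nonneg_right hρ (by positivity)).trans ?_
    rw [div_mul_eq_mul_div, one_mul, div_le_one (by positivity)]
    push_cast
    nlinarith [sq_nonneg (P : ℝ)]

/-- The terms with denominators up to `P ^ (17/20)`, read on `(q, r, j)`. -/
theorem exists_smallDen_le : ∃ C : ℝ, 0 < C ∧ ∀ P Q : ℕ, 1 ≤ P →
    (Q : ℝ) ≤ (P : ℝ) ^ (4 / 5 : ℝ) → ∀ (S : Finset ℕ) (qf rf : ℕ → ℕ) (kf : ℕ → ℤ),
      (∀ h ∈ S, h ∈ offArcs P ⌊(P : ℝ) ^ (1 / 100 : ℝ)⌋₊ ((P : ℝ) ^ (1 / 5 : ℝ) / (P : ℝ) ^ 3) ∧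
        0 < qf h ∧ (qf h : ℝ) ≤ (P : ℝ) ^ (17 / 20 : ℝ) ∧ rf h < qf h ∧ (rf h).Coprime (qf h) ∧
        |(h : ℝ) / gridSize P - (rf h : ℝ) / qf h - kf h| * (28 * qf h * (P : ℝ) ^ 2) ≤ 1) →
      ∑ h ∈ S, ‖fourTrig P Q ((h : ℝ) / gridSize P)‖ ^ 2 ≤
        C * ((gridSize P : ℝ) * (P : ℝ) ^ (4199 / 1000 : ℝ)) := by
  classical
  obtain ⟨ε, hε⟩ : ∃ ε : ℝ, ε = 1 / 10000 := ⟨_, rfl⟩
  have hε0 : 0 < ε := by rw [hε]; norm_num
  obtain ⟨C₁, hC₁, hf⟩ := exists_cubeWindow_le hε0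
  obtain ⟨C₂, hC₂, hg⟩ := exists_sum_cubeTrig_shift_le hε0
  have hsum : Summable fun q : ℕ => (q : ℝ) ^ (-1 - ε) :=
    Real.summable_nat_rpow.2 (by linarith)
  obtain ⟨Z, hZ⟩ : ∃ Z : ℝ, Z = ∑' q : ℕ, (q : ℝ) ^ (-1 - ε) := ⟨_, rfl⟩
  have hZ0 : 0 ≤ Z := hZ ▸ tsum_nonneg fun q => by positivity
  refine ⟨8 * C₁ ^ 4 * (C₂ + 1) * (384 * (2 * Z + 1) + 16), by positivity,
    fun P Q hP hQ S qf rf kf hS => ?_⟩
  obtain ⟨M, hM⟩ : ∃ M, M = gridSize P := ⟨_, rfl⟩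
  rw [← hM] at hS ⊢
  obtain ⟨R, hR⟩ : ∃ R, R = ⌊(P : ℝ) ^ (1 / 100 : ℝ)⌋₊ := ⟨_, rfl⟩
  obtain ⟨K, hK⟩ : ∃ K : ℝ, K = (P : ℝ) ^ (1 / 5 : ℝ) := ⟨_, rfl⟩
  obtain ⟨Y, hY⟩ : ∃ Y : ℝ, Y = (P : ℝ) ^ (17 / 20 : ℝ) := ⟨_, rfl⟩
  rw [← hR, ← hK, ← hY] at hS
  have hP1 : (1 : ℝ) ≤ P := by exact_mod_cast hP
  have hP0 : (0 : ℝ) < P := by linarith
  have hY1 : 1 ≤ Y := hY ▸ Real.one_le_rpow hP1 (by norm_num)
  have hYP : Y ≤ P := by
    rw [hY]
    simpa using Real.rpow_le_rpow_of_exponent_le hP1 (show (17 / 20 : ℝ) ≤ 1 by norm_num)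
  have hK1 : 1 ≤ K := hK ▸ Real.one_le_rpow hP1 (by norm_num)
  have hQP : (Q : ℝ) ≤ P := hQ.trans (by
    simpa using Real.rpow_le_rpow_of_exponent_le hP1 (show (4 / 5 : ℝ) ≤ 1 by norm_num))
  have hM3 : 64 * (P : ℝ) ^ 3 ≤ (M : ℝ) := by
    rw [hM]; exact_mod_cast pow_three_le_gridSize hP
  have hM6 : (M : ℝ) = 64 * (P : ℝ) ^ 6 := by rw [hM, gridSize]; push_cast; rfl
  have hMr : (0 : ℝ) < M := by rw [hM6]; positivity
  obtain ⟨s, hs⟩ : ∃ s : ℝ, s = (P : ℝ) ^ 3 / M := ⟨_, rfl⟩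
  have hs0 : 0 < s := by rw [hs]; positivity
  have hs1 : s ≤ 1 / 2 := by
    rw [hs, div_le_iff₀ hMr]; nlinarith [pow_pos hP0 3]
  obtain ⟨G, hG⟩ : ∃ G : ℕ → ℕ → ℤ → ℝ, G = fun (q r : ℕ) (j : ℤ) =>
      ‖shortCube Q ((r : ℝ) / q + (j : ℝ) / M)‖ ^ 4 + 1 := ⟨_, rfl⟩
  obtain ⟨e, he⟩ : ∃ e : ℕ → ℝ, e = fun q => if q ≤ R then 1 / K ^ 2 else 1 := ⟨_, rfl⟩
  obtain ⟨A, hA⟩ : ∃ A : ℕ → ℤ → ℝ, A = fun q j =>
      8 * C₁ ^ 4 * (16 * (P : ℝ) ^ 4 * e q * (q : ℝ) ^ (-(4 / 3) : ℝ) *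
        (1 / (1 + s * (j.natAbs : ℝ)) ^ 2) + (q : ℝ) ^ (3 + 4 * ε)) := ⟨_, rfl⟩
  obtain ⟨J, hJ⟩ : ∃ J : ℕ → ℕ, J = fun q : ℕ =>
      ⌊(M : ℝ) / (28 * q * (P : ℝ) ^ 2) + 1⌋₊ := ⟨_, rfl⟩
  obtain ⟨φ, hφ⟩ : ∃ φ : ℕ → Σ _ : ℕ, ℕ × ℤ, φ = fun h => ⟨qf h, rf h,
      (h : ℤ) - kf h * M - ⌊(rf h : ℝ) * M / qf h⌋⟩ := ⟨_, rfl⟩
  obtain ⟨I, hI⟩ : ∃ I : Finset (Σ _ : ℕ, ℕ × ℤ), I = (Icc 1 ⌊Y⌋₊).sigma
      fun q => range q ×ˢ Icc (-(J q : ℤ)) (J q) := ⟨_, rfl⟩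
  have hdata : ∀ h ∈ S, φ h ∈ I ∧ ‖fourTrig P Q ((h : ℝ) / M)‖ ^ 2 ≤
      A (φ h).1 (φ h).2.2 * G (φ h).1 (φ h).2.1 (φ h).2.2 := by
    intro h hh
    obtain ⟨hoff, hq, hqY, hr, hcop, hd⟩ := hS h hh
    rw [hφ]
    simp only
    obtain ⟨q, hq'⟩ : ∃ q, q = qf h := ⟨_, rfl⟩
    obtain ⟨r, hr'⟩ : ∃ r, r = rf h := ⟨_, rfl⟩
    obtain ⟨k, hk⟩ : ∃ k, k = kf h := ⟨_, rfl⟩
    rw [← hq'] at hq hqY hr hcop hd ⊢
    rw [← hr'] at hr hcop hd ⊢
    rw [← hk] at hd ⊢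
    obtain ⟨j, hj⟩ : ∃ j : ℤ, j = (h : ℤ) - k * M - ⌊(r : ℝ) * M / q⌋ := ⟨_, rfl⟩
    rw [← hj]
    obtain ⟨β, hβ⟩ : ∃ β : ℝ, β = (h : ℝ) / M - (r : ℝ) / q - k := ⟨_, rfl⟩
    rw [← hβ] at hd
    have hq0 : (0 : ℝ) < q := Nat.cast_pos.2 hq
    have hjβ : |β * M - (j : ℝ)| ≤ 1 := by
      have e1 : β * M - (j : ℝ) = (⌊(r : ℝ) * M / q⌋ : ℝ) - (r : ℝ) * M / q := by
        rw [hj, hβ]
        push_cast
        field_simp
        ring
      rw [e1, abs_le]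
      have := Int.floor_le ((r : ℝ) * M / q)
      have := Int.lt_floor_add_one ((r : ℝ) * M / q)
      constructor <;> linarith
    have hjab : |(j : ℝ)| = (j.natAbs : ℝ) := by rw [Nat.cast_natAbs, Int.cast_abs]
    obtain ⟨hjle, hjge⟩ : (j.natAbs : ℝ) ≤ |β| * M + 1 ∧ |β| * M ≤ (j.natAbs : ℝ) + 1 := by
      rw [← hjab, show |β| * (M : ℝ) = |β * M| by rw [abs_mul, abs_of_pos hMr]]
      constructor
      · linarith [abs_sub_abs_le_abs_sub (j : ℝ) (β * M), abs_sub_comm (j : ℝ) (β * M)]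
      · linarith [abs_sub_abs_le_abs_sub (β * M) (j : ℝ)]
    refine ⟨?_, ?_⟩
    · rw [hI, mem_sigma, mem_product, mem_Icc, mem_range, mem_Icc]
      have h1 : j.natAbs ≤ J q := by
        rw [hJ]
        refine Nat.le_floor (hjle.trans ?_)
        rw [add_le_add_iff_right, le_div_iff₀ (by positivity)]
        calc |β| * (M : ℝ) * (28 * q * (P : ℝ) ^ 2) = |β| * (28 * q * (P : ℝ) ^ 2) * M := by ring
          _ ≤ 1 * (M : ℝ) := mul_le_mul_of_nonneg_right hd hMr.le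
          _ = _ := one_mul _
      simp only
      exact ⟨⟨hq, Nat.le_floor hqY⟩, hr, by omega, by omega⟩
    · have ht : (h : ℝ) / M = ((r : ℤ) : ℝ) / q + β + k := by rw [hβ]; push_cast; ring
      rw [norm_fourTrig_sq, ht, cubeWindow_add_intCast, shortCube_add_intCast]
      have hu : IsUnit (((r : ℕ) : ℤ) : ZMod q) := by
        rw [Int.cast_natCast]
        exact (ZMod.isUnit_iff_coprime r q).2 hcop
      refine mul_le_mul ?_ ?_ (by positivity) (by rw [hA, he]; simp only; split_ifs <;> positivity)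
      · refine (pow_le_pow_left₀ (norm_nonneg _) (hf P q r β hP hq hu hd) 4).trans ?_
        rw [hA, mul_pow]
        simp only
        rw [show (8 : ℝ) * C₁ ^ 4 = C₁ ^ 4 * 8 by ring, mul_assoc]
        refine mul_le_mul_of_nonneg_left ((add_pow_le (by positivity) (by positivity) 4).trans ?_)
          (by positivity)
        rw [show ((2 : ℝ) ^ (4 - 1)) = 8 by norm_num]
        refine mul_le_mul_of_nonneg_left (add_le_add ?_ (le_of_eq ?_)) (by norm_num)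
        · rw [mul_pow, ← Real.rpow_natCast ((q : ℝ) ^ _) 4, ← Real.rpow_mul hq0.le,
            show -(1 / 3 : ℝ) * ((4 : ℕ) : ℝ) = -(4 / 3) by norm_num]
          obtain ⟨u, hu'⟩ : ∃ u : ℝ, u = (P : ℝ) ^ 3 * |β| := ⟨_, rfl⟩
          rw [← hu']
          obtain ⟨x, hx⟩ : ∃ x : ℝ, x = s * (j.natAbs : ℝ) := ⟨_, rfl⟩
          rw [← hx]
          have hu0 : 0 ≤ u := by rw [hu']; positivity
          have hx0 : 0 ≤ x := by rw [hx]; positivity
          have hus : u = s * (|β| * M) := by rw [hu', hs]; field_simp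
          have hxu : x ≤ u + 1 / 2 := by
            rw [hx, hus]
            have := mul_le_mul_of_nonneg_left hjle hs0.le
            linarith
          have hux : u ≤ x + 1 / 2 := by
            rw [hx, hus]
            have := mul_le_mul_of_nonneg_left hjge hs0.le
            linarith
          have h1 : ((P : ℝ) / (1 + u)) ^ 4 ≤
              16 * (P : ℝ) ^ 4 * (1 / (1 + x) ^ 2) * (1 / (1 + x) ^ 2) := by
            calc ((P : ℝ) / (1 + u)) ^ 4 ≤ (2 * P / (1 + x)) ^ 4 := by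
                  refine pow_le_pow_left₀ (by positivity) ?_ 4
                  rw [div_le_div_iff₀ (by positivity) (by positivity)]
                  nlinarith
              _ = _ := by rw [div_pow]; field_simp; ring
          have h2 : 1 / (1 + x) ^ 2 ≤ e q := by
            rw [he]
            simp only
            split_ifs with hqR
            · refine one_div_le_one_div_of_le (by positivity) (pow_le_pow_left₀ (by linarith) ?_ 2)
              by_contra hlt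
              simp only [offArcs, mem_filter] at hoff
              have hz : (⟨q, r⟩ : Σ _ : ℕ, ℕ) ∈ arcCentres R :=
                mem_arcCentres.2 ⟨⟨hq, hqR⟩, hr, hcop.symm⟩
              refine hoff.2 _ hz ?_
              rw [arc, mem_filter, ← hM]
              refine ⟨mem_range.2 (by rw [hM]; exact mem_range.1 hoff.1), ?_⟩
              refine (nearDist_le_abs_sub _ k).trans ?_
              rw [le_div_iff₀ (by positivity),
                show (h : ℝ) / M - centre ⟨q, r⟩ - k = β by rw [hβ, centre], mul_comm, ← hu']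
              linarith
            · exact div_le_one_of_le₀ (one_le_pow₀ (by linarith)) (sq_nonneg _)
          calc (q : ℝ) ^ (-(4 / 3) : ℝ) * ((P : ℝ) / (1 + u)) ^ 4
              ≤ (q : ℝ) ^ (-(4 / 3) : ℝ) *
                  (16 * (P : ℝ) ^ 4 * e q * (1 / (1 + x) ^ 2)) := by
                refine mul_le_mul_of_nonneg_left (h1.trans ?_) (by positivity)
                exact mul_le_mul_of_nonneg_right (mul_le_mul_of_nonneg_left h2 (by positivity))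
                  (by positivity)
            _ = _ := by ring
        · rw [← Real.rpow_natCast, ← Real.rpow_mul hq0.le]
          congr 1
          push_cast
          ring
      · rw [hG, Int.cast_natCast]
        simp only
        obtain ⟨a, ha⟩ : ∃ a, a = ‖shortCube Q ((r : ℝ) / q + β)‖ := ⟨_, rfl⟩
        obtain ⟨b, hb⟩ : ∃ b, b = ‖shortCube Q ((r : ℝ) / q + (j : ℝ) / M)‖ := ⟨_, rfl⟩
        rw [← ha, ← hb]
        have hb0 : 0 ≤ b := hb ▸ norm_nonneg _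
        have ha0 : 0 ≤ a := ha ▸ norm_nonneg _
        have hbQ : b ≤ Q := hb ▸ norm_shortCube_le Q _
        have haQ : a ≤ Q := ha ▸ norm_shortCube_le Q _
        rcases le_total a b with hab | hab
        · have := pow_le_pow_left₀ ha0 hab 4
          linarith
        have h1 : a ^ 4 - b ^ 4 ≤ 4 * (Q : ℝ) ^ 3 * (a - b) := by
          rw [show a ^ 4 - b ^ 4 = (a ^ 3 + a ^ 2 * b + a * b ^ 2 + b ^ 3) * (a - b) by ring]
          refine mul_le_mul_of_nonneg_right ?_ (sub_nonneg.2 hab)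
          have a1 := pow_le_pow_left₀ ha0 haQ 3
          have a2 := pow_le_pow_left₀ hb0 hbQ 3
          nlinarith [pow_le_pow_left₀ hb0 hab 2, mul_le_mul_of_nonneg_left hab (sq_nonneg a),
            mul_le_mul_of_nonneg_left (pow_le_pow_left₀ hb0 hab 2) ha0]
        have h2 : a - b ≤ 7 * (Q : ℝ) ^ 4 * (1 / M) := by
          rw [ha, hb]
          refine (norm_sub_norm_le _ _).trans ((norm_shortCube_sub_le _ _ _).trans ?_)
          refine mul_le_mul (mul_le_mul_of_nonneg_right (by linarith [Real.pi_lt_d2])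
            (by positivity)) ?_ (abs_nonneg _) (by positivity)
          rw [add_sub_add_left_eq_sub, show β - (j : ℝ) / M = (β * M - j) / M by field_simp,
            abs_div, abs_of_pos hMr]
          exact div_le_div_of_nonneg_right hjβ hMr.le
        have h3 : 4 * (Q : ℝ) ^ 3 * (7 * (Q : ℝ) ^ 4 * (1 / M)) ≤ 1 := by
          rw [← mul_assoc, mul_one_div, div_le_one hMr, hM6]
          calc 4 * (Q : ℝ) ^ 3 * (7 * (Q : ℝ) ^ 4) = 28 * (Q : ℝ) ^ 7 := by ring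
            _ ≤ 28 * ((P : ℝ) ^ (4 / 5 : ℝ)) ^ 7 := by gcongr
            _ ≤ 64 * (P : ℝ) ^ 6 := by
                refine mul_le_mul (by norm_num) ?_ (by positivity) (by norm_num)
                rw [← Real.rpow_natCast, ← Real.rpow_mul hP0.le, ← Real.rpow_natCast (P : ℝ) 6]
                exact Real.rpow_le_rpow_of_exponent_le hP1 (by norm_num)
        linarith [mul_le_mul_of_nonneg_left h2 (show (0 : ℝ) ≤ 4 * (Q : ℝ) ^ 3 by positivity)]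
  have hinj : Set.InjOn φ S := by
    intro h hh u hu heq
    rw [hφ] at heq
    simp only [Sigma.mk.injEq, heq_eq_eq, Prod.mk.injEq] at heq
    obtain ⟨e1, e2, e3⟩ := heq
    rw [e1, e2] at e3
    have b1 : h < M := by
      have := (hS h hh).1
      simp only [offArcs, mem_filter, mem_range, ← hM] at this
      exact this.1
    have b2 : u < M := by
      have := (hS u hu).1
      simp only [offArcs, mem_filter, mem_range, ← hM] at this
      exact this.1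
    have h4 : (M : ℤ) ∣ (h : ℤ) - u := ⟨kf h - kf u, by linarith⟩
    by_contra hne
    have := Int.le_of_dvd (abs_pos.2 (show (h : ℤ) - u ≠ 0 by omega)) ((dvd_abs _ _).2 h4)
    rcases abs_cases ((h : ℤ) - u) with ⟨h5, -⟩ | ⟨h5, -⟩ <;> omega
  have hnn : ∀ x : Σ _ : ℕ, ℕ × ℤ, 0 ≤ A x.1 x.2.2 * G x.1 x.2.1 x.2.2 := fun x => by
    rw [hA, hG, he]
    simp only
    split_ifs <;> positivity
  refine (sum_le_sum fun h hh => (hdata h hh).2).trans ?_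
  rw [← sum_image (f := fun x : Σ _ : ℕ, ℕ × ℤ => A x.1 x.2.2 * G x.1 x.2.1 x.2.2) hinj]
  refine (sum_le_sum_of_subset_of_nonneg (t := I) (fun x hx => ?_) fun x _ _ => hnn x).trans ?_
  · obtain ⟨h, hh, rfl⟩ := mem_image.1 hx
    exact (hdata h hh).1
  rw [hI, sum_sigma]
  have hq4 : ∀ q ∈ Icc 1 ⌊Y⌋₊, ∑ x ∈ range q ×ˢ Icc (-(J q : ℤ)) (J q), A q x.2 * G q x.1 x.2 ≤
      8 * C₁ ^ 4 * (C₂ + 1) * ((M : ℝ) * (384 * ((P : ℝ) *
        ((q : ℝ) ^ (-1 - ε) * (Q : ℝ) ^ 4 * ((P : ℝ) ^ (-(1 / 400) : ℝ) + 1 / K ^ 2) +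
          Y ^ (8 / 3 + ε : ℝ))) + 8 * (Y ^ (2 + 5 * ε : ℝ) * ((Q : ℝ) ^ 4 + Y ^ 4) / (P : ℝ) ^ 2))) := by
    intro q hq
    rw [mem_Icc] at hq
    have hq1 : (1 : ℝ) ≤ q := by exact_mod_cast hq.1
    have hqY : (q : ℝ) ≤ Y :=
      (Nat.cast_le.2 hq.2).trans (Nat.floor_le (by linarith))
    have hq0 : (0 : ℝ) < q := by linarith
    rw [sum_product_right]
    obtain ⟨W, hW⟩ : ∃ W : ℝ, W = (C₂ + 1) * ((q : ℝ) ^ ε * ((Q : ℝ) + q) ^ 4) := ⟨_, rfl⟩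
    have hGsum : ∀ j : ℤ, ∑ r ∈ range q, G q r j ≤ W := fun j => by
      rw [hG, hW]
      simp only [sum_add_distrib, sum_const, card_range, nsmul_eq_mul, mul_one]
      rw [add_mul, one_mul]
      refine add_le_add (hg q Q _ hq.1) ?_
      refine le_trans ?_ (le_mul_of_one_le_left (by positivity) (Real.one_le_rpow hq1 hε0.le))
      refine le_trans ?_ (le_self_pow₀ (by linarith [Nat.cast_nonneg (α := ℝ) Q]) (by norm_num))
      linarith [Nat.cast_nonneg (α := ℝ) Q]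
    refine (sum_le_sum (g := fun j => A q j * W) fun j _ => by
      simp only [← mul_sum]
      exact mul_le_mul_of_nonneg_left (hGsum j) (by
        rw [hA, he]; simp only; split_ifs <;> positivity)).trans ?_
    rw [← sum_mul]
    have hcount : ((Icc (-(J q : ℤ)) (J q)).card : ℝ) ≤ (M : ℝ) / (q * (P : ℝ) ^ 2) := by
      rw [Int.card_Icc, show ((J q : ℤ) + 1 - -(J q : ℤ)).toNat = 2 * J q + 1 by omega]
      push_cast
      have hJ' : (J q : ℝ) ≤ (M : ℝ) / (28 * q * (P : ℝ) ^ 2) + 1 := by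
        rw [hJ]; exact Nat.floor_le (by positivity)
      have hd : (M : ℝ) / (28 * q * (P : ℝ) ^ 2) = 1 / 28 * ((M : ℝ) / (q * (P : ℝ) ^ 2)) := by
        field_simp
      have h64 : 64 ≤ (M : ℝ) / (q * (P : ℝ) ^ 2) := by
        rw [le_div_iff₀ (by positivity)]
        refine le_trans ?_ hM3
        rw [pow_succ' (P : ℝ) 2]
        gcongr
        exact_mod_cast hqY.trans hYP
      linarith
    have he1 : 0 ≤ e q ∧ e q ≤ 1 := by
      rw [he]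
      simp only
      split_ifs
      · exact ⟨by positivity, div_le_one_of_le₀ (one_le_pow₀ hK1) (sq_nonneg _)⟩
      · norm_num
    have hAsum : ∑ j ∈ Icc (-(J q : ℤ)) (J q), A q j ≤ 8 * C₁ ^ 4 * ((M : ℝ) *
        (48 * (P : ℝ) * (e q * (q : ℝ) ^ (-(4 / 3) : ℝ)) +
          (q : ℝ) ^ (2 + 4 * ε) / (P : ℝ) ^ 2)) := by
      rw [hA]
      simp only
      rw [← mul_sum, sum_add_distrib, sum_const, nsmul_eq_mul, ← mul_sum]
      refine mul_le_mul_of_nonneg_left ?_ (by positivity)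
      rw [mul_add (M : ℝ)]
      refine add_le_add ?_ ?_
      · refine (mul_le_mul_of_nonneg_left (sum_decay_le hs0 _)
          (mul_nonneg (mul_nonneg (by positivity) he1.1) (by positivity))).trans ?_
        have h2 : 1 + 2 / s ≤ 3 * ((M : ℝ) / (P : ℝ) ^ 3) := by
          have h3 : (2 : ℝ) / s = 2 * ((M : ℝ) / (P : ℝ) ^ 3) := by rw [hs]; field_simp
          have : 1 ≤ (M : ℝ) / (P : ℝ) ^ 3 := by
            rw [one_le_div (by positivity)]; linarith [pow_pos hP0 3]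
          linarith
        refine (mul_le_mul_of_nonneg_left h2
          (mul_nonneg (mul_nonneg (by positivity) he1.1) (by positivity))).trans (le_of_eq ?_)
        field_simp
        ring
      · refine (mul_le_mul_of_nonneg_right hcount (by positivity)).trans (le_of_eq ?_)
        rw [show (3 : ℝ) + 4 * ε = 2 + 4 * ε + 1 by ring, Real.rpow_add_one hq0.ne']
        field_simp
    refine (mul_le_mul_of_nonneg_right hAsum (by rw [hW]; positivity)).trans ?_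
    rw [hW]
    have hpow4 : ((Q : ℝ) + q) ^ 4 ≤ 8 * ((Q : ℝ) ^ 4 + (q : ℝ) ^ 4) := by
      have := add_pow_le (Nat.cast_nonneg (α := ℝ) Q) hq0.le 4
      norm_num at this ⊢
      exact this
    have k1 : e q * (q : ℝ) ^ (-(4 / 3) : ℝ) * (q : ℝ) ^ ε ≤
        (q : ℝ) ^ (-1 - ε) * ((P : ℝ) ^ (-(1 / 400) : ℝ) + 1 / K ^ 2) := by
      rw [mul_assoc, ← Real.rpow_add hq0, he]
      simp only
      have hP400 : 0 ≤ (P : ℝ) ^ (-(1 / 400) : ℝ) := by positivity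
      have hK2 : 0 ≤ 1 / K ^ 2 := by positivity
      split_ifs with hqR
      · rw [mul_comm]
        exact mul_le_mul (Real.rpow_le_rpow_of_exponent_le hq1 (by rw [hε]; norm_num))
          (le_add_of_nonneg_left hP400) hK2 (by positivity)
      · rw [one_mul, show -(4 / 3) + ε = (-1 - ε) + -(1 / 3 - 2 * ε) by ring, Real.rpow_add hq0]
        refine mul_le_mul_of_nonneg_left (le_trans ?_ (le_add_of_nonneg_right hK2)) (by positivity)
        have hqR' : (P : ℝ) ^ (1 / 100 : ℝ) ≤ q := by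
          by_contra hlt
          exact hqR (hR ▸ Nat.le_floor (not_le.1 hlt).le)
        refine (Real.rpow_le_rpow_of_exponent_le hq1
          (show -(1 / 3 - 2 * ε) ≤ -(1 / 4) by rw [hε]; norm_num)).trans ?_
        refine (Real.rpow_le_rpow_of_nonpos (by positivity) hqR' (by norm_num)).trans (le_of_eq ?_)
        rw [← Real.rpow_mul hP0.le]
        norm_num
    have k2 : e q * (q : ℝ) ^ (-(4 / 3) : ℝ) * ((q : ℝ) ^ ε * (q : ℝ) ^ 4) ≤
        Y ^ (8 / 3 + ε : ℝ) := by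
      refine (mul_le_mul_of_nonneg_right (mul_le_of_le_one_left (by positivity) he1.2)
        (by positivity)).trans ?_
      rw [← Real.rpow_natCast (q : ℝ) 4, ← Real.rpow_add hq0, ← Real.rpow_add hq0,
        show -(4 / 3) + (ε + ((4 : ℕ) : ℝ)) = 8 / 3 + ε by push_cast; ring]
      exact Real.rpow_le_rpow hq0.le hqY (by rw [hε]; norm_num)
    have k3 : (q : ℝ) ^ (2 + 4 * ε) * (q : ℝ) ^ ε * ((Q : ℝ) ^ 4 + (q : ℝ) ^ 4) ≤
        Y ^ (2 + 5 * ε : ℝ) * ((Q : ℝ) ^ 4 + Y ^ 4) := by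
      rw [← Real.rpow_add hq0, show 2 + 4 * ε + ε = 2 + 5 * ε by ring]
      gcongr
    have hfirst : 0 ≤ 48 * (P : ℝ) * (e q * (q : ℝ) ^ (-(4 / 3) : ℝ)) +
        (q : ℝ) ^ (2 + 4 * ε) / (P : ℝ) ^ 2 :=
      add_nonneg (mul_nonneg (by positivity) (mul_nonneg he1.1 (by positivity))) (by positivity)
    calc 8 * C₁ ^ 4 * ((M : ℝ) * (48 * (P : ℝ) * (e q * (q : ℝ) ^ (-(4 / 3) : ℝ)) +
          (q : ℝ) ^ (2 + 4 * ε) / (P : ℝ) ^ 2)) *
            ((C₂ + 1) * ((q : ℝ) ^ ε * ((Q : ℝ) + q) ^ 4))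
        ≤ 8 * C₁ ^ 4 * ((M : ℝ) * (48 * (P : ℝ) * (e q * (q : ℝ) ^ (-(4 / 3) : ℝ)) +
          (q : ℝ) ^ (2 + 4 * ε) / (P : ℝ) ^ 2)) *
            ((C₂ + 1) * ((q : ℝ) ^ ε * (8 * ((Q : ℝ) ^ 4 + (q : ℝ) ^ 4)))) := by gcongr
      _ = 8 * C₁ ^ 4 * (C₂ + 1) * ((M : ℝ) * (384 * ((P : ℝ) *
          (e q * (q : ℝ) ^ (-(4 / 3) : ℝ) * (q : ℝ) ^ ε * (Q : ℝ) ^ 4 +
            e q * (q : ℝ) ^ (-(4 / 3) : ℝ) * ((q : ℝ) ^ ε * (q : ℝ) ^ 4))) +
          8 * ((q : ℝ) ^ (2 + 4 * ε) * (q : ℝ) ^ ε * ((Q : ℝ) ^ 4 + (q : ℝ) ^ 4) /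
            (P : ℝ) ^ 2))) := by ring
      _ ≤ _ := by
          rw [mul_right_comm ((q : ℝ) ^ (-1 - ε))]
          gcongr
  refine (sum_le_sum hq4).trans ?_
  rw [← mul_sum, ← mul_sum, sum_add_distrib, ← mul_sum, ← mul_sum, sum_add_distrib, ← sum_mul,
    ← sum_mul, sum_const, sum_const, Nat.card_Icc, Nat.add_sub_cancel, nsmul_eq_mul, nsmul_eq_mul]
  obtain ⟨X, hX⟩ : ∃ X : ℝ, X = (P : ℝ) ^ (4199 / 1000 : ℝ) := ⟨_, rfl⟩
  rw [← hX]
  have hfl : (⌊Y⌋₊ : ℝ) ≤ Y := Nat.floor_le (by linarith)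
  have hQ4 : (Q : ℝ) ^ 4 ≤ (P : ℝ) ^ (16 / 5 : ℝ) := by
    refine (pow_le_pow_left₀ (Nat.cast_nonneg Q) hQ 4).trans (le_of_eq ?_)
    rw [← Real.rpow_natCast, ← Real.rpow_mul hP0.le]
    norm_num
  have hpow : ∀ c : ℝ, c ≤ 4199 / 1000 → (P : ℝ) ^ c ≤ X := fun c hc =>
    hX ▸ Real.rpow_le_rpow_of_exponent_le hP1 hc
  have hYc : ∀ c : ℝ, Y ^ c = (P : ℝ) ^ (17 / 20 * c) := fun c => by
    rw [hY, ← Real.rpow_mul hP0.le]
  have m1 : (P : ℝ) * ((∑ q ∈ Icc 1 ⌊Y⌋₊, (q : ℝ) ^ (-1 - ε)) * (Q : ℝ) ^ 4 *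
      ((P : ℝ) ^ (-(1 / 400) : ℝ) + 1 / K ^ 2)) ≤ 2 * Z * X := by
    calc (P : ℝ) * ((∑ q ∈ Icc 1 ⌊Y⌋₊, (q : ℝ) ^ (-1 - ε)) * (Q : ℝ) ^ 4 *
          ((P : ℝ) ^ (-(1 / 400) : ℝ) + 1 / K ^ 2))
        ≤ (P : ℝ) * (Z * (P : ℝ) ^ (16 / 5 : ℝ) *
          ((P : ℝ) ^ (-(1 / 400) : ℝ) + (P : ℝ) ^ (-(1 / 400) : ℝ))) := by
          have hKP : 1 / K ^ 2 ≤ (P : ℝ) ^ (-(1 / 400) : ℝ) := by
            rw [hK, ← Real.rpow_natCast, ← Real.rpow_mul hP0.le, one_div ((P : ℝ) ^ _),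
              ← Real.rpow_neg hP0.le]
            exact Real.rpow_le_rpow_of_exponent_le hP1 (by norm_num)
          gcongr
          rw [hZ]
          exact hsum.sum_le_tsum _ fun q _ => by positivity
      _ = 2 * Z * (P : ℝ) ^ (1 + 16 / 5 + -(1 / 400) : ℝ) := by
          rw [Real.rpow_add hP0, Real.rpow_add hP0, Real.rpow_one]; ring
      _ ≤ _ := mul_le_mul_of_nonneg_left (hpow _ (by norm_num)) (by positivity)
  have m2 : (P : ℝ) * ((⌊Y⌋₊ : ℝ) * Y ^ (8 / 3 + ε : ℝ)) ≤ X := by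
    calc (P : ℝ) * ((⌊Y⌋₊ : ℝ) * Y ^ (8 / 3 + ε : ℝ)) ≤ (P : ℝ) * (Y * Y ^ (8 / 3 + ε : ℝ)) := by
          gcongr
      _ = (P : ℝ) ^ (1 + (17 / 20 + 17 / 20 * (8 / 3 + ε))) := by
          rw [hYc, Real.rpow_add hP0, Real.rpow_add hP0, Real.rpow_one, ← hY]
      _ ≤ _ := hpow _ (by rw [hε]; norm_num)
  have m3 : (⌊Y⌋₊ : ℝ) * (Y ^ (2 + 5 * ε : ℝ) * ((Q : ℝ) ^ 4 + Y ^ 4) / (P : ℝ) ^ 2) ≤ 2 * X := by
    calc (⌊Y⌋₊ : ℝ) * (Y ^ (2 + 5 * ε : ℝ) * ((Q : ℝ) ^ 4 + Y ^ 4) / (P : ℝ) ^ 2)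
        ≤ Y * (Y ^ (2 + 5 * ε : ℝ) * ((P : ℝ) ^ (16 / 5 : ℝ) + Y ^ 4) / (P : ℝ) ^ 2) := by gcongr
      _ = (P : ℝ) ^ (17 / 20 + 17 / 20 * (2 + 5 * ε) + 16 / 5 + -2) +
          (P : ℝ) ^ (17 / 20 + 17 / 20 * (2 + 5 * ε) + 17 / 5 + -2) := by
          rw [hYc, show Y ^ 4 = (P : ℝ) ^ (17 / 5 : ℝ) by
            rw [hY, ← Real.rpow_natCast, ← Real.rpow_mul hP0.le]; norm_num]
          simp only [Real.rpow_add hP0]
          rw [hY, Real.rpow_neg hP0.le, Real.rpow_two]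
          ring
      _ ≤ _ := by
          have := hpow (17 / 20 + 17 / 20 * (2 + 5 * ε) + 16 / 5 + -2) (by rw [hε]; norm_num)
          have := hpow (17 / 20 + 17 / 20 * (2 + 5 * ε) + 17 / 5 + -2) (by rw [hε]; norm_num)
          linarith
  rw [mul_assoc (8 * C₁ ^ 4 * (C₂ + 1))]
  refine mul_le_mul_of_nonneg_left ?_ (by positivity)
  rw [mul_left_comm (384 * (2 * Z + 1) + 16)]
  refine mul_le_mul_of_nonneg_left ?_ hMr.le
  linarith

/-- **Off the small arcs.** -/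
theorem exists_offArcs_le : ∃ C : ℝ, 0 < C ∧ ∀ P Q : ℕ, 1 ≤ P →
    (Q : ℝ) ≤ (P : ℝ) ^ (4 / 5 : ℝ) →
      ∑ h ∈ offArcs P ⌊(P : ℝ) ^ (1 / 100 : ℝ)⌋₊ ((P : ℝ) ^ (1 / 5 : ℝ) / (P : ℝ) ^ 3),
          ‖fourTrig P Q ((h : ℝ) / gridSize P)‖ ^ 2 ≤
        C * ((gridSize P : ℝ) * (P : ℝ) ^ (4199 / 1000 : ℝ)) := by
  classical
  obtain ⟨C₁, hC₁, hsmall⟩ := exists_smallDen_le
  obtain ⟨C₂, hC₂, hweyl⟩ := exists_window_weyl (show (0 : ℝ) < 1 / 10000 by norm_num)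
  obtain ⟨C₃, hC₃, hsix⟩ := exists_sixthMoment_le (show (0 : ℝ) < 1 / 10000 by norm_num)
  refine ⟨C₂ * C₃ + C₁, by positivity, fun P Q hP hQ => ?_⟩
  have hP1 : (1 : ℝ) ≤ P := by exact_mod_cast hP
  have hP0 : (0 : ℝ) < P := by linarith
  choose qf rf kf hq hq28 hr hcop hd using fun h : ℕ =>
    exists_dirichlet_grid hP ((h : ℝ) / gridSize P)
  obtain ⟨O, hO⟩ : ∃ O, O = offArcs P ⌊(P : ℝ) ^ (1 / 100 : ℝ)⌋₊
    ((P : ℝ) ^ (1 / 5 : ℝ) / (P : ℝ) ^ 3) := ⟨_, rfl⟩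
  rw [← hO, ← sum_filter_add_sum_filter_not O (fun h => (P : ℝ) ^ (17 / 20 : ℝ) < qf h), add_mul]
  refine add_le_add ?_ (hsmall P Q hP hQ _ qf rf kf fun h hh => ?_)
  swap
  · rw [mem_filter, not_lt] at hh
    exact ⟨hO ▸ hh.1, hq h, hh.2, hr h, hcop h, hd h⟩
  obtain ⟨U, hU⟩ : ∃ U : ℝ, U = C₂ * (P : ℝ) ^ (63 / 40 + 3 * (1 / 10000) / 2 : ℝ) := ⟨_, rfl⟩
  have hU0 : 0 ≤ U := by rw [hU]; positivity
  refine (sum_le_sum (g := fun h : ℕ => U * (‖cubeWindow P ((h : ℝ) / gridSize P)‖ ^ 2 *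
    ‖shortCube Q ((h : ℝ) / gridSize P)‖ ^ 4)) fun h hh => ?_).trans ?_
  · rw [mem_filter] at hh
    rw [norm_fourTrig_sq, show ‖cubeWindow P ((h : ℝ) / gridSize P)‖ ^ 4 =
      ‖cubeWindow P ((h : ℝ) / gridSize P)‖ ^ 2 * ‖cubeWindow P ((h : ℝ) / gridSize P)‖ ^ 2 by ring,
      mul_assoc]
    refine mul_le_mul_of_nonneg_right ?_ (by positivity)
    have hq0 : (0 : ℝ) < qf h := Nat.cast_pos.2 (hq h)
    have hq28' : (qf h : ℝ) ≤ 28 * (P : ℝ) ^ 2 := by exact_mod_cast hq28 h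
    have hu : IsUnit ((((rf h : ℕ) : ℤ) + kf h * qf h : ℤ) : ZMod (qf h)) := by
      push_cast
      rw [ZMod.natCast_self, mul_zero, add_zero]
      exact (ZMod.isUnit_iff_coprime (rf h) (qf h)).2 (hcop h)
    refine hU ▸ hweyl P (qf h) ((rf h : ℤ) + kf h * qf h) _ hP hu ?_ hh.2.le hq28'
    have e : (h : ℝ) / gridSize P - ((((rf h : ℕ) : ℤ) + kf h * qf h : ℤ) : ℝ) / qf h =
        (h : ℝ) / gridSize P - (rf h : ℝ) / qf h - kf h := by
      push_cast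
      field_simp
      ring
    rw [e, le_div_iff₀ (by positivity)]
    refine le_trans ?_ (hd h)
    refine mul_le_mul_of_nonneg_left ?_ (abs_nonneg _)
    rw [sq]
    calc (qf h : ℝ) * qf h ≤ qf h * (28 * (P : ℝ) ^ 2) := mul_le_mul_of_nonneg_left hq28' hq0.le
      _ = _ := by ring
  rw [← mul_sum]
  refine (mul_le_mul_of_nonneg_left ((sum_le_sum_of_subset_of_nonneg (fun h hh =>
    (filter_subset _ _) (hO ▸ (mem_filter.1 hh).1)) fun _ _ _ => by positivity).trans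
      (sum_grid_sixth (P := P) (Q := Q) ?_).le) hU0).trans ?_
  · have hQP : Q ≤ P := by
      have : (Q : ℝ) ≤ P := hQ.trans (by
        simpa using Real.rpow_le_rpow_of_exponent_le hP1 (show (4 / 5 : ℝ) ≤ 1 by norm_num))
      exact_mod_cast this
    have := pow_three_le_gridSize hP
    have := pow_pos (show 0 < P from hP) 3
    have := Nat.pow_le_pow_left hQP 3
    omega
  calc U * ((gridSize P : ℝ) * (sixthMoment P Q : ℝ))
      ≤ U * ((gridSize P : ℝ) * (C₃ * (P : ℝ) ^ (13 / 5 + 1 / 10000 : ℝ))) := by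
        gcongr
        exact hsix P Q hP hQ
    _ = C₂ * C₃ * ((gridSize P : ℝ) *
        (P : ℝ) ^ (63 / 40 + 3 * (1 / 10000) / 2 + (13 / 5 + 1 / 10000) : ℝ)) := by
        rw [hU, Real.rpow_add hP0 (63 / 40 + 3 * (1 / 10000) / 2) (13 / 5 + 1 / 10000)]
        ring
    _ ≤ _ := mul_le_mul_of_nonneg_left (mul_le_mul_of_nonneg_left
        (Real.rpow_le_rpow_of_exponent_le hP1 (by norm_num)) (Nat.cast_nonneg _)) (by positivity)

end FA.FourCubes
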