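import Fermat.Agent.FourCubes.Complete

/-!
# The mixed sixth moment

With `x` in `(P, 2P]` and the `y` up to `Q ≤ P ^ (4/5)` the equation
`x₁³ + y₁³ + y₂³ = x₂³ + y₃³ + y₄³` has `O (P ^ (13/5 + ε))` solutions (Davenport): apart from
`x₁ = x₂` the difference `x₂ - x₁` is `O (Q³ / P²)`, and one differencing reduces the rest to the
divisor bound.
-/

set_option autoImplicit false

noncomputable section

namespace FA.FourCubes

open Finset FA.ThreePrimes FA.HuaCubes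
open scoped ComplexConjugate

/-- `(P, 2P]`. -/
def window (P : ℕ) : Finset ℕ := Ioc P (2 * P)

/-- `∑_{P < x ≤ 2P} e (t x³)`. -/
def cubeWindow (P : ℕ) (t : ℝ) : ℂ := intTrig (window P) (fun _ => 1) (fun n => (n : ℤ) ^ 3) t

/-- `∑_{y ≤ Q} e (t y³)`. -/
def shortCube (Q : ℕ) (t : ℝ) : ℂ := cubeTrig (fun _ => 1) Q t

/-- The solutions of `x₁³ + y₁³ + y₂³ = x₂³ + y₃³ + y₄³`. -/
def sixthMoment (P Q : ℕ) : ℕ := ∑ z ∈ window P ×ˢ window P, rep Q (pairDiff z)

theorem norm_cubeWindow_le (P : ℕ) (t : ℝ) : ‖cubeWindow P t‖ ≤ P := by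
  rw [cubeWindow, intTrig]
  refine (norm_sum_le _ _).trans (le_of_eq ?_)
  simp only [norm_mul, norm_one, norm_eAdd, mul_one, sum_const, nsmul_eq_mul, window, Nat.card_Ioc]
  push_cast [show 2 * P - P = P by omega]
  rfl

theorem norm_shortCube_le (Q : ℕ) (t : ℝ) : ‖shortCube Q t‖ ≤ Q := by
  rw [shortCube, cubeTrig, intTrig]
  refine (norm_sum_le _ _).trans (le_of_eq ?_)
  simp [norm_eAdd]

/-- **Orthogonality for two sums.** -/
theorem sum_grid_two {ι κ : Type*} (A : Finset ι) (B : Finset κ) (φ : ι → ℤ) (ψ : κ → ℤ) {M : ℕ}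
    (hM0 : 0 < M) (hM : ∀ i ∈ A, ∀ j ∈ B, |φ i - ψ j| < (M : ℤ)) :
    ∑ h ∈ range M, intTrig A (fun _ => 1) φ (h / M) * conj (intTrig B (fun _ => 1) ψ (h / M)) =
      ((M * ∑ j ∈ B, (A.filter fun i => φ i = ψ j).card : ℕ) : ℂ) := by
  simp only [intTrig_conj, intTrig_mul, map_one, mul_one]
  simp only [intTrig, one_mul, mul_div_assoc']
  rw [sum_comm, sum_product, sum_comm, Nat.cast_mul, Nat.cast_sum, mul_sum]
  refine sum_congr rfl fun j hj => ?_
  rw [card_filter, Nat.cast_sum, mul_sum]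
  refine sum_congr rfl fun i hi => ?_
  rw [sum_eAdd_grid hM0]
  by_cases h : φ i = ψ j
  · rw [if_pos h, if_pos (by simp [h])]
    simp
  · rw [if_neg h, if_neg, Nat.cast_zero, mul_zero]
    intro hd
    have hd' : (M : ℤ) ∣ φ i - ψ j := by simpa [sub_eq_add_neg] using hd
    exact absurd (Int.le_of_dvd (abs_pos.2 (sub_ne_zero.2 h)) ((dvd_abs _ _).2 hd'))
      (not_le.2 (hM i hi j hj))

theorem pairDiff_window {P : ℕ} {z : ℕ × ℕ} (hz : z ∈ window P ×ˢ window P) :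
    |pairDiff z| ≤ 8 * (P : ℤ) ^ 3 := by
  simp only [window, mem_product, mem_Ioc] at hz
  have h := pairDiff_bounds (P := 2 * P) (z := z) (mem_pairs.2 ⟨⟨by omega, by omega⟩, by omega, by omega⟩)
  push_cast at h
  rw [abs_le]
  constructor <;> nlinarith

theorem coincidences_mixed (P Q : ℕ) :
    coincidences (window P ×ˢ pairs Q) (fun w => (w.1 : ℤ) ^ 3 + pairSum w.2) = sixthMoment P Q := by
  simp only [coincidences, sixthMoment, rep, quads, card_filter, sum_product]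
  refine sum_congr rfl fun x _ => ?_
  rw [sum_comm]
  refine sum_congr rfl fun y _ => sum_congr rfl fun u _ => sum_congr rfl fun v _ =>
    if_congr ?_ rfl rfl
  simp only [quadVal, pairDiff]
  omega

/-- **The sixth moment on the grid.** -/
theorem sum_grid_sixth {P Q M : ℕ} (hM : 16 * P ^ 3 + 4 * Q ^ 3 < M) :
    ∑ h ∈ range M, ‖cubeWindow P (h / M)‖ ^ 2 * ‖shortCube Q (h / M)‖ ^ 4 =
      (M : ℝ) * sixthMoment P Q := by
  rw [← coincidences_mixed, ← sum_grid_one (window P ×ˢ pairs Q) _ fun i hi j hj => ?_]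
  · refine sum_congr rfl fun h _ => ?_
    rw [show ‖shortCube Q ((h : ℝ) / M)‖ ^ 4 = ‖shortCube Q ((h : ℝ) / M) ^ 2‖ ^ 2 by
      rw [norm_pow, ← pow_mul], ← mul_pow, ← norm_mul, sq (shortCube _ _), cubeWindow, shortCube, cubeTrig,
      intTrig_mul, intTrig_mul]
    simp only [mul_one]
    rfl
  · simp only [mem_product, window, mem_Ioc] at hi hj
    have h1 := cube_bounds (P := 2 * P) hi.1.2
    have h2 := cube_bounds (P := 2 * P) hj.1.2
    have h3 := pairSum_bounds hi.2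
    have h4 := pairSum_bounds hj.2
    have hM' : 16 * (P : ℤ) ^ 3 + 4 * (Q : ℤ) ^ 3 < M := by exact_mod_cast hM
    push_cast at h1 h2
    rw [mul_pow] at h1 h2
    rw [abs_lt]
    omega

theorem sum_rep_eq (Q : ℕ) : ∑ m ∈ valRange Q, rep Q m = Q ^ 4 := by
  have h := card_eq_sum_card_fiberwise (s := quads Q) (f := quadVal) (t := valRange Q)
    fun w hw => quadVal_mem hw
  refine h.symm.trans ?_
  simp [quads, pairs]
  ring

theorem rep_eq_zero {Q : ℕ} {m : ℤ} (h : 2 * (Q : ℤ) ^ 3 < |m|) : rep Q m = 0 := by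
  rw [rep, card_eq_zero, filter_eq_empty_iff]
  intro w hw e
  have h1 := mem_Icc.1 (quadVal_mem hw)
  rw [e] at h1
  rcases abs_cases m with ⟨h2, -⟩ | ⟨h2, -⟩ <;> omega

theorem coincidences_pairs (Q : ℕ) : coincidences (pairs Q) pairSum = rep Q 0 := by
  simp only [coincidences, rep, quads, card_filter, sum_product, quadVal, sub_eq_zero]

/-- The pairs in the window at a difference in `[-H, H]`, the diagonal left out. -/
def offPairs (P H : ℕ) : Finset (ℕ × ℕ) :=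
  (window P ×ˢ window P).filter fun z => z.1 ≠ z.2 ∧ ((z.2 : ℤ) - z.1).natAbs ≤ H

theorem card_offPairs_le (P H : ℕ) : (offPairs P H).card ≤ P * (2 * H + 1) := by
  refine (card_le_card_of_injOn (fun z : ℕ × ℕ => (z.1, (z.2 : ℤ) - z.1))
    (t := window P ×ˢ Icc (-(H : ℤ)) H) (fun z hz => ?_) fun z _ w _ e => ?_).trans (le_of_eq ?_)
  · simp only [offPairs, mem_coe, mem_filter, mem_product] at hz ⊢
    exact ⟨hz.1.1, mem_Icc.2 ⟨by omega, by omega⟩⟩
  · simp only [Prod.mk.injEq] at e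
    exact Prod.ext e.1 (by omega)
  · rw [card_product, window, Nat.card_Ioc, Int.card_Icc]
    congr 1 <;> omega

/-- The pairs of pairs with one difference. -/
def offShift (P H : ℕ) : Finset ((ℕ × ℕ) × (ℕ × ℕ)) :=
  (offPairs P H ×ˢ offPairs P H).filter fun s => (s.1.2 : ℤ) - s.1.1 = (s.2.2 : ℤ) - s.2.1

theorem offShift_subset (P H : ℕ) : offShift P H ⊆ shift (2 * P) := by
  intro s hs
  simp only [offShift, offPairs, shift, quads, window, mem_filter, mem_product, mem_Ioc,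
    mem_pairs] at hs ⊢
  exact ⟨⟨⟨⟨by omega, by omega⟩, by omega, by omega⟩, ⟨by omega, by omega⟩, by omega, by omega⟩,
    hs.2⟩

theorem card_offShift_zero_le (P H : ℕ) :
    ((offShift P H).filter fun s => shiftVal s = 0).card ≤ (offPairs P H).card := by
  refine card_le_card_of_injOn Prod.fst (fun s hs => ?_) fun s hs t ht e => ?_
  · simp only [mem_coe, offShift, mem_filter, mem_product] at hs ⊢
    exact hs.1.1.1
  · have key : ∀ u ∈ (offShift P H).filter (fun s => shiftVal s = 0), u.2 = u.1 := by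
      intro u hu
      rw [mem_filter] at hu
      have h := hu.2
      rw [shiftVal_eq (offShift_subset P H hu.1)] at h
      have hu' := hu.1
      simp only [offShift, offPairs, window, mem_filter, mem_product, mem_Ioc] at hu'
      rcases mul_eq_zero.1 h with h | h
      · rcases mul_eq_zero.1 h with h | h
        · exact absurd (show u.1.1 = u.1.2 by omega) hu'.1.1.2.1
        · exact Prod.ext (by omega) (by omega)
      · omega
    exact Prod.ext e ((key s hs).trans (e.trans (key t ht).symm))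

theorem exists_rep_zero_le {ε : ℝ} (hε : 0 < ε) : ∃ C : ℝ, 0 < C ∧ ∀ P Q : ℕ, 1 ≤ P → Q ≤ P →
    (rep Q 0 : ℝ) ≤ C * ((Q : ℝ) ^ 2 * (P : ℝ) ^ ε) := by
  obtain ⟨e, he⟩ : ∃ e : ℝ, e = ε / 264 := ⟨_, rfl⟩
  have he0 : 0 < e := by rw [he]; positivity
  refine ⟨257 * (1 + 1 / e) ^ (264 : ℕ), by positivity, fun P Q hP hQP => (rep_zero_le Q).trans ?_⟩
  have hP1 : (1 : ℝ) ≤ P := by exact_mod_cast hP
  have h1 : logOne Q ≤ (1 + 1 / e) * (P : ℝ) ^ e := by
    refine (logOne_mono hQP).trans ?_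
    rw [logOne, add_mul, one_mul, div_mul_eq_mul_div, one_mul]
    linarith [Real.log_le_rpow_div (Nat.cast_nonneg P) he0, Real.one_le_rpow hP1 he0.le]
  have h2 := pow_le_pow_left₀ (zero_le_one.trans (one_le_logOne Q)) h1 264
  rw [mul_pow, ← Real.rpow_natCast ((P : ℝ) ^ e) 264, ← Real.rpow_mul (by linarith),
    show e * ((264 : ℕ) : ℝ) = ε by rw [he]; push_cast; field_simp] at h2
  calc 257 * ((Q : ℝ) ^ 2 * logOne Q ^ 264)
      ≤ 257 * ((Q : ℝ) ^ 2 * ((1 + 1 / e) ^ 264 * (P : ℝ) ^ ε)) := by gcongr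
    _ = _ := by ring

/-- **The differenced fourth moment.** -/
theorem exists_offShift_le {ε : ℝ} (hε : 0 < ε) : ∃ C : ℝ, 0 < C ∧
    ∀ P Q H : ℕ, 1 ≤ P → Q ≤ P →
      ∑ s ∈ offShift P H, (rep Q (shiftVal s) : ℝ) ≤
        (P * (2 * H + 1) : ℕ) * (rep Q 0 : ℝ) + C * ((Q : ℝ) ^ 4 * (P : ℝ) ^ ε) := by
  classical
  obtain ⟨D, hD1, hD⟩ := RepresentationBound.card_divisors_isBigO (ε / 6) (by positivity)
  refine ⟨4 * (D * (2 : ℝ) ^ (ε / 6)) ^ 2, by positivity, fun P Q H hP hQP => ?_⟩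
  rw [← sum_filter_add_sum_filter_not (offShift P H) (fun s => shiftVal s = 0)]
  refine add_le_add ?_ ?_
  · rw [sum_congr rfl fun s hs => by rw [(mem_filter.1 hs).2], sum_const, nsmul_eq_mul]
    exact mul_le_mul_of_nonneg_right (Nat.cast_le.2 ((card_offShift_zero_le P H).trans
      (card_offPairs_le P H))) (Nat.cast_nonneg _)
  rw [sum_filter, ← sum_filter_of_ne (p := fun s => shiftVal s ∈ valRange Q) fun s _ hne => ?_]
  swap
  · by_contra hmem
    refine hne ?_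
    rw [valRange, mem_Icc] at hmem
    rw [rep_eq_zero, Nat.cast_zero, ite_self]
    rw [lt_abs]; omega
  rw [← sum_fiberwise_of_maps_to (g := shiftVal) (t := valRange Q) fun s hs => (mem_filter.1 hs).2]
  have hfib : ∀ m ∈ valRange Q, ∑ s ∈ ((offShift P H).filter fun s => shiftVal s ∈ valRange Q).filter
      (fun s => shiftVal s = m), (if ¬shiftVal s = 0 then (rep Q (shiftVal s) : ℝ) else 0) ≤
        4 * (D * (2 : ℝ) ^ (ε / 6)) ^ 2 * (P : ℝ) ^ ε * rep Q m := by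
    intro m hm
    rcases eq_or_ne m 0 with rfl | hm0
    · refine le_trans (le_of_eq (sum_eq_zero fun s hs => ?_)) (by positivity)
      rw [if_neg]
      simp [(mem_filter.1 hs).2]
    rw [sum_congr rfl fun s hs => by rw [(mem_filter.1 hs).2, if_pos hm0], sum_const, nsmul_eq_mul]
    refine mul_le_mul_of_nonneg_right ?_ (Nat.cast_nonneg _)
    refine (Nat.cast_le.2 ((card_le_card ((filter_subset_filter _ ((filter_subset _ _).trans
      (offShift_subset P H))))).trans (card_shift_fiber_le (2 * P) hm0))).trans ?_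
    push_cast
    rw [mul_assoc]
    refine mul_le_mul_of_nonneg_left ?_ (by norm_num)
    have hd := hD m.natAbs (by simpa using hm0)
    have hmQ : ((m.natAbs : ℕ) : ℝ) ≤ 2 * (P : ℝ) ^ 3 := by
      rw [valRange, mem_Icc] at hm
      have hP3 : (Q : ℤ) ^ 3 ≤ (P : ℤ) ^ 3 := (cube_bounds hQP).2
      have h3 : (m.natAbs : ℤ) ≤ 2 * (P : ℤ) ^ 3 := by omega
      exact_mod_cast h3
    refine (pow_le_pow_left₀ (Nat.cast_nonneg _) (hd.trans (mul_le_mul_of_nonneg_left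
      (Real.rpow_le_rpow (Nat.cast_nonneg _) hmQ (by positivity)) (by linarith))) 2).trans ?_
    rw [Real.mul_rpow two_pos.le (by positivity), ← mul_assoc, mul_pow (D * _),
      ← Real.rpow_natCast (((P : ℝ) ^ 3) ^ (ε / 6)) 2, ← Real.rpow_mul (by positivity),
      ← Real.rpow_natCast (P : ℝ) 3, ← Real.rpow_mul (Nat.cast_nonneg P)]
    refine le_of_eq ?_
    push_cast
    ring_nf
  refine (sum_le_sum hfib).trans (le_of_eq ?_)
  rw [← mul_sum, ← Nat.cast_sum, sum_rep_eq]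
  push_cast
  ring

/-- The inequality of Cauchy and Schwarz behind the sixth moment. -/
theorem sum_offPairs_rep_le (P Q H : ℕ) :
    ∑ z ∈ offPairs P H, (rep Q (pairDiff z) : ℝ) ≤
      √(rep Q 0 : ℝ) * √((2 * H + 1 : ℕ) * ∑ s ∈ offShift P H, (rep Q (shiftVal s) : ℝ)) := by
  classical
  obtain ⟨M, hM⟩ : ∃ M, M = 16 * P ^ 3 + 4 * Q ^ 3 + 1 := ⟨_, rfl⟩
  have hM0 : 0 < M := by omega
  have hMr : (0 : ℝ) < M := Nat.cast_pos.2 hM0
  have hMz : (M : ℤ) = 16 * (P : ℤ) ^ 3 + 4 * (Q : ℤ) ^ 3 + 1 := by rw [hM]; push_cast; ring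
  refine le_of_mul_le_mul_left ?_ hMr
  obtain ⟨G, hG⟩ : ∃ G : ℕ → ℝ, G = fun h : ℕ => ‖shortCube Q ((h : ℝ) / M)‖ ^ 2 := ⟨_, rfl⟩
  obtain ⟨D, hD⟩ : ∃ D : ℕ → ℂ,
      D = fun h : ℕ => intTrig (offPairs P H) (fun _ => 1) pairDiff ((h : ℝ) / M) := ⟨_, rfl⟩
  have hP3 : (0 : ℤ) ≤ (P : ℤ) ^ 3 := by positivity
  have hoff : ∀ z ∈ offPairs P H, |pairDiff z| ≤ 8 * (P : ℤ) ^ 3 := fun z hz =>
    pairDiff_window (mem_filter.1 hz).1
  have h1 : (M : ℝ) * ∑ z ∈ offPairs P H, (rep Q (pairDiff z) : ℝ) ≤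
      ∑ h ∈ range M, G h * (G h * ‖D h‖) := by
    have hgrid := congrArg norm (sum_grid_two (quads Q) (offPairs P H) quadVal pairDiff hM0
      fun i hi j hj => by
        have a1 := mem_Icc.1 (quadVal_mem hi)
        have a2 := abs_le.1 (hoff j hj)
        rw [abs_lt]
        omega)
    rw [Complex.norm_natCast, Nat.cast_mul, Nat.cast_sum] at hgrid
    refine le_trans (le_of_eq hgrid.symm) ((norm_sum_le _ _).trans (le_of_eq ?_))
    refine sum_congr rfl fun h _ => ?_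
    rw [norm_mul, Complex.norm_conj, hG, hD]
    simp only
    rw [← mul_assoc, ← pow_add, shortCube, norm_cubeTrig_pow_four]
    simp only [map_one, mul_one]
  have h2 : ∑ h ∈ range M, G h ^ 2 = (M : ℝ) * rep Q 0 := by
    rw [← coincidences_pairs, ← sum_grid_one (pairs Q) pairSum fun i hi j hj => by
      have a1 := pairSum_bounds hi
      have a2 := pairSum_bounds hj
      rw [abs_lt]; omega]
    refine sum_congr rfl fun h _ => ?_
    rw [hG]
    simp only
    rw [← pow_mul, show (2 * 2 : ℕ) = 4 from rfl, show ‖shortCube Q ((h : ℝ) / M)‖ ^ 4 =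
      ‖shortCube Q ((h : ℝ) / M) ^ 2‖ ^ 2 by rw [norm_pow, ← pow_mul], sq (shortCube _ _),
      shortCube, cubeTrig, intTrig_mul]
    simp only [mul_one]
    rfl
  have h3 : ∑ h ∈ range M, (G h * ‖D h‖) ^ 2 ≤
      (2 * H + 1 : ℕ) * ((M : ℝ) * ∑ s ∈ offShift P H, (rep Q (shiftVal s) : ℝ)) := by
    obtain ⟨T, hT⟩ : ∃ T : ℤ → Finset (ℕ × ℕ),
        T = fun k => (offPairs P H).filter fun z => (z.2 : ℤ) - z.1 = k := ⟨_, rfl⟩
    have hmaps : ∀ z ∈ offPairs P H, (z.2 : ℤ) - z.1 ∈ Icc (-(H : ℤ)) H := fun z hz => by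
      have := (mem_filter.1 hz).2.2
      rw [mem_Icc]; omega
    have hsplit : ∀ h, D h = ∑ k ∈ Icc (-(H : ℤ)) H,
        intTrig (T k) (fun _ => 1) pairDiff ((h : ℝ) / M) := fun h => by
      rw [hD, hT]
      simp only [intTrig]
      exact (sum_fiberwise_of_maps_to hmaps _).symm
    have hpt : ∀ h, (G h * ‖D h‖) ^ 2 ≤ (2 * H + 1 : ℕ) * ∑ k ∈ Icc (-(H : ℤ)) H,
        ‖intTrig (pairs Q ×ˢ T k) (fun _ => 1) (fun w => pairSum w.1 + pairDiff w.2)
          ((h : ℝ) / M)‖ ^ 2 := by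
      intro h
      have hcard : ((Icc (-(H : ℤ)) H).card : ℝ) = (2 * H + 1 : ℕ) := by
        rw [Int.card_Icc]
        exact_mod_cast (show ((H : ℤ) + 1 - -(H : ℤ)).toNat = 2 * H + 1 by omega)
      rw [← hcard]
      refine le_trans ?_ sq_sum_le_card_mul_sum_sq
      refine pow_le_pow_left₀ (by rw [hG]; positivity) ?_ 2
      rw [hsplit]
      refine (mul_le_mul_of_nonneg_left (norm_sum_le _ _) (by rw [hG]; positivity)).trans
        (le_of_eq ?_)
      rw [mul_sum, hG]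
      refine sum_congr rfl fun k _ => ?_
      simp only
      rw [← norm_pow, ← norm_mul, sq, shortCube, cubeTrig, intTrig_mul, intTrig_mul]
      simp only [mul_one]
      rfl
    refine (sum_le_sum fun h _ => hpt h).trans (le_of_eq ?_)
    rw [← mul_sum, sum_comm, sum_congr rfl fun k _ => sum_grid_one _ _ fun i hi j hj => by
      simp only [hT, mem_product, mem_filter] at hi hj
      have a1 := pairSum_bounds hi.1
      have a2 := pairSum_bounds hj.1
      have a3 := abs_le.1 (hoff _ hi.2.1)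
      have a4 := abs_le.1 (hoff _ hj.2.1)
      rw [abs_lt]; omega, ← mul_sum, ← Nat.cast_sum, ← Nat.cast_sum (s := offShift P H)]
    congr 3
    rw [← sum_fiberwise_of_maps_to (s := offShift P H) (g := fun s => (s.1.2 : ℤ) - s.1.1)
      (t := Icc (-(H : ℤ)) H) fun s hs => hmaps _ (mem_product.1 (mem_filter.1 hs).1).1]
    refine sum_congr rfl fun k _ => ?_
    have e : (offShift P H).filter (fun s => (s.1.2 : ℤ) - s.1.1 = k) = T k ×ˢ T k := by
      ext s
      simp only [offShift, hT, mem_filter, mem_product]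
      constructor
      · rintro ⟨⟨⟨a1, a2⟩, a3⟩, a4⟩
        exact ⟨⟨a1, a4⟩, a2, a3 ▸ a4⟩
      · rintro ⟨⟨a1, a4⟩, a2, a5⟩
        exact ⟨⟨⟨a1, a2⟩, a4.trans a5.symm⟩, a4⟩
    rw [e]
    simp only [coincidences, rep, quads, card_filter, sum_product]
    rw [sum_comm]
    refine sum_congr rfl fun z _ => ?_
    rw [sum_congr rfl fun u _ => sum_comm, sum_comm]
    refine sum_congr rfl fun w _ => sum_congr rfl fun u _ => sum_congr rfl fun v _ =>
      if_congr ?_ rfl rfl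
    simp only [quadVal, shiftVal]
    omega
  refine h1.trans ((Real.sum_mul_le_sqrt_mul_sqrt _ _ _).trans ?_)
  rw [h2]
  refine (mul_le_mul_of_nonneg_left (Real.sqrt_le_sqrt h3) (Real.sqrt_nonneg _)).trans (le_of_eq ?_)
  rw [mul_left_comm ((2 * H + 1 : ℕ) : ℝ), Real.sqrt_mul hMr.le, Real.sqrt_mul hMr.le,
    mul_mul_mul_comm, Real.mul_self_sqrt hMr.le]

/-- **The sixth moment.** -/
theorem exists_sixthMoment_le {ε : ℝ} (hε : 0 < ε) : ∃ C : ℝ, 0 < C ∧ ∀ P Q : ℕ, 1 ≤ P →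
    (Q : ℝ) ≤ (P : ℝ) ^ (4 / 5 : ℝ) →
      (sixthMoment P Q : ℝ) ≤ C * (P : ℝ) ^ (13 / 5 + ε) := by
  obtain ⟨C₀, hC₀, h0⟩ := exists_rep_zero_le hε
  obtain ⟨C₁, hC₁, h1⟩ := exists_offShift_le hε
  refine ⟨C₀ + √(C₀ * (3 * (3 * C₀ + C₁))), by positivity, fun P Q hP hQ => ?_⟩
  have hP1 : (1 : ℝ) ≤ P := by exact_mod_cast hP
  obtain ⟨a, ha⟩ : ∃ a : ℝ, a = (P : ℝ) ^ (1 / 5 : ℝ) := ⟨_, rfl⟩
  obtain ⟨b, hb⟩ : ∃ b : ℝ, b = (P : ℝ) ^ ε := ⟨_, rfl⟩
  have ha1 : 1 ≤ a := ha ▸ Real.one_le_rpow hP1 (by norm_num)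
  have hb0 : 0 < b := hb ▸ Real.rpow_pos_of_pos (by linarith) ε
  have hPa : (P : ℝ) = a ^ 5 := by
    rw [ha, ← Real.rpow_natCast, ← Real.rpow_mul (by linarith)]
    norm_num
  have hQa : (Q : ℝ) ≤ a ^ 4 := by
    refine hQ.trans (le_of_eq ?_)
    rw [ha, ← Real.rpow_natCast, ← Real.rpow_mul (by linarith)]
    norm_num
  have hQP : Q ≤ P := by
    have : (Q : ℝ) ≤ P := hQa.trans (hPa ▸ pow_le_pow_right₀ ha1 (by norm_num))
    exact_mod_cast this
  obtain ⟨H, hH⟩ : ∃ H, H = 2 * Q ^ 3 / (3 * P ^ 2) := ⟨_, rfl⟩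
  have hH2 : ((2 * H + 1 : ℕ) : ℝ) ≤ 3 * a ^ 2 := by
    have h2 : H * (3 * P ^ 2) ≤ 2 * Q ^ 3 := hH ▸ Nat.div_mul_le_self _ _
    have h3 : (H : ℝ) * (3 * (a ^ 5) ^ 2) ≤ 2 * (Q : ℝ) ^ 3 := by
      rw [← hPa]; exact_mod_cast h2
    have h4 : (Q : ℝ) ^ 3 ≤ (a ^ 4) ^ 3 := pow_le_pow_left₀ (Nat.cast_nonneg Q) hQa 3
    have h5 : (3 * (H : ℝ)) * a ^ 10 ≤ (2 * a ^ 2) * a ^ 10 := by linarith
    have h6 := le_of_mul_le_mul_right h5 (by positivity)
    have h7 : (1 : ℝ) ≤ a ^ 2 := one_le_pow₀ ha1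
    push_cast
    linarith
  have hsplit : (sixthMoment P Q : ℝ) ≤
      P * rep Q 0 + ∑ z ∈ offPairs P H, (rep Q (pairDiff z) : ℝ) := by
    rw [sixthMoment, Nat.cast_sum,
      ← sum_filter_add_sum_filter_not (window P ×ˢ window P) (fun z => z.1 = z.2)]
    refine add_le_add ?_ (le_of_eq ?_)
    · refine (sum_le_card_nsmul _ _ (rep Q 0 : ℝ) fun z hz => ?_).trans ?_
      · rw [show pairDiff z = 0 by simp [pairDiff, (mem_filter.1 hz).2]]
      · rw [nsmul_eq_mul]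
        refine mul_le_mul_of_nonneg_right (Nat.cast_le.2 ((card_le_card_of_injOn Prod.fst
          (t := window P) (fun z hz => (mem_product.1 (mem_filter.1 hz).1).1)
          fun z hz w hw e => Prod.ext e ?_).trans (le_of_eq (by simp [window]; omega))))
          (Nat.cast_nonneg _)
        exact (mem_filter.1 hz).2.symm.trans (e.trans (mem_filter.1 hw).2)
    · refine (sum_subset (fun z hz => ?_) fun z hz hz' => ?_).symm
      · simp only [offPairs, mem_filter] at hz ⊢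
        exact ⟨hz.1, hz.2.1⟩
      · rw [mem_filter] at hz
        rw [rep_eq_zero, Nat.cast_zero]
        have hbig : H < ((z.2 : ℤ) - z.1).natAbs := by
          by_contra h
          exact hz' (mem_filter.2 ⟨hz.1, hz.2, not_lt.1 h⟩)
        obtain ⟨d, hd⟩ : ∃ d, d = ((z.2 : ℤ) - z.1).natAbs := ⟨_, rfl⟩
        have h3 : 2 * Q ^ 3 < d * (3 * P ^ 2) :=
          (Nat.div_lt_iff_lt_mul (by positivity)).1 (hH ▸ hd ▸ hbig)
        have hzw := hz.1
        simp only [window, mem_product, mem_Ioc] at hzw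
        refine lt_of_lt_of_le (show 2 * (Q : ℤ) ^ 3 < (d : ℤ) * (3 * (P : ℤ) ^ 2) by
          exact_mod_cast h3) ?_
        rw [pairDiff, show (z.2 : ℤ) ^ 3 - (z.1 : ℤ) ^ 3 = ((z.2 : ℤ) - z.1) *
          ((z.2 : ℤ) ^ 2 + z.2 * z.1 + (z.1 : ℤ) ^ 2) by ring, abs_mul, hd, Int.natCast_natAbs]
        refine mul_le_mul_of_nonneg_left (le_trans ?_ (le_abs_self _)) (abs_nonneg _)
        have a1 : (P : ℤ) ≤ z.1 := by omega
        have a2 : (P : ℤ) ≤ z.2 := by omega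
        nlinarith [mul_le_mul a1 a2 (by positivity) (by positivity),
          mul_le_mul a1 a1 (by positivity) (by positivity),
          mul_le_mul a2 a2 (by positivity) (by positivity)]
  have hrep : (rep Q 0 : ℝ) ≤ C₀ * (a ^ 8 * b) := by
    refine (h0 P Q hP hQP).trans ?_
    rw [← hb]
    gcongr
    exact (pow_le_pow_left₀ (Nat.cast_nonneg Q) hQa 2).trans (le_of_eq (by ring))
  have hoff : ((2 * H + 1 : ℕ) : ℝ) * ∑ s ∈ offShift P H, (rep Q (shiftVal s) : ℝ) ≤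
      3 * (3 * C₀ + C₁) * (a ^ 18 * b) := by
    refine (mul_le_mul hH2 ((h1 P Q H hP hQP).trans (add_le_add (d := C₁ * (a ^ 16 * b)) (le_refl _)
      ?_)) (sum_nonneg fun _ _ => Nat.cast_nonneg _) (by positivity)).trans ?_
    · rw [← hb]
      gcongr
      exact (pow_le_pow_left₀ (Nat.cast_nonneg Q) hQa 4).trans (le_of_eq (by ring))
    rw [Nat.cast_mul, hPa]
    have h15 : a ^ 5 * ((2 * H + 1 : ℕ) : ℝ) * (rep Q 0 : ℝ) ≤ 3 * C₀ * (a ^ 16 * b) := by
      refine (mul_le_mul (mul_le_mul_of_nonneg_left hH2 (by positivity)) hrep (Nat.cast_nonneg _)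
        (by positivity)).trans ?_
      calc a ^ 5 * (3 * a ^ 2) * (C₀ * (a ^ 8 * b)) = 3 * C₀ * (a ^ 15 * b) := by ring
        _ ≤ _ := by gcongr; norm_num
    calc 3 * a ^ 2 * (a ^ 5 * ((2 * H + 1 : ℕ) : ℝ) * (rep Q 0 : ℝ) + C₁ * (a ^ 16 * b))
        ≤ 3 * a ^ 2 * (3 * C₀ * (a ^ 16 * b) + C₁ * (a ^ 16 * b)) := by gcongr
      _ = _ := by ring
  refine hsplit.trans ?_
  rw [Real.rpow_add (by linarith), ← hb, show (P : ℝ) ^ (13 / 5 : ℝ) = a ^ 13 by
    rw [ha, ← Real.rpow_natCast, ← Real.rpow_mul (by linarith)]; norm_num, add_mul, hPa]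
  refine add_le_add ?_ ?_
  · calc a ^ 5 * (rep Q 0 : ℝ) ≤ a ^ 5 * (C₀ * (a ^ 8 * b)) := by gcongr
      _ = _ := by ring
  · refine (sum_offPairs_rep_le P Q H).trans ((mul_le_mul (Real.sqrt_le_sqrt hrep)
      (Real.sqrt_le_sqrt hoff) (Real.sqrt_nonneg _) (Real.sqrt_nonneg _)).trans (le_of_eq ?_))
    rw [← Real.sqrt_mul (by positivity), show C₀ * (a ^ 8 * b) * (3 * (3 * C₀ + C₁) * (a ^ 18 * b)) =
      C₀ * (3 * (3 * C₀ + C₁)) * (a ^ 13 * b) ^ 2 by ring, Real.sqrt_mul (by positivity),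
      Real.sqrt_sq (by positivity)]

end FA.FourCubes
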